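/-
Elementary facts on a Galois extension of number fields of prime degree acting on the rings of
integers: generators, the norm as a product, fixed elements.
-/
import Mathlib.NumberTheory.NumberField.Basic
import Mathlib.FieldTheory.Galois.IsGaloisGroup
import Mathlib.RingTheory.IntegralClosure.IntegralRestrict
import Mathlib.RingTheory.Norm.Basic

set_option autoImplicit false

namespace Fermat.Agent.CFT

open scoped NumberField

variable {K L : Type*} [Field K] [NumberField K] [Field L] [NumberField L] [Algebra K L]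

theorem coe_gal_smul (σ : Gal(L/K)) (x : 𝓞 L) : ((σ • x : 𝓞 L) : L) = σ (x : L) := rfl

variable [IsGalois K L] {p : ℕ}

theorem exists_generator (hp : p.Prime) (hdeg : Module.finrank K L = p) :
    ∃ σ : Gal(L/K), orderOf σ = p ∧ (∀ τ : Gal(L/K), τ ∈ Subgroup.zpowers σ) ∧
      ∀ τ : Gal(L/K), ∃ i < p, σ ^ i = τ := by
  haveI : Fact p.Prime := ⟨hp⟩
  have hc : Nat.card Gal(L/K) = p := by rw [IsGalois.card_aut_eq_finrank, hdeg]
  haveI : Nontrivial Gal(L/K) :=
    Finite.one_lt_card_iff_nontrivial.1 (by rw [hc]; exact hp.one_lt)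
  obtain ⟨σ, hσ⟩ := exists_ne (1 : Gal(L/K))
  have hgen : ∀ τ : Gal(L/K), τ ∈ Subgroup.zpowers σ := fun τ => mem_zpowers_of_prime_card hc hσ
  have hord : orderOf σ = p := by rw [orderOf_eq_card_of_forall_mem_zpowers hgen, hc]
  refine ⟨σ, hord, hgen, fun τ => ?_⟩
  obtain ⟨n, hn⟩ := mem_powers_iff_mem_zpowers.2 (hgen τ)
  exact ⟨n % p, Nat.mod_lt _ hp.pos, by rw [← hord, pow_mod_orderOf]; exact hn⟩

/-- The norm is the product of the conjugates. -/
theorem algebraMap_intNorm_eq_prod {σ : Gal(L/K)} (hord : orderOf σ = p)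
    (hpow : ∀ τ : Gal(L/K), ∃ i < p, σ ^ i = τ) (x : 𝓞 L) :
    algebraMap (𝓞 K) (𝓞 L) (Algebra.intNorm (𝓞 K) (𝓞 L) x) =
      ∏ i ∈ Finset.range p, (σ ^ i) • x := by
  classical
  apply IsFractionRing.injective (𝓞 L) L
  rw [← IsScalarTower.algebraMap_apply, IsScalarTower.algebraMap_apply (𝓞 K) K L,
    Algebra.algebraMap_intNorm (L := L), Algebra.norm_eq_prod_automorphisms, map_prod]
  refine (Finset.prod_nbij (fun i => σ ^ i) (fun i _ => Finset.mem_univ _) ?_ ?_
    (fun i _ => rfl)).symm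
  · intro i hi j hj h
    simp only [Finset.coe_range, Set.mem_Iio] at hi hj
    exact pow_injOn_Iio_orderOf (by rw [hord]; exact hi) (by rw [hord]; exact hj) h
  · intro τ _
    obtain ⟨i, hi, rfl⟩ := hpow τ
    exact ⟨i, Finset.mem_range.2 hi, rfl⟩

theorem intNorm_gal_smul (σ : Gal(L/K)) (x : 𝓞 L) :
    Algebra.intNorm (𝓞 K) (𝓞 L) (σ • x) = Algebra.intNorm (𝓞 K) (𝓞 L) x := by
  apply IsFractionRing.injective (𝓞 K) K
  rw [Algebra.algebraMap_intNorm (L := L), Algebra.algebraMap_intNorm (L := L)]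
  exact Algebra.norm_eq_of_algEquiv σ (x : L)

omit [IsGalois K L] in
theorem smul_pow_eq {σ : Gal(L/K)} {x : 𝓞 L} (h : σ • x = x) (i : ℕ) : (σ ^ i) • x = x := by
  induction i with
  | zero => simp
  | succ i ih => rw [pow_succ, mul_smul, h, ih]

theorem exists_algebraMap_of_fixed {σ : Gal(L/K)}
    (hpow : ∀ τ : Gal(L/K), ∃ i < p, σ ^ i = τ) {x : 𝓞 L} (h : σ • x = x) :
    ∃ k : 𝓞 K, algebraMap (𝓞 K) (𝓞 L) k = x :=
  Algebra.IsInvariant.isInvariant (G := Gal(L/K)) x fun τ => by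
    obtain ⟨i, -, rfl⟩ := hpow τ
    exact smul_pow_eq h i

theorem gal_smul_algebraMap (σ : Gal(L/K)) (k : 𝓞 K) :
    σ • algebraMap (𝓞 K) (𝓞 L) k = algebraMap (𝓞 K) (𝓞 L) k := smul_algebraMap σ k

end Fermat.Agent.CFT
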