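/-
In an unramified Galois extension of number fields, an ideal fixed by the Galois group is extended
from the base field; extension of ideals is injective.
-/
import Fermat.Agent.CFT.GaloisNorm
import Mathlib.NumberTheory.RamificationInertia.Galois
import Mathlib.RingTheory.Ideal.Norm.RelNorm

set_option autoImplicit false

namespace Fermat.Agent.CFT

open scoped NumberField Pointwise

variable {K L : Type*} [Field K] [NumberField K] [Field L] [NumberField L] [Algebra K L]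

theorem map_algebraMap_injective {c c' : Ideal (𝓞 K)}
    (h : c.map (algebraMap (𝓞 K) (𝓞 L)) = c'.map (algebraMap (𝓞 K) (𝓞 L))) : c = c' := by
  have := congrArg (Ideal.relNorm (𝓞 K)) h
  rw [Ideal.relNorm_algebraMap, Ideal.relNorm_algebraMap] at this
  exact (pow_left_inj Module.finrank_pos.ne').1 this

theorem gal_smul_span (σ : Gal(L/K)) (x : 𝓞 L) :
    σ • (Ideal.span {x} : Ideal (𝓞 L)) = Ideal.span {σ • x} := by
  rw [Ideal.pointwise_smul_def, Ideal.map_span, Set.image_singleton]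
  rfl

theorem gal_smul_map (σ : Gal(L/K)) (c : Ideal (𝓞 K)) :
    σ • c.map (algebraMap (𝓞 K) (𝓞 L)) = c.map (algebraMap (𝓞 K) (𝓞 L)) := by
  rw [Ideal.pointwise_smul_def, Ideal.map_map]
  exact congrArg (fun f => Ideal.map f c) (RingHom.ext fun k => Subtype.ext (σ.commutes (k : K)))

theorem gal_smul_mul (σ : Gal(L/K)) (I J : Ideal (𝓞 L)) : σ • (I * J) = σ • I * σ • J := by
  simp only [Ideal.pointwise_smul_def, Ideal.map_mul]

/-- An ideal fixed by a generator of the Galois group of an unramified extension is extended from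
the base. -/
theorem exists_map_eq_of_fixed [IsGalois K L] {p : ℕ} {σ : Gal(L/K)}
    (hpow : ∀ τ : Gal(L/K), ∃ i < p, σ ^ i = τ)
    (hur : ∀ P : Ideal (𝓞 L), P.IsMaximal → P.ramificationIdx (𝓞 K) = 1)
    (J : Ideal (𝓞 L)) (hJ : J ≠ ⊥) (h : σ • J = J) :
    ∃ c : Ideal (𝓞 K), c.map (algebraMap (𝓞 K) (𝓞 L)) = J := by
  induction J using WellFoundedGT.induction with
  | ind J ih =>
    rcases eq_or_ne J ⊤ with rfl | hne
    · exact ⟨⊤, Ideal.map_top _⟩
    obtain ⟨P, hP, hJP⟩ := Ideal.exists_le_maximal J hne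
    haveI := hP
    have hP0 : P ≠ ⊥ := fun h0 => hJ (le_bot_iff.1 (h0 ▸ hJP))
    set 𝔭 := P.under (𝓞 K) with h𝔭
    have h𝔭0 : 𝔭 ≠ ⊥ := fun h0 => hP0 (Ideal.eq_bot_of_comap_eq_bot h0)
    haveI : 𝔭.IsMaximal := Ideal.IsMaximal.under (𝓞 K) P
    have hfix : ∀ τ : Gal(L/K), τ • J = J := by
      intro τ
      obtain ⟨i, -, rfl⟩ := hpow τ
      clear * - h
      induction i with
      | zero => simp
      | succ i ih => rw [pow_succ, mul_smul, h, ih]
    have hdvd : 𝔭.map (algebraMap (𝓞 K) (𝓞 L)) ∣ J := by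
      rw [Ideal.map_algebraMap_eq_finsetProd_pow (S := 𝓞 K) (R := 𝓞 L) (p := 𝔭) h𝔭0]
      have hmem : ∀ Q ∈ (𝔭.primesOver (𝓞 L)).toFinset, Prime Q ∧ Q ∣ J ∧
          Q.ramificationIdx (𝓞 K) = 1 := by
        intro Q hQ
        rw [Set.mem_toFinset] at hQ
        obtain ⟨hQp, hQo⟩ := hQ
        have hQ0 : Q ≠ ⊥ := Ideal.ne_bot_of_liesOver_of_ne_bot h𝔭0 Q
        refine ⟨Ideal.prime_of_isPrime hQ0 hQp, ?_, hur Q (hQp.isMaximal hQ0)⟩
        obtain ⟨τ, rfl⟩ := Ideal.exists_smul_eq_of_isGaloisGroup 𝔭 P Q Gal(L/K)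
        rw [Ideal.dvd_iff_le, ← hfix τ, Ideal.pointwise_smul_def, Ideal.pointwise_smul_def]
        exact Ideal.map_mono hJP
      rw [Finset.prod_congr rfl (fun Q hQ => by rw [(hmem Q hQ).2.2, pow_one])]
      exact Finset.prod_primes_dvd _ (fun Q hQ => (hmem Q hQ).1) (fun Q hQ => (hmem Q hQ).2.1)
    obtain ⟨J', hJ'⟩ := hdvd
    have hm0 : 𝔭.map (algebraMap (𝓞 K) (𝓞 L)) ≠ ⊥ := fun h0 => hJ (by rw [hJ', h0, Ideal.bot_mul])
    have hJ'0 : J' ≠ ⊥ := fun h0 => hJ (by rw [hJ', h0, Ideal.mul_bot])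
    have hfix' : σ • J' = J' := by
      apply mul_left_cancel₀ hm0
      rw [← hJ']
      conv_rhs => rw [← h, hJ', gal_smul_mul, gal_smul_map]
    have hlt : J < J' := by
      refine lt_of_le_of_ne (hJ' ▸ Ideal.mul_le_right) fun heq => ?_
      have h1 : 𝔭.map (algebraMap (𝓞 K) (𝓞 L)) * J' = 1 * J' := by rw [one_mul, ← hJ', heq]
      have h2 := mul_right_cancel₀ hJ'0 h1
      rw [Ideal.one_eq_top] at h2
      exact hP.ne_top (top_le_iff.1 (h2 ▸ Ideal.map_comap_le))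
    obtain ⟨c, hc⟩ := ih J' hlt hJ'0 hfix'
    exact ⟨𝔭 * c, by rw [Ideal.map_mul, hc, hJ']⟩

end Fermat.Agent.CFT
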