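/-
Norm and Galois maps on class groups, and the Hilbert 90 lemma on integers.
-/
import Fermat.Agent.CFT.GaloisNorm
import Fermat.Agent.CFT.FixedIdeals
import Mathlib.RingTheory.ClassGroup.ExtendedHom
import Mathlib.LinearAlgebra.LinearIndependent.Lemmas
import Mathlib.RingTheory.Algebraic.Integral
import Mathlib.FieldTheory.PrimitiveElement

set_option autoImplicit false

namespace Fermat.Agent.CFT

open scoped NumberField nonZeroDivisors Pointwise

/-- A relation which is total, multiplicative and functional is the graph of a homomorphism. -/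
theorem exists_hom_of_rel {G H : Type*} [Group G] [Group H] (R : G → H → Prop)
    (hex : ∀ g, ∃ h, R g h) (hmul : ∀ g g' h h', R g h → R g' h' → R (g * g') (h * h'))
    (huniq : ∀ g h h', R g h → R g h' → h = h') :
    ∃ f : G →* H, ∀ g, R g (f g) := by
  choose f hf using hex
  exact ⟨MonoidHom.mk' f fun a b => huniq _ _ _ (hf _) (hmul _ _ _ _ (hf a) (hf b)), hf⟩

/-- A homomorphism on nonzero ideals which kills principal ideals descends to the class group. -/
theorem exists_classHom {R G : Type*} [CommRing R] [IsDedekindDomain R] [CommGroup G]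
    (φ : (Ideal R)⁰ →* G)
    (h : ∀ I : (Ideal R)⁰, (∃ x : R, (I : Ideal R) = Ideal.span {x}) → φ I = 1) :
    ∃ ψ : ClassGroup R →* G, ∀ J, ψ (ClassGroup.mk0 J) = φ J := by
  have hwd : ∀ I J : (Ideal R)⁰, ClassGroup.mk0 I = ClassGroup.mk0 J → φ I = φ J := by
    intro I J hIJ
    obtain ⟨x, y, hx, hy, hxy⟩ := ClassGroup.mk0_eq_mk0_iff.1 hIJ
    have hxm : Ideal.span {x} ∈ (Ideal R)⁰ :=
      mem_nonZeroDivisors_iff_ne_zero.2 (by simpa using hx)
    have hym : Ideal.span {y} ∈ (Ideal R)⁰ :=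
      mem_nonZeroDivisors_iff_ne_zero.2 (by simpa using hy)
    have he : (⟨_, hxm⟩ : (Ideal R)⁰) * I = ⟨_, hym⟩ * J := Subtype.ext hxy
    have := congrArg φ he
    rwa [map_mul, map_mul, h ⟨_, hxm⟩ ⟨x, rfl⟩, h ⟨_, hym⟩ ⟨y, rfl⟩, one_mul, one_mul] at this
  obtain ⟨ψ, hψ⟩ := exists_hom_of_rel
    (fun (C : ClassGroup R) (g : G) => ∃ J, ClassGroup.mk0 J = C ∧ φ J = g)
    (fun C => by
      obtain ⟨J, rfl⟩ := ClassGroup.mk0_surjective C
      exact ⟨_, J, rfl, rfl⟩)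
    (fun C C' g g' ⟨J, h1, h2⟩ ⟨J', h1', h2'⟩ =>
      ⟨J * J', by rw [map_mul, h1, h1'], by rw [map_mul, h2, h2']⟩)
    (fun C g g' ⟨J, h1, h2⟩ ⟨J', h1', h2'⟩ => by
      rw [← h2, ← h2']; exact hwd _ _ (h1.trans h1'.symm))
  refine ⟨ψ, fun J => ?_⟩
  obtain ⟨J', h1, h2⟩ := hψ (ClassGroup.mk0 J)
  rw [← h2]
  exact hwd _ _ h1

variable (K L : Type*) [Field K] [NumberField K] [Field L] [NumberField L] [Algebra K L]

/-- The relative norm on nonzero ideals. -/
noncomputable def relNormNZ : (Ideal (𝓞 L))⁰ →* (Ideal (𝓞 K))⁰ where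
  toFun J := ⟨Ideal.relNorm (𝓞 K) (J : Ideal (𝓞 L)),
    mem_nonZeroDivisors_iff_ne_zero.2 fun h =>
      mem_nonZeroDivisors_iff_ne_zero.1 J.2 (Ideal.relNorm_eq_bot_iff.1 h)⟩
  map_one' := Subtype.ext (map_one (Ideal.relNorm (𝓞 K) : Ideal (𝓞 L) →*₀ _))
  map_mul' a b := Subtype.ext (map_mul (Ideal.relNorm (𝓞 K)) a.1 b.1)

variable {K L}

@[simp] theorem coe_relNormNZ (J : (Ideal (𝓞 L))⁰) :
    (relNormNZ K L J : Ideal (𝓞 K)) = Ideal.relNorm (𝓞 K) (J : Ideal (𝓞 L)) := rfl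

theorem gal_smul_ne_zero (σ : Gal(L/K)) {x : 𝓞 L} (hx : x ≠ 0) : σ • x ≠ 0 :=
  (smul_ne_zero_iff_ne σ).2 hx

/-- The Galois action on nonzero ideals. -/
noncomputable def galNZ (σ : Gal(L/K)) : (Ideal (𝓞 L))⁰ →* (Ideal (𝓞 L))⁰ where
  toFun J := ⟨σ • (J : Ideal (𝓞 L)), mem_nonZeroDivisors_iff_ne_zero.2 fun h => by
    refine mem_nonZeroDivisors_iff_ne_zero.1 J.2 ?_
    rw [Ideal.zero_eq_bot, eq_bot_iff]
    intro x hx
    have h1 : σ • x ∈ σ • (J : Ideal (𝓞 L)) := by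
      rw [Ideal.pointwise_smul_def]; exact Ideal.mem_map_of_mem _ hx
    rw [h] at h1
    by_contra hx0
    have hne : x ≠ 0 := fun h0 => hx0 (by simp [h0])
    exact gal_smul_ne_zero σ hne (by simpa using h1)⟩
  map_one' := Subtype.ext (by
    show σ • ((1 : (Ideal (𝓞 L))⁰) : Ideal (𝓞 L)) = ((1 : (Ideal (𝓞 L))⁰) : Ideal (𝓞 L))
    rw [OneMemClass.coe_one, Ideal.one_eq_top, Ideal.pointwise_smul_def, Ideal.map_top])
  map_mul' a b := Subtype.ext (gal_smul_mul σ a.1 b.1)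

@[simp] theorem coe_galNZ (σ : Gal(L/K)) (J : (Ideal (𝓞 L))⁰) :
    (galNZ σ J : Ideal (𝓞 L)) = σ • (J : Ideal (𝓞 L)) := rfl

theorem exists_normMap :
    ∃ ψ : ClassGroup (𝓞 L) →* ClassGroup (𝓞 K),
      ∀ J, ψ (ClassGroup.mk0 J) = ClassGroup.mk0 (relNormNZ K L J) :=
  exists_classHom (ClassGroup.mk0.comp (relNormNZ K L)) fun I ⟨x, hx⟩ => by
    show ClassGroup.mk0 (relNormNZ K L I) = 1
    refine (ClassGroup.mk0_eq_one_iff (relNormNZ K L I).2).2
      ⟨⟨Algebra.intNorm (𝓞 K) (𝓞 L) x, ?_⟩⟩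
    rw [coe_relNormNZ, hx, Ideal.relNorm_singleton]

theorem exists_galMap (σ : Gal(L/K)) :
    ∃ ψ : ClassGroup (𝓞 L) →* ClassGroup (𝓞 L),
      ∀ J, ψ (ClassGroup.mk0 J) = ClassGroup.mk0 (galNZ σ J) :=
  exists_classHom (ClassGroup.mk0.comp (galNZ σ)) fun I ⟨x, hx⟩ => by
    show ClassGroup.mk0 (galNZ σ I) = 1
    refine (ClassGroup.mk0_eq_one_iff (galNZ σ I).2).2 ⟨⟨σ • x, ?_⟩⟩
    rw [coe_galNZ, hx, gal_smul_span]

variable [IsGalois K L] {p : ℕ}

/-- Hilbert 90 on integers: elements of equal norm differ by a `γ / σ γ`. -/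
theorem exists_smul_eq_of_intNorm_eq {σ : Gal(L/K)} (hord : orderOf σ = p)
    (hpow : ∀ τ : Gal(L/K), ∃ i < p, σ ^ i = τ) {x y : 𝓞 L} (hx : x ≠ 0)
    (hxy : Algebra.intNorm (𝓞 K) (𝓞 L) y = Algebra.intNorm (𝓞 K) (𝓞 L) x) :
    ∃ γ : 𝓞 L, γ ≠ 0 ∧ y * σ • γ = x * γ := by
  classical
  let c : ℕ → 𝓞 L := fun i =>
    (∏ j ∈ Finset.range i, (σ ^ j) • y) * ∏ j ∈ Finset.Ico i p, (σ ^ j) • x
  have hc0 : c 0 = ∏ j ∈ Finset.range p, (σ ^ j) • x := by
    simp only [c, Finset.range_zero, Finset.prod_empty, one_mul, Nat.Ico_zero_eq_range]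
  have hcp : c p = c 0 := by
    rw [hc0, ← algebraMap_intNorm_eq_prod hord hpow, ← hxy, algebraMap_intNorm_eq_prod hord hpow]
    simp [c]
  have hσp : σ ^ p = 1 := by rw [← hord]; exact pow_orderOf_eq_one σ
  have hstep : ∀ i < p, y * σ • c i = x * c (i + 1) := by
    intro i hi
    have e1 : σ • (∏ j ∈ Finset.range i, (σ ^ j) • y) =
        ∏ j ∈ Finset.range i, (σ ^ (j + 1)) • y := by
      rw [Finset.smul_prod']
      exact Finset.prod_congr rfl fun j _ => by rw [← mul_smul, ← pow_succ']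
    have e2 : σ • (∏ j ∈ Finset.Ico i p, (σ ^ j) • x) =
        (∏ j ∈ Finset.Ico (i + 1) p, (σ ^ j) • x) * x := by
      rw [Finset.smul_prod']
      calc ∏ j ∈ Finset.Ico i p, σ • (σ ^ j) • x
          = ∏ j ∈ Finset.Ico i p, (σ ^ (j + 1)) • x :=
            Finset.prod_congr rfl fun j _ => by rw [← mul_smul, ← pow_succ']
        _ = ∏ j ∈ Finset.Ico (i + 1) (p + 1), (σ ^ j) • x := by
            rw [← Finset.prod_Ico_add' (fun j => (σ ^ j) • x) i p 1]
        _ = _ := by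
            rw [Finset.prod_Ico_succ_top (by omega), hσp, one_smul]
    simp only [c, smul_mul', e1, e2]
    rw [Finset.prod_range_succ' (fun j => (σ ^ j) • y)]
    simp only [pow_zero, one_smul]
    ring
  have hne : c 0 ≠ 0 := by
    rw [hc0]
    exact Finset.prod_ne_zero_iff.2 fun j _ => gal_smul_ne_zero _ hx
  obtain ⟨t, ht⟩ : ∃ t : 𝓞 L, ∑ i ∈ Finset.range p, c i * (σ ^ i) • t ≠ 0 := by
    by_contra hall
    push Not at hall
    let χ : Fin p → (𝓞 L →* L) := fun i =>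
      { toFun := fun t => (((σ ^ (i : ℕ)) • t : 𝓞 L) : L)
        map_one' := by simp
        map_mul' := fun a b => by simp }
    have hχ : Function.Injective χ := by
      intro i j hij
      refine Fin.ext (pow_injOn_Iio_orderOf (x := σ) (by rw [hord]; exact i.2)
        (by rw [hord]; exact j.2) ?_)
      haveI := IsGaloisGroup.faithful (G := Gal(L/K)) (A := 𝓞 K) (B := 𝓞 L)
      refine eq_of_smul_eq_smul (α := 𝓞 L) fun a => ?_
      exact Subtype.ext (congrArg (fun f : 𝓞 L →* L => f a) hij)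
    have hli := (linearIndependent_monoidHom (𝓞 L) L).comp χ hχ
    rw [Fintype.linearIndependent_iff] at hli
    have hp0 : 0 < p := by rw [← hord]; exact orderOf_pos σ
    have h0 := hli (fun i => (c (i : ℕ) : L)) (by
      funext t
      simp only [Finset.sum_apply, Pi.smul_apply, Function.comp_apply, Pi.zero_apply, smul_eq_mul]
      have := congrArg (fun a : 𝓞 L => (a : L)) (hall t)
      simp only [map_sum, map_mul, map_zero] at this
      rw [Finset.sum_range] at this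
      exact this) ⟨0, hp0⟩
    exact hne (NumberField.RingOfIntegers.coe_eq_zero_iff.1 h0)
  refine ⟨_, ht, ?_⟩
  rw [Finset.smul_sum, Finset.mul_sum, Finset.mul_sum]
  calc ∑ i ∈ Finset.range p, y * σ • (c i * (σ ^ i) • t)
      = ∑ i ∈ Finset.range p, x * (c (i + 1) * (σ ^ (i + 1)) • t) :=
        Finset.sum_congr rfl fun i hi => by
          rw [smul_mul', ← mul_smul, ← pow_succ', ← mul_assoc, hstep i (Finset.mem_range.1 hi),
            mul_assoc]
    _ = ∑ i ∈ Finset.range p, x * (c i * (σ ^ i) • t) := by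
        have := Finset.sum_range_succ' (fun i => x * (c i * (σ ^ i) • t)) p
        rw [Finset.sum_range_succ, hcp, hσp] at this
        simp only [pow_zero] at this
        exact (add_right_cancel this).symm

end Fermat.Agent.CFT
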