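/-
Norms from totally complex number fields are nonnegative, and totally complex base fields give
extensions unramified at the infinite places.
-/
import Mathlib.NumberTheory.NumberField.InfinitePlace.TotallyRealComplex
import Mathlib.NumberTheory.NumberField.InfinitePlace.Ramification

set_option autoImplicit false

open NumberField

namespace Fermat.Agent.CFT

theorem norm_nonneg_of_isTotallyComplex {F : Type*} [Field F] [NumberField F]
    [IsTotallyComplex F] (x : F) : 0 ≤ Algebra.norm ℚ x := by
  classical
  have h1 : ((Algebra.norm ℚ x : ℚ) : ℂ) = ∏ φ : F →+* ℂ, φ x := by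
    rw [← eq_ratCast (algebraMap ℚ ℂ), Algebra.norm_eq_prod_embeddings]
    exact (Fintype.prod_equiv (RingHom.equivRatAlgHom F ℂ) (fun f => f x)
      (fun φ => φ x) fun _ => by simp [RingHom.equivRatAlgHom_apply]).symm
  have h2 : ∀ w : InfinitePlace F,
      ∏ φ ∈ ({φ | InfinitePlace.mk φ = w} : Finset (F →+* ℂ)), φ x = ((w x : ℝ) : ℂ) ^ 2 := by
    intro w
    have hne : w.embedding ≠ ComplexEmbedding.conjugate w.embedding := fun h =>
      IsTotallyComplex.complexEmbedding_not_isReal w.embedding
        (ComplexEmbedding.isReal_iff.2 h.symm)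
    have e : ({φ | InfinitePlace.mk φ = w} : Finset (F →+* ℂ)) =
        {w.embedding, ComplexEmbedding.conjugate w.embedding} := by
      ext φ
      rw [Finset.mem_filter, Finset.mem_insert, Finset.mem_singleton]
      constructor
      · rintro ⟨-, h⟩
        rw [← InfinitePlace.mk_embedding w, InfinitePlace.mk_eq_iff] at h
        rcases h with h | h
        · exact Or.inl h
        · exact Or.inr (by rw [← h]; ext y; simp)
      · rintro (rfl | rfl)
        · exact ⟨Finset.mem_univ _, InfinitePlace.mk_embedding w⟩
        · exact ⟨Finset.mem_univ _, by rw [InfinitePlace.mk_conjugate_eq, InfinitePlace.mk_embedding]⟩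
    rw [e, Finset.prod_pair hne, ComplexEmbedding.conjugate_coe_eq, Complex.mul_conj,
      ← Complex.ofReal_pow, Complex.normSq_eq_norm_sq, InfinitePlace.norm_embedding_eq]
  rw [← Finset.prod_fiberwise Finset.univ InfinitePlace.mk, Finset.prod_congr rfl fun w _ => h2 w]
    at h1
  have h3 : ((Algebra.norm ℚ x : ℚ) : ℝ) = ∏ w : InfinitePlace F, (w x) ^ 2 := by
    have h := congrArg Complex.re h1
    rw [Complex.ratCast_re] at h
    simp only [← Complex.ofReal_pow, ← Complex.ofReal_prod, Complex.ofReal_re] at h
    exact h
  have h4 : (0 : ℝ) ≤ ((Algebra.norm ℚ x : ℚ) : ℝ) := h3 ▸ Finset.prod_nonneg fun w _ => sq_nonneg _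
  exact_mod_cast h4

theorem isUnramifiedAtInfinitePlaces_of_isTotallyComplex (K L : Type*) [Field K] [Field L]
    [Algebra K L] [IsTotallyComplex K] : IsUnramifiedAtInfinitePlaces K L :=
  ⟨fun w => InfinitePlace.isUnramified_iff.2
    (Or.inr (IsTotallyComplex.isComplex (w.comap (algebraMap K L))))⟩

/-- Unramifiedness at infinity, for odd degree or a totally complex base. -/
theorem isUnramifiedAtInfinitePlaces_of_or {K L : Type*} [Field K] [Field L] [Algebra K L]
    [IsGalois K L] (h : Odd (Module.finrank K L) ∨ IsTotallyComplex K) :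
    IsUnramifiedAtInfinitePlaces K L := by
  rcases h with h | h
  · exact IsUnramifiedAtInfinitePlaces_of_odd_finrank h
  · exact isUnramifiedAtInfinitePlaces_of_isTotallyComplex K L

end Fermat.Agent.CFT
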