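/-
Lemmas for the crossing argument: every ideal class contains an ideal prime to a given finite set
of primes; characters of order `p` of `(ZMod q)ˣ`; inertia at `q` is not killed by such a
character composed with the cyclotomic character.
-/
import Mathlib.RingTheory.ClassGroup.Basic
import Mathlib.NumberTheory.LSeries.PrimesInAP
import Mathlib.GroupTheory.SpecificGroups.Cyclic
import Fermat.Agent.Datum.Roots
import Fermat.Agent.MW.WeakInertia
import Fermat.Agent.Mult.Inertia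
import Fermat.Agent.Reducible.Places

set_option autoImplicit false

open scoped nonZeroDivisors Pointwise
open IsDedekindDomain

namespace Fermat.Agent.CFT

local notation "Qb" => AlgebraicClosure ℚ
local notation "GQ" => (AlgebraicClosure ℚ ≃ₐ[ℚ] AlgebraicClosure ℚ)

/-- Every ideal class contains an ideal prime to a given finite set of primes. -/
theorem exists_mk0_eq_prime_to {R : Type*} [CommRing R] [IsDedekindDomain R]
    (C : ClassGroup R) (T : Finset (HeightOneSpectrum R)) :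
    ∃ J : (Ideal R)⁰, ClassGroup.mk0 J = C ∧ ∀ v ∈ T, ¬ v.asIdeal ∣ (J : Ideal R) := by
  classical
  rcases T.eq_empty_or_nonempty with rfl | ⟨v0, hv0⟩
  · obtain ⟨J, hJ⟩ := ClassGroup.mk0_surjective C
    exact ⟨J, hJ, by simp⟩
  obtain ⟨b, hb⟩ := ClassGroup.mk0_surjective C⁻¹
  have hb0 : (b : Ideal R) ≠ 0 := nonZeroDivisors.ne_zero b.2
  have hex : ∀ v ∈ T, ∃ x ∈ (b : Ideal R) * ∏ w ∈ T.erase v, w.asIdeal,
      x ∉ (b : Ideal R) * v.asIdeal := by
    intro v _
    by_contra hcon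
    push Not at hcon
    have h2 := (mul_dvd_mul_iff_left hb0).1 (Ideal.dvd_iff_le.2 hcon)
    obtain ⟨w, hw, hdvd⟩ := v.prime.exists_mem_finset_dvd h2
    refine (Finset.mem_erase.1 hw).1 (HeightOneSpectrum.ext ?_)
    exact (w.isPrime.isMaximal w.ne_bot).eq_of_le v.isPrime.ne_top (Ideal.dvd_iff_le.1 hdvd)
  choose! x hx hx' using hex
  set y := ∑ v ∈ T, x v with hy
  have hyb : y ∈ (b : Ideal R) := sum_mem fun v hv => Ideal.mul_le_left (hx v hv)
  have hyv : ∀ v ∈ T, y ∉ (b : Ideal R) * v.asIdeal := by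
    intro v hv hmem
    refine hx' v hv ?_
    have hrest : ∑ w ∈ T.erase v, x w ∈ (b : Ideal R) * v.asIdeal := by
      refine sum_mem fun w hw => ?_
      obtain ⟨hne, hwT⟩ := Finset.mem_erase.1 hw
      have hle : (b : Ideal R) * ∏ u ∈ T.erase w, u.asIdeal ≤ (b : Ideal R) * v.asIdeal := by
        refine Ideal.mul_mono_right (Ideal.dvd_iff_le.1 ?_)
        exact Finset.dvd_prod_of_mem _ (Finset.mem_erase.2 ⟨fun h => hne h.symm, hv⟩)
      exact hle (hx w hwT)
    have e : x v = y - ∑ w ∈ T.erase v, x w := by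
      rw [hy, ← Finset.add_sum_erase _ _ hv, add_sub_cancel_right]
    rw [e]
    exact sub_mem hmem hrest
  have hy0 : y ≠ 0 := fun h => hyv v0 hv0 (h ▸ zero_mem _)
  obtain ⟨J, hJ⟩ := (Ideal.dvd_span_singleton.2 hyb : (b : Ideal R) ∣ Ideal.span {y})
  have hJ0 : J ∈ (Ideal R)⁰ := mem_nonZeroDivisors_iff_ne_zero.2 fun h => by
    rw [h, mul_zero, Ideal.zero_eq_bot, Ideal.span_singleton_eq_bot] at hJ
    exact hy0 hJ
  refine ⟨⟨J, hJ0⟩, ?_, fun v hv hdvd => ?_⟩
  · have h : ClassGroup.mk0 (⟨J, hJ0⟩ : (Ideal R)⁰) = (ClassGroup.mk0 b)⁻¹ :=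
      ClassGroup.mk0_eq_mk0_inv_iff.2 ⟨y, hy0, by rw [mul_comm]; exact hJ.symm⟩
    rw [h, hb, inv_inv]
  · refine hyv v hv (Ideal.dvd_span_singleton.1 ?_)
    rw [hJ]
    exact mul_dvd_mul_left _ hdvd

/-- An additive character modulo `q` with values in `ZMod p`, extended by zero. -/
def IsModChar (p q : ℕ) (ψ : ZMod q → ZMod p) : Prop :=
  ∀ x y : ZMod q, x ≠ 0 → y ≠ 0 → ψ (x * y) = ψ x + ψ y

variable {p n q : ℕ} [hp : Fact p.Prime] [NeZero n] [hq : Fact q.Prime] {ψ : ZMod q → ZMod n}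

omit hp [NeZero n] in
theorem IsModChar.map_one (h : IsModChar n q ψ) : ψ 1 = 0 := by
  have h1 := h 1 1 one_ne_zero one_ne_zero
  rw [one_mul] at h1
  exact left_eq_add.1 h1

omit hp [NeZero n] in
theorem IsModChar.map_pow (h : IsModChar n q ψ) {x : ZMod q} (hx : x ≠ 0) (k : ℕ) :
    ψ (x ^ k) = k * ψ x := by
  induction k with
  | zero => rw [pow_zero, h.map_one, Nat.cast_zero, zero_mul]
  | succ k ih => rw [pow_succ, h _ _ (pow_ne_zero k hx) hx, ih]; push_cast; ring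

omit hp [NeZero n] in
theorem IsModChar.map_neg_one (h : IsModChar n q ψ) (h2 : IsUnit (2 : ZMod n)) : ψ (-1) = 0 := by
  have h1 := h (-1) (-1) (neg_ne_zero.2 one_ne_zero) (neg_ne_zero.2 one_ne_zero)
  rw [neg_mul_neg, one_mul, h.map_one] at h1
  exact h2.mul_right_eq_zero.1 (show (2 : ZMod n) * ψ (-1) = 0 by rw [two_mul, ← h1])

omit hp [NeZero n] in
theorem IsModChar.const_mul (h : IsModChar n q ψ) (c : ZMod n) :
    IsModChar n q (fun x => c * ψ x) := fun x y hx hy => by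
  simp only [h x y hx hy, mul_add]

theorem chiMod_ne_zero (σ : GQ) : Datum.chiMod q σ ≠ 0 := by
  intro h
  have h1 : Datum.chiMod q σ * Datum.chiMod q σ⁻¹ = 1 := by
    rw [← _root_.map_mul, mul_inv_cancel, _root_.map_one]
  rw [h, zero_mul] at h1
  exact zero_ne_one h1

omit hp [NeZero n] in
theorem IsModChar.chi_mul (h : IsModChar n q ψ) (σ τ : GQ) :
    ψ (Datum.chiMod q (σ * τ)) = ψ (Datum.chiMod q σ) + ψ (Datum.chiMod q τ) := by
  rw [_root_.map_mul, h _ _ (chiMod_ne_zero σ) (chiMod_ne_zero τ)]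

omit hp [NeZero n] in
theorem IsModChar.chi_pow (h : IsModChar n q ψ) (σ : GQ) (k : ℕ) :
    ψ (Datum.chiMod q (σ ^ k)) = k * ψ (Datum.chiMod q σ) := by
  rw [_root_.map_pow, h.map_pow (chiMod_ne_zero σ)]

theorem smul_mem_inertiaSubgroupIn {A : ValuationSubring Qb} {σ : GQ}
    (hσ : σ ∈ A.inertiaSubgroupIn ℚ) (g : GQ) :
    g * σ * g⁻¹ ∈ (g • A).inertiaSubgroupIn ℚ := by
  refine MW.mem_inertiaSubgroupIn_of_centre fun c => ?_
  rw [Galois.mem_centre, Galois.mem_smul_nonunits]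
  have h1 : IsIntegral ℤ (g⁻¹ (c : Qb)) := c.2.map ((g⁻¹ : GQ).toAlgHom.restrictScalars ℤ)
  have h := Mult.sub_mem_nonunits_of_mem_inertia hσ
    (Galois.mem_valuationSubring_of_isIntegral A h1)
  have e : g⁻¹ • (((g * σ * g⁻¹) • c - c : integralClosure ℤ Qb) : Qb) =
      σ (g⁻¹ (c : Qb)) - g⁻¹ (c : Qb) := by
    rw [AddSubgroupClass.coe_sub, integralClosure.coe_smul, AlgEquiv.smul_def, AlgEquiv.smul_def,
      map_sub, AlgEquiv.mul_apply, AlgEquiv.mul_apply]
    congr 1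
    exact g.symm_apply_apply _
  rw [e]
  exact h

/-- The inertia group at `q` is not killed by a nonzero character mod `q`. -/
theorem exists_inertia_modChar {ψ : ZMod q → ZMod p} (h : IsModChar p q ψ) {t : ZMod q} (ht : t ≠ 0)
    (hψt : ψ t ≠ 0)
    {A : ValuationSubring Qb} (hA : A.LiesOverPrime q) :
    ∃ σ ∈ A.inertiaSubgroupIn ℚ, ψ (Datum.chiMod q σ) = 1 := by
  suffices h0 : ∃ σ ∈ A.inertiaSubgroupIn ℚ, ψ (Datum.chiMod q σ) ≠ 0 by
    obtain ⟨σ, hσ, hne⟩ := h0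
    refine ⟨σ ^ ((ψ (Datum.chiMod q σ))⁻¹).val, pow_mem hσ _, ?_⟩
    rw [h.chi_pow, ZMod.natCast_zmod_val, inv_mul_cancel₀ hne]
  by_contra hcon
  push Not at hcon
  let f : GQ →* Multiplicative (ZMod p) :=
    { toFun := fun σ => Multiplicative.ofAdd (ψ (Datum.chiMod q σ))
      map_one' := by rw [_root_.map_one, h.map_one, ofAdd_zero]
      map_mul' := fun σ τ => by rw [h.chi_mul, ofAdd_add] }
  have hopen : IsOpen (f.ker : Set GQ) := by
    obtain ⟨L, hLfin, hL⟩ := Datum.exists_level_chiMod q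
    refine Subgroup.isOpen_mono (fun σ hσ => MonoidHom.mem_ker.2 ?_) L.fixingSubgroup_isOpen
    show Multiplicative.ofAdd (ψ (Datum.chiMod q σ)) = 1
    rw [hL σ ((IntermediateField.mem_fixingSubgroup_iff L σ).1 hσ), h.map_one, ofAdd_zero]
  have hall := Reducible.eq_one_of_unramified f hopen fun ℓ hℓ B hB σ hσ => by
    show Multiplicative.ofAdd (ψ (Datum.chiMod q σ)) = 1
    rw [ofAdd_eq_one]
    by_cases hℓq : ℓ = q
    · subst hℓq
      obtain ⟨g, hg⟩ := Galois.exists_smul_eq_of_liesOverPrime hℓ hB hA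
      have h' := hcon _ (hg ▸ smul_mem_inertiaSubgroupIn hσ g)
      rw [h.chi_mul, h.chi_mul, add_right_comm, ← h.chi_mul, mul_inv_cancel, _root_.map_one,
        h.map_one, zero_add] at h'
      exact h'
    · rw [Datum.chiMod_inertia q hB hσ ((Nat.coprime_primes hℓ hq.out).2 hℓq), h.map_one]
  obtain ⟨ℓ, hℓq, hℓ, hℓt⟩ := Nat.forall_exists_prime_gt_and_eq_mod (isUnit_iff_ne_zero.2 ht) q
  obtain ⟨B, τ, hB, hτ⟩ := Galois.exists_valuationSubring_isFrobeniusAt hℓ
  have h1 := hall τ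
  change Multiplicative.ofAdd (ψ (Datum.chiMod q τ)) = 1 at h1
  rw [Datum.chiMod_frobenius q hB hτ ((Nat.coprime_primes hℓ hq.out).2 (by omega)), hℓt,
    ofAdd_eq_one] at h1
  exact hψt h1

/-- The inertia group at `q` surjects under a primitive character modulo a prime power. -/
theorem exists_inertia_modChar_pow {k : ℕ} (hn : n = p ^ (k + 1)) (h : IsModChar n q ψ)
    {t : ZMod q} (ht : t ≠ 0) (hψt : IsUnit (ψ t))
    {A : ValuationSubring Qb} (hA : A.LiesOverPrime q) :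
    ∃ σ ∈ A.inertiaSubgroupIn ℚ, ψ (Datum.chiMod q σ) = 1 := by
  have hdvd : p ∣ n := hn ▸ dvd_pow_self p (Nat.succ_ne_zero k)
  let red : ZMod n →+* ZMod p := ZMod.castHom hdvd (ZMod p)
  obtain ⟨σ, hσ, h1⟩ := exists_inertia_modChar (p := p) (ψ := fun x => red (ψ x))
    (fun x y hx hy => by simp only [h x y hx hy, _root_.map_add]) ht (hψt.map red).ne_zero hA
  have hu : IsUnit (ψ (Datum.chiMod q σ)) := by
    suffices hc : (ψ (Datum.chiMod q σ)).val.Coprime p by
      rw [← ZMod.natCast_zmod_val (ψ (Datum.chiMod q σ)), ZMod.isUnit_iff_coprime]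
      have := hc.pow_right (k + 1)
      exact hn.symm ▸ this
    refine ((Nat.Prime.coprime_iff_not_dvd hp.out).2 fun hd => ?_).symm
    have h0 := (ZMod.natCast_eq_zero_iff (ψ (Datum.chiMod q σ)).val p).2 hd
    rw [← ZMod.natCast_zmod_val (ψ (Datum.chiMod q σ)), map_natCast, h0] at h1
    exact zero_ne_one h1
  obtain ⟨u, hu'⟩ := hu
  refine ⟨σ ^ ((u⁻¹ : (ZMod n)ˣ) : ZMod n).val, pow_mem hσ _, ?_⟩
  rw [h.chi_pow, ZMod.natCast_zmod_val, ← hu', Units.inv_mul]

end Fermat.Agent.CFT
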