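/-
A partition of unity for the action of the unit group of a number field.

`weight F` is a nonnegative function on `F`, homogeneous of degree zero and Lipschitz in
logarithmic coordinates, whose sum over every orbit of the unit group is the number of roots
of unity.
-/
import Mathlib.NumberTheory.NumberField.Units.DirichletTheorem
import Mathlib.Algebra.Module.ZLattice.Basic
import Mathlib.Analysis.SpecialFunctions.Log.Basic
import Mathlib.Topology.Algebra.InfiniteSum.Ring

set_option autoImplicit false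

open scoped Classical

open NumberField NumberField.Units NumberField.Units.dirichletUnitTheorem NumberField.InfinitePlace Finset

namespace Fermat.Agent.CFT

noncomputable section

/-- The tent function. -/
def tent (t : ℝ) : ℝ := max 0 (1 - |t|)

/-- The indicator function of `[-1, 1]`. -/
def hat (t : ℝ) : ℝ := if |t| ≤ 1 then 1 else 0

theorem tent_nonneg (t : ℝ) : 0 ≤ tent t := le_max_left _ _

theorem tent_le_one (t : ℝ) : tent t ≤ 1 :=
  max_le zero_le_one (sub_le_self _ (abs_nonneg t))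

theorem tent_eq_zero {t : ℝ} (h : 1 ≤ |t|) : tent t = 0 :=
  max_eq_left (sub_nonpos.2 h)

theorem abs_tent_sub_le (s t : ℝ) : |tent s - tent t| ≤ |s - t| := by
  unfold tent
  refine (abs_max_sub_max_le_max _ _ _ _).trans ?_
  simp only [sub_self, abs_zero, sub_sub_sub_cancel_left]
  refine max_le (abs_nonneg _) ?_
  rw [abs_sub_comm]
  exact abs_abs_sub_abs_le_abs_sub s t

theorem hat_nonneg (t : ℝ) : 0 ≤ hat t := by unfold hat; split_ifs <;> norm_num

theorem hat_le_one (t : ℝ) : hat t ≤ 1 := by unfold hat; split_ifs <;> norm_num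

theorem hat_eq_zero {t : ℝ} (h : 1 < |t|) : hat t = 0 := if_neg (not_le.2 h)

theorem tent_le_hat (t : ℝ) : tent t ≤ hat t := by
  by_cases h : |t| ≤ 1
  · rw [hat, if_pos h]; exact tent_le_one t
  · rw [tent_eq_zero (not_le.1 h).le]; exact hat_nonneg t

theorem abs_prod_sub_prod_le {ι : Type*} (s : Finset ι) (a b : ι → ℝ)
    (ha : ∀ i ∈ s, |a i| ≤ 1) (hb : ∀ i ∈ s, |b i| ≤ 1) :
    |∏ i ∈ s, a i - ∏ i ∈ s, b i| ≤ ∑ i ∈ s, |a i - b i| := by
  classical
  induction s using Finset.induction with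
  | empty => simp
  | @insert i s hi ih =>
    rw [prod_insert hi, prod_insert hi, sum_insert hi]
    have h1 := ih (fun j hj => ha j (mem_insert_of_mem hj)) (fun j hj => hb j (mem_insert_of_mem hj))
    have h2 : |∏ j ∈ s, a j| ≤ 1 := by
      rw [abs_prod]
      exact prod_le_one (fun j _ => abs_nonneg _) fun j hj => ha j (mem_insert_of_mem hj)
    calc |a i * ∏ j ∈ s, a j - b i * ∏ j ∈ s, b j|
        = |(a i - b i) * ∏ j ∈ s, a j + b i * (∏ j ∈ s, a j - ∏ j ∈ s, b j)| := by ring_nf
      _ ≤ |(a i - b i) * ∏ j ∈ s, a j| + |b i * (∏ j ∈ s, a j - ∏ j ∈ s, b j)| := abs_add_le _ _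
      _ ≤ |a i - b i| + ∑ j ∈ s, |a j - b j| := by
        rw [abs_mul, abs_mul]
        exact add_le_add (mul_le_of_le_one_right (abs_nonneg _) h2)
          ((mul_le_of_le_one_left (abs_nonneg _) (hb i (mem_insert_self i s))).trans h1)

/-- Sum over `ℤ^ι` of a product of translates of a function supported in `[-1, 1]`. -/
theorem hasSum_prod_translates {ι : Type*} [Fintype ι] (h : ℝ → ℝ)
    (hsupp : ∀ t, 1 < |t| → h t = 0) (c : ι → ℝ) :
    HasSum (fun n : ι → ℤ => ∏ i, h (c i + n i))
      (∏ i, ∑ k ∈ Finset.Icc (-⌊c i⌋ - 2) (-⌊c i⌋ + 1), h (c i + k)) := by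
  classical
  rw [Finset.prod_univ_sum]
  refine hasSum_sum_of_ne_finset_zero fun n hn => ?_
  rw [Fintype.mem_piFinset] at hn
  push Not at hn
  obtain ⟨i, hi⟩ := hn
  refine prod_eq_zero (mem_univ i) (hsupp _ ?_)
  have h1 := Int.floor_le (c i)
  have h2 := Int.lt_floor_add_one (c i)
  rw [Finset.mem_Icc, not_and_or, not_le, not_le] at hi
  rcases hi with hi | hi
  · have h3 : (n i : ℝ) ≤ -⌊c i⌋ - 3 := by
      exact_mod_cast (by omega : n i ≤ -⌊c i⌋ - 3)
    rw [lt_abs]; right; linarith
  · have h3 : (-⌊c i⌋ : ℝ) + 2 ≤ n i := by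
      exact_mod_cast (by omega : -⌊c i⌋ + 2 ≤ n i)
    rw [lt_abs]; left; linarith

theorem hasSum_prod_tent {ι : Type*} [Fintype ι] (c : ι → ℝ) :
    HasSum (fun n : ι → ℤ => ∏ i, tent (c i + n i)) 1 := by
  have h := hasSum_prod_translates tent (fun t ht => tent_eq_zero ht.le) c
  convert h using 1
  symm
  refine prod_eq_one fun i _ => ?_
  have e : Finset.Icc (-⌊c i⌋ - 2) (-⌊c i⌋ + 1) =
      {-⌊c i⌋ - 2, -⌊c i⌋ - 1, -⌊c i⌋, -⌊c i⌋ + 1} := by
    ext k
    simp only [Finset.mem_Icc, Finset.mem_insert, Finset.mem_singleton]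
    omega
  rw [e]
  have h1 := Int.floor_le (c i)
  have h2 := Int.lt_floor_add_one (c i)
  rw [sum_insert (by simp; omega), sum_insert (by simp; omega), sum_insert (by simp), sum_singleton]
  push_cast
  rw [tent_eq_zero (t := c i + (-(⌊c i⌋ : ℝ) - 2)) (by rw [le_abs]; right; linarith),
    tent_eq_zero (t := c i + (-(⌊c i⌋ : ℝ) + 1)) (by rw [le_abs]; left; linarith)]
  rw [tent, tent, abs_of_nonneg (a := c i + -(⌊c i⌋ : ℝ)) (by linarith),
    abs_of_nonpos (a := c i + (-(⌊c i⌋ : ℝ) - 1)) (by linarith),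
    max_eq_right (by linarith), max_eq_right (by linarith)]
  ring

theorem summable_prod_hat {ι : Type*} [Fintype ι] (c : ι → ℝ) :
    Summable (fun n : ι → ℤ => ∏ i, hat (c i + n i)) :=
  (hasSum_prod_translates hat (fun _ => hat_eq_zero) c).summable

theorem tsum_prod_hat_le {ι : Type*} [Fintype ι] (c : ι → ℝ) :
    ∑' n : ι → ℤ, ∏ i, hat (c i + n i) ≤ 4 ^ Fintype.card ι := by
  rw [(hasSum_prod_translates hat (fun _ => hat_eq_zero) c).tsum_eq, Fintype.card, ← prod_const]
  refine prod_le_prod (fun i _ => sum_nonneg fun k _ => hat_nonneg _) fun i _ => ?_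
  refine (sum_le_card_nsmul _ _ 1 fun k _ => hat_le_one _).trans ?_
  rw [nsmul_eq_mul, mul_one, Int.card_Icc]
  norm_num [show -⌊c i⌋ + 1 + 1 - (-⌊c i⌋ - 2) = 4 by ring]

variable (F : Type*) [Field F] [NumberField F]

/-- The absolute value of the norm, as a real number. -/
def normR (x : F) : ℝ := |(Algebra.norm ℚ x : ℝ)|

theorem prod_place_pow (x : F) : ∏ w : InfinitePlace F, w x ^ mult w = normR F x := by
  rw [prod_eq_abs_norm, normR]
  push_cast
  rfl

theorem normR_pos {x : F} (hx : x ≠ 0) : 0 < normR F x := by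
  rw [← prod_place_pow]
  exact prod_pos fun w _ => pow_pos (pos_iff.2 hx) _

theorem normR_mul (x y : F) : normR F (x * y) = normR F x * normR F y := by
  simp [normR, abs_mul]

theorem sum_mult_log (x : F) (hx : x ≠ 0) :
    ∑ w : InfinitePlace F, (mult w : ℝ) * Real.log (w x) = Real.log (normR F x) := by
  rw [← prod_place_pow, Real.log_prod]
  · simp_rw [Real.log_pow]
  · exact fun w _ => (pow_pos (pos_iff.2 hx) _).ne'

/-- The degree of `F`, as a real number. -/
def deg : ℝ := Module.finrank ℚ F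

theorem deg_ge_one : (1 : ℝ) ≤ deg F := by
  rw [deg]; exact_mod_cast Module.finrank_pos (R := ℚ) (M := F)

theorem deg_pos : 0 < deg F := lt_of_lt_of_le one_pos (deg_ge_one F)

theorem sum_mult_real : ∑ w : InfinitePlace F, (mult w : ℝ) = deg F := by
  rw [deg, ← sum_mult_eq]; push_cast; rfl

/-- The deviation of `log (w x)` from the mean. -/
def dev (x : F) (w : InfinitePlace F) : ℝ := Real.log (w x) - Real.log (normR F x) / deg F

theorem sum_mult_dev {x : F} (hx : x ≠ 0) : ∑ w : InfinitePlace F, (mult w : ℝ) * dev F x w = 0 := by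
  simp_rw [dev, mul_sub]
  rw [sum_sub_distrib, ← sum_mul, sum_mult_real, sum_mult_log F x hx,
    mul_div_cancel₀ _ (deg_pos F).ne', sub_self]

/-- The logarithmic map, homogeneous of degree zero. -/
def logVec (x : F) : logSpace F := fun w => (mult w.1 : ℝ) * dev F x w.1

theorem normR_unit (u : (𝓞 F)ˣ) : normR F ((u : 𝓞 F) : F) = 1 := by
  rw [normR, ← Rat.cast_abs, Units.norm, Rat.cast_one]

theorem logVec_unit_mul (u : (𝓞 F)ˣ) {x : F} (hx : x ≠ 0) :
    logVec F (((u : 𝓞 F) : F) * x) = logEmbedding F (Additive.ofMul u) + logVec F x := by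
  have hu : ((u : 𝓞 F) : F) ≠ 0 := coe_ne_zero u
  funext w
  simp only [logVec, dev, Pi.add_apply, logEmbedding_component, map_mul, normR_mul, normR_unit,
    one_mul]
  rw [Real.log_mul (pos_iff.2 hu).ne' (pos_iff.2 hx).ne']
  ring

/-- The basis of the log space given by the fundamental units. -/
def unitBasis :=
  (basisUnitLattice F).ofZLatticeBasis ℝ (unitLattice F)

/-- The coordinates of `x` with respect to the fundamental units. -/
def coords (x : F) : Fin (Units.rank F) → ℝ := (unitBasis F).equivFun (logVec F x)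

theorem coords_unit_mul (ζ : torsion F) (n : Fin (Units.rank F) → ℤ) {x : F} (hx : x ≠ 0) :
    coords F ((((ζ : (𝓞 F)ˣ) * ∏ i, fundSystem F i ^ n i : (𝓞 F)ˣ) : F) * x) =
      fun i => coords F x i + n i := by
  have h : logEmbedding F (Additive.ofMul ((ζ : (𝓞 F)ˣ) * ∏ i, fundSystem F i ^ n i)) =
      ∑ i, (n i : ℝ) • unitBasis F i := by
    rw [ofMul_mul, map_add, logEmbedding_eq_zero_iff.2 ζ.2, zero_add, ofMul_prod, map_sum]
    refine sum_congr rfl fun i _ => ?_
    rw [ofMul_zpow, map_zsmul, logEmbedding_fundSystem, unitBasis,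
      Module.Basis.ofZLatticeBasis_apply, Int.cast_smul_eq_zsmul]
  funext i
  rw [coords, logVec_unit_mul F _ hx, h, map_add, Pi.add_apply, coords, add_comm]
  congr 1
  rw [map_sum, Finset.sum_apply]
  simp [Module.Basis.equivFun_apply, Finsupp.single_apply]

/-- The weight function. -/
def weight (x : F) : ℝ := ∏ i, tent (coords F x i)

/-- The indicator of the support of the weight. -/
def suppInd (x : F) : ℝ := ∏ i, hat (coords F x i)

theorem weight_nonneg (x : F) : 0 ≤ weight F x := prod_nonneg fun _ _ => tent_nonneg _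

theorem suppInd_nonneg (x : F) : 0 ≤ suppInd F x := prod_nonneg fun _ _ => hat_nonneg _

theorem weight_le_suppInd (x : F) : weight F x ≤ suppInd F x :=
  prod_le_prod (fun _ _ => tent_nonneg _) fun _ _ => tent_le_hat _

theorem weight_le_one (x : F) : weight F x ≤ 1 :=
  prod_le_one (fun _ _ => tent_nonneg _) fun _ _ => tent_le_one _

theorem suppInd_eq_zero_or_one (x : F) : suppInd F x = 0 ∨ suppInd F x = 1 := by
  by_cases h : ∀ i, |coords F x i| ≤ 1
  · exact Or.inr (prod_eq_one fun i _ => if_pos (h i))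
  · push Not at h
    obtain ⟨i, hi⟩ := h
    exact Or.inl (prod_eq_zero (mem_univ i) (hat_eq_zero hi))

/-- Units are torsion times a product of fundamental units. -/
def unitEquiv : torsion F × (Fin (Units.rank F) → ℤ) ≃ (𝓞 F)ˣ :=
  Equiv.ofBijective (fun ζn => (ζn.1 : (𝓞 F)ˣ) * ∏ i, fundSystem F i ^ ζn.2 i)
    ⟨fun a b h => (exist_unique_eq_mul_prod F _).unique rfl h,
      fun u => by
        obtain ⟨a, ha, -⟩ := exist_unique_eq_mul_prod F u
        exact ⟨a, ha.symm⟩⟩

theorem hasSum_weight_units {x : F} (hx : x ≠ 0) :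
    HasSum (fun u : (𝓞 F)ˣ => weight F (((u : 𝓞 F) : F) * x)) (torsionOrder F) := by
  have := Fintype.ofFinite (torsion F)
  rw [← (unitEquiv F).hasSum_iff]
  have h : HasSum (fun ζn : torsion F × (Fin (Units.rank F) → ℤ) =>
      ∏ i, tent (coords F x i + ζn.2 i)) (torsionOrder F) := by
    have h1 : ∀ ζ : torsion F, HasSum (fun n : Fin (Units.rank F) → ℤ =>
        ∏ i, tent (coords F x i + n i)) 1 := fun _ => hasSum_prod_tent _
    have h2 : Summable (fun ζn : torsion F × (Fin (Units.rank F) → ℤ) =>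
        ∏ i, tent (coords F x i + ζn.2 i)) :=
      (summable_prod_of_nonneg fun ζn => prod_nonneg fun _ _ => tent_nonneg _).2
        ⟨fun ζ => (h1 ζ).summable, Summable.of_finite⟩
    have h3 := h2.hasSum.prod_fiberwise h1
    have h4 : HasSum (fun _ : torsion F => (1 : ℝ)) (torsionOrder F) := by
      have := hasSum_fintype (fun _ : torsion F => (1 : ℝ))
      simpa [torsionOrder, Nat.card_eq_fintype_card] using this
    exact (h3.unique h4) ▸ h2.hasSum
  convert h using 1
  funext ζn
  simp only [Function.comp_apply, weight]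
  refine prod_congr rfl fun i _ => ?_
  rw [show unitEquiv F ζn = (ζn.1 : (𝓞 F)ˣ) * ∏ i, fundSystem F i ^ ζn.2 i from rfl,
    coords_unit_mul F _ _ hx]

theorem summable_suppInd_units {x : F} (hx : x ≠ 0) :
    Summable (fun u : (𝓞 F)ˣ => suppInd F (((u : 𝓞 F) : F) * x)) ∧
    ∑' u : (𝓞 F)ˣ, suppInd F (((u : 𝓞 F) : F) * x) ≤
      torsionOrder F * 4 ^ Units.rank F := by
  have e : (fun ζn : torsion F × (Fin (Units.rank F) → ℤ) =>
      suppInd F (((unitEquiv F ζn : 𝓞 F) : F) * x)) =
      fun ζn => ∏ i, hat (coords F x i + ζn.2 i) := by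
    funext ζn
    simp only [suppInd]
    refine prod_congr rfl fun i _ => ?_
    rw [show unitEquiv F ζn = (ζn.1 : (𝓞 F)ˣ) * ∏ i, fundSystem F i ^ ζn.2 i from rfl,
      coords_unit_mul F _ _ hx]
  have h2 : Summable (fun ζn : torsion F × (Fin (Units.rank F) → ℤ) =>
      ∏ i, hat (coords F x i + ζn.2 i)) :=
    (summable_prod_of_nonneg fun ζn => prod_nonneg fun _ _ => hat_nonneg _).2
      ⟨fun ζ => summable_prod_hat _, Summable.of_finite⟩
  have h3 : Summable (fun ζn => suppInd F (((unitEquiv F ζn : 𝓞 F) : F) * x)) := e ▸ h2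
  have := Fintype.ofFinite (torsion F)
  refine ⟨(unitEquiv F).summable_iff.1 h3, ?_⟩
  rw [← (unitEquiv F).tsum_eq (fun u : (𝓞 F)ˣ => suppInd F (((u : 𝓞 F) : F) * x)), e,
    h2.tsum_prod, tsum_fintype]
  refine (sum_le_card_nsmul _ _ ((4 : ℝ) ^ Units.rank F) fun ζ _ => ?_).trans ?_
  · simpa using tsum_prod_hat_le (coords F x)
  · simp [torsionOrder, nsmul_eq_mul, Nat.card_eq_fintype_card]

end

end Fermat.Agent.CFT
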