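/-
Elementary facts on the zeta series of a number field on the real half line `1 < s`.
-/
import Mathlib.NumberTheory.NumberField.DedekindZeta

set_option autoImplicit false

open NumberField Filter Topology Asymptotics
open scoped nonZeroDivisors

namespace Fermat.Agent.CFT

noncomputable section

variable (F : Type*) [Field F] [NumberField F]

/-- The number of ideals of norm `n`, as a real number. -/
def normCount (n : ℕ) : ℝ := Nat.card {I : Ideal (𝓞 F) // Ideal.absNorm I = n}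

theorem tendsto_sum_normCount :
    ∃ l : ℝ, Tendsto (fun n : ℕ => (∑ k ∈ Finset.Icc 1 n, normCount F k) / (n : ℝ)) atTop (𝓝 l) := by
  refine ⟨_, ((Ideal.tendsto_norm_le_div_atTop₀ F).comp tendsto_natCast_atTop_atTop).congr
    fun n ↦ ?_⟩
  simp only [Function.comp_apply, Nat.cast_le, normCount, ← Nat.cast_sum]
  congr
  rw [← add_left_inj 1, ← Ideal.card_norm_le_eq_card_norm_le_add_one,
    show Finset.Icc 1 n = Finset.Ioc 0 n from Finset.Icc_succ_left_eq_Ioc _ _,
    show 1 = Nat.card {I : Ideal (𝓞 F) // Ideal.absNorm I = 0} by simp [Ideal.absNorm_eq_zero_iff],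
    Finset.sum_Ioc_add_eq_sum_Icc (n.zero_le),
    ← Finset.card_preimage_eq_sum_card_image_eq (fun k _ ↦ Ideal.finite_setOfPred_absNorm_eq k)]
  simp [Set.coe_eq_subtype]

theorem summable_normCount {σ : ℝ} (hσ : 1 < σ) :
    Summable fun n : ℕ => if n = 0 then 0 else normCount F n * (n : ℝ) ^ (-σ) := by
  obtain ⟨l, hl⟩ := tendsto_sum_normCount F
  have h : LSeriesSummable (fun n => (normCount F n : ℂ)) (σ : ℂ) :=
    LSeriesSummable_of_sum_norm_bigO_and_nonneg
      (isBigO_atTop_natCast_rpow_of_tendsto_div_rpow (by simpa using hl))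
      (fun n => Nat.cast_nonneg _) zero_le_one (by simpa using hσ)
  refine (Summable.norm h).congr fun n => ?_
  rcases eq_or_ne n 0 with rfl | hn
  · simp
  · rw [LSeries.norm_term_eq, if_neg hn, if_neg hn, Complex.norm_real, Real.norm_eq_abs,
      abs_of_nonneg (a := normCount F n) (Nat.cast_nonneg _), Complex.ofReal_re,
      Real.rpow_neg (Nat.cast_nonneg _), div_eq_mul_inv]

/-- The norm of a nonzero ideal. -/
def normFun (J : (Ideal (𝓞 F))⁰) : ℕ := Ideal.absNorm (J : Ideal (𝓞 F))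

theorem finite_normFun_fiber (n : ℕ) : Finite {J : (Ideal (𝓞 F))⁰ // normFun F J = n} :=
  have := (Ideal.finite_setOfPred_absNorm_eq (S := 𝓞 F) n).to_subtype
  Finite.of_injective
    (fun J => (⟨(J.1 : Ideal (𝓞 F)), J.2⟩ : {I : Ideal (𝓞 F) | Ideal.absNorm I = n}))
    fun a b h => Subtype.ext (Subtype.ext (show (a.1 : Ideal (𝓞 F)) = b.1 from
      congrArg (fun x : {I : Ideal (𝓞 F) | Ideal.absNorm I = n} => (x : Ideal (𝓞 F))) h))

theorem sum_normFun_fiber (σ : ℝ) (n : ℕ) :
    ∑' J : {J : (Ideal (𝓞 F))⁰ // normFun F J = n},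
        (Ideal.absNorm (J.1 : Ideal (𝓞 F)) : ℝ) ^ (-σ) =
      if n = 0 then 0 else normCount F n * (n : ℝ) ^ (-σ) := by
  have := finite_normFun_fiber F n
  have := Fintype.ofFinite {J : (Ideal (𝓞 F))⁰ // normFun F J = n}
  have h : ∀ J : {J : (Ideal (𝓞 F))⁰ // normFun F J = n},
      (Ideal.absNorm (J.1 : Ideal (𝓞 F)) : ℝ) ^ (-σ) = (n : ℝ) ^ (-σ) :=
    fun J => by rw [show Ideal.absNorm (J.1 : Ideal (𝓞 F)) = n from J.2]
  rw [tsum_fintype]
  simp only [h, Finset.sum_const, Finset.card_univ, nsmul_eq_mul]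
  rcases eq_or_ne n 0 with rfl | hn
  · have : IsEmpty {J : (Ideal (𝓞 F))⁰ // normFun F J = 0} :=
      ⟨fun J => Ideal.absNorm_ne_zero_of_nonZeroDivisors J.1 J.2⟩
    simp
  · rw [if_neg hn, normCount, Fintype.card_eq_nat_card]
    congr 2
    exact Nat.card_congr
      { toFun := fun J => ⟨(J.1 : Ideal (𝓞 F)), J.2⟩
        invFun := fun I => ⟨⟨I.1, mem_nonZeroDivisors_iff_ne_zero.2 fun h => hn (by
          rw [← I.2, h, map_zero])⟩, I.2⟩
        left_inv := fun J => rfl
        right_inv := fun I => rfl }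

theorem summable_absNorm_rpow {σ : ℝ} (hσ : 1 < σ) :
    Summable fun J : (Ideal (𝓞 F))⁰ => (Ideal.absNorm (J : Ideal (𝓞 F)) : ℝ) ^ (-σ) := by
  rw [← (Equiv.sigmaFiberEquiv (normFun F)).summable_iff]
  refine (summable_sigma_of_nonneg fun x => Real.rpow_nonneg (Nat.cast_nonneg _) _).2
    ⟨fun n => ?_, (summable_normCount F hσ).congr fun n => (sum_normFun_fiber F σ n).symm⟩
  have := finite_normFun_fiber F n
  exact Summable.of_finite

theorem tsum_absNorm_rpow {σ : ℝ} (hσ : 1 < σ) :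
    (∑' J : (Ideal (𝓞 F))⁰, (Ideal.absNorm (J : Ideal (𝓞 F)) : ℝ) ^ (-σ) : ℝ) =
      (dedekindZeta F σ).re := by
  rw [← (Equiv.sigmaFiberEquiv (normFun F)).tsum_eq,
    Summable.tsum_sigma (f := fun x => (Ideal.absNorm
      (((Equiv.sigmaFiberEquiv (normFun F)) x : (Ideal (𝓞 F))⁰) : Ideal (𝓞 F)) : ℝ) ^ (-σ))
      (((Equiv.sigmaFiberEquiv _).summable_iff).2 (summable_absNorm_rpow F hσ))]
  simp only [Equiv.sigmaFiberEquiv_apply, sum_normFun_fiber]
  have h : dedekindZeta F σ =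
      ((∑' n : ℕ, if n = 0 then 0 else normCount F n * (n : ℝ) ^ (-σ) : ℝ) : ℂ) := by
    rw [dedekindZeta, LSeries, Complex.ofReal_tsum]
    refine tsum_congr fun n => ?_
    rcases eq_or_ne n 0 with rfl | hn
    · simp
    · rw [LSeries.term_of_ne_zero hn, if_neg hn, normCount, Complex.ofReal_mul,
        Complex.ofReal_natCast, Complex.ofReal_cpow (Nat.cast_nonneg _), Complex.ofReal_natCast,
        Complex.ofReal_neg, Complex.cpow_neg, div_eq_mul_inv]
  rw [h, Complex.ofReal_re]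

theorem exists_sub_one_mul_zeta_le :
    ∃ C : ℝ, ∀ s : ℝ, 1 < s → s ≤ 2 →
      (s - 1) * ∑' J : (Ideal (𝓞 F))⁰, (Ideal.absNorm (J : Ideal (𝓞 F)) : ℝ) ^ (-s) ≤ C := by
  set Z : ℝ → ℝ := fun s =>
    ∑' J : (Ideal (𝓞 F))⁰, (Ideal.absNorm (J : Ideal (𝓞 F)) : ℝ) ^ (-s) with hZ
  have ht : Tendsto (fun s : ℝ => (s - 1) * Z s) (𝓝[>] 1) (𝓝 (dedekindZeta_residue F)) := by
    have h := (Complex.continuous_re.tendsto _).comp (tendsto_sub_one_mul_dedekindZeta_nhdsGT F)
    simp only [Complex.ofReal_re] at h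
    refine h.congr' ?_
    filter_upwards [self_mem_nhdsWithin] with s hs
    simp only [Function.comp_apply, hZ]
    rw [tsum_absNorm_rpow F hs]
    simp [Complex.mul_re]
  have he := ht.eventually_le_const (lt_add_one (dedekindZeta_residue F))
  rw [Filter.eventually_iff, mem_nhdsGT_iff_exists_Ioo_subset] at he
  obtain ⟨u, hu, hsub⟩ := he
  rw [Set.mem_Ioi] at hu
  refine ⟨max (dedekindZeta_residue F + 1) (Z u), fun s hs1 hs2 => ?_⟩
  by_cases hsu : s < u
  · exact le_max_of_le_left (hsub ⟨hs1, hsu⟩)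
  · push Not at hsu
    refine le_max_of_le_right ?_
    calc (s - 1) * Z s ≤ 1 * Z u := by
          refine mul_le_mul (by linarith) ?_
            (tsum_nonneg fun J => Real.rpow_nonneg (Nat.cast_nonneg _) _) zero_le_one
          refine Summable.tsum_le_tsum (fun J => ?_) (summable_absNorm_rpow F hs1)
            (summable_absNorm_rpow F hu)
          exact Real.rpow_le_rpow_of_exponent_le (Nat.one_le_cast.2
            (Nat.one_le_iff_ne_zero.2 (Ideal.absNorm_ne_zero_of_nonZeroDivisors J))) (by linarith)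
      _ = Z u := one_mul _

end

end Fermat.Agent.CFT
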