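/-
The partial zeta functions of the ideal classes of a number field differ by bounded functions
on the interval `1 < s ≤ 2`.  Consequently the `L`-series of a nontrivial character of the class
group is bounded there.

The proof is elementary: with the weight function of `UnitTents` the partial zeta function of
a class is a sum over a lattice `b`; the lattice `𝓞` is cut into cosets of `b`, and a translation
changes each term by at most a term of a series converging for `s ≥ 1`.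
-/
import Mathlib.Analysis.SpecialFunctions.Pow.Real
import Mathlib.Analysis.Normed.Module.FiniteDimension
import Mathlib.RingTheory.Ideal.Norm.AbsNorm
import Mathlib.RingTheory.ClassGroup.Basic
import Mathlib.NumberTheory.NumberField.ClassNumber
import Fermat.Agent.CFT.UnitTents
import Fermat.Agent.CFT.ZetaBasic

set_option autoImplicit false

open scoped Classical nonZeroDivisors

open NumberField NumberField.Units NumberField.Units.dirichletUnitTheorem NumberField.InfinitePlace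
  Finset

namespace Fermat.Agent.CFT

noncomputable section

variable (F : Type*) [Field F] [NumberField F]

/-- The weighted summand. -/
def wterm (s : ℝ) (x : F) : ℝ := weight F x * normR F x ^ (-s)

/-- The exponent of the majorant. -/
def majExp : ℝ := 1 + 1 / deg F

/-- The majorant. -/
def majTerm (x : F) : ℝ := suppInd F x * normR F x ^ (-majExp F)

theorem majExp_gt_one : 1 < majExp F := by
  have := deg_pos F
  rw [majExp]
  have : 0 < 1 / deg F := by positivity
  linarith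

theorem normR_zero : normR F 0 = 0 := by simp [normR]

theorem normR_nonneg (x : F) : 0 ≤ normR F x := abs_nonneg _

theorem wterm_zero {s : ℝ} (hs : 0 < s) : wterm F s 0 = 0 := by
  rw [wterm, normR_zero, Real.zero_rpow (by linarith : -s ≠ 0), mul_zero]

theorem wterm_nonneg (s : ℝ) (x : F) : 0 ≤ wterm F s x :=
  mul_nonneg (weight_nonneg F x) (Real.rpow_nonneg (normR_nonneg F x) _)

theorem majTerm_nonneg (x : F) : 0 ≤ majTerm F x :=
  mul_nonneg (suppInd_nonneg F x) (Real.rpow_nonneg (normR_nonneg F x) _)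

theorem normR_coe (x : 𝓞 F) : normR F (x : F) = (Ideal.absNorm (Ideal.span {x}) : ℝ) := by
  rw [normR, ← Algebra.coe_norm_int, Ideal.absNorm_span_singleton, Nat.cast_natAbs, Int.cast_abs,
    Rat.cast_intCast]

theorem one_le_normR_coe {x : 𝓞 F} (hx : x ≠ 0) : 1 ≤ normR F (x : F) := by
  rw [normR_coe, Nat.one_le_cast, Nat.one_le_iff_ne_zero, Ne, Ideal.absNorm_eq_zero_iff,
    Ideal.span_singleton_eq_bot]
  exact hx

/-- On the support of the weight the absolute values are comparable to the `d`-th root of the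
norm. -/
theorem exists_dev_bound : ∃ B : ℝ, 0 ≤ B ∧ ∀ x : F, x ≠ 0 → suppInd F x ≠ 0 →
    ∀ w : InfinitePlace F, |dev F x w| ≤ B := by
  set B1 : ℝ := ∑ i, ‖unitBasis F i‖ with hB1
  have hB1' : 0 ≤ B1 := sum_nonneg fun i _ => norm_nonneg _
  refine ⟨Fintype.card (InfinitePlace F) * B1 + B1, by positivity, fun x hx hs w => ?_⟩
  have hc : ∀ i, |coords F x i| ≤ 1 := fun i => by
    by_contra h
    exact hs (prod_eq_zero (mem_univ i) (hat_eq_zero (not_le.1 h)))
  have hv : ‖logVec F x‖ ≤ B1 := by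
    have h : logVec F x = ∑ i, coords F x i • unitBasis F i :=
      ((unitBasis F).sum_equivFun (logVec F x)).symm
    rw [h]
    refine (norm_sum_le _ _).trans (sum_le_sum fun i _ => ?_)
    rw [norm_smul]
    exact mul_le_of_le_one_left (norm_nonneg _) (hc i)
  have hv' : ∀ v : {v : InfinitePlace F // v ≠ w₀}, |(mult v.1 : ℝ) * dev F x v.1| ≤ B1 := fun v => by
    have := (norm_le_pi_norm (logVec F x) v).trans hv
    rwa [Real.norm_eq_abs] at this
  have hmult : ∀ v : InfinitePlace F, (1 : ℝ) ≤ mult v := fun v => by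
    exact_mod_cast one_le_mult
  by_cases hw : w = w₀
  · subst hw
    have h0 := sum_mult_dev F hx
    rw [Fintype.sum_eq_add_sum_subtype_ne _ w₀] at h0
    have h1 : |(mult (w₀ : InfinitePlace F) : ℝ) * dev F x w₀| ≤
        Fintype.card (InfinitePlace F) * B1 := by
      rw [eq_neg_of_add_eq_zero_left h0, abs_neg]
      refine (abs_sum_le_sum_abs _ _).trans ?_
      refine (sum_le_card_nsmul _ _ B1 fun v _ => hv' v).trans ?_
      rw [nsmul_eq_mul]
      refine mul_le_mul_of_nonneg_right ?_ hB1'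
      exact_mod_cast (card_univ (α := {v : InfinitePlace F // v ≠ w₀})).le.trans
        (Fintype.card_subtype_le _)
    rw [abs_mul, Nat.abs_cast] at h1
    calc |dev F x w₀| ≤ (mult (w₀ : InfinitePlace F) : ℝ) * |dev F x w₀| :=
          le_mul_of_one_le_left (abs_nonneg _) (hmult _)
      _ ≤ _ := by linarith
  · have h1 := hv' ⟨w, hw⟩
    rw [abs_mul, Nat.abs_cast] at h1
    calc |dev F x w| ≤ (mult w : ℝ) * |dev F x w| :=
          le_mul_of_one_le_left (abs_nonneg _) (hmult _)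
      _ ≤ B1 := h1
      _ ≤ _ := le_add_of_nonneg_left (by positivity)

/-- The coordinates are a Lipschitz function of the deviations. -/
theorem exists_coords_lipschitz : ∃ C : ℝ, 0 ≤ C ∧ ∀ (x y : F) (δ : ℝ), 0 ≤ δ →
    (∀ w : InfinitePlace F, |dev F x w - dev F y w| ≤ δ) →
    ∀ i, |coords F x i - coords F y i| ≤ C * δ := by
  set e := LinearMap.toContinuousLinearMap (unitBasis F).equivFun.toLinearMap with he
  refine ⟨‖e‖ * 2, by positivity, fun x y δ hδ h i => ?_⟩
  have hn : ‖logVec F x - logVec F y‖ ≤ 2 * δ := by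
    refine (pi_norm_le_iff_of_nonneg (by positivity)).2 fun v => ?_
    rw [Pi.sub_apply, logVec, logVec, ← mul_sub, Real.norm_eq_abs, abs_mul, Nat.abs_cast]
    refine mul_le_mul ?_ (h v.1) (abs_nonneg _) zero_le_two
    exact_mod_cast (show mult v.1 ≤ 2 by unfold mult; split_ifs <;> norm_num)
  calc |coords F x i - coords F y i| = ‖e (logVec F x - logVec F y) i‖ := by
        rw [map_sub, Pi.sub_apply, Real.norm_eq_abs]; rfl
    _ ≤ ‖e (logVec F x - logVec F y)‖ := norm_le_pi_norm _ i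
    _ ≤ ‖e‖ * ‖logVec F x - logVec F y‖ := e.le_opNorm _
    _ ≤ ‖e‖ * (2 * δ) := mul_le_mul_of_nonneg_left hn (norm_nonneg _)
    _ = ‖e‖ * 2 * δ := by ring

theorem abs_log_sub_log_le {a b : ℝ} (ha : 0 < a) (h : 2 * |b - a| ≤ a) :
    0 < b ∧ |Real.log b - Real.log a| ≤ 2 * |b - a| / a := by
  have h1 := abs_le.1 (le_refl |b - a|)
  have hb : 0 < b := by linarith [h1.1]
  refine ⟨hb, abs_le.2 ⟨?_, ?_⟩⟩
  · have h2 := Real.one_sub_inv_le_log_of_pos (div_pos hb ha)
    rw [Real.log_div hb.ne' ha.ne', inv_div] at h2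
    refine le_trans ?_ h2
    have h3 : 1 - a / b = (b - a) / b := by field_simp
    rw [h3, neg_le_iff_add_nonneg', div_add_div _ _ ha.ne' hb.ne']
    apply div_nonneg _ (by positivity)
    rcases le_total a b with hab | hab
    · rw [abs_of_nonneg (by linarith)]; nlinarith
    · rw [abs_of_nonpos (by linarith)] at h ⊢; nlinarith
  · have h2 := Real.log_le_sub_one_of_pos (div_pos hb ha)
    rw [Real.log_div hb.ne' ha.ne'] at h2
    refine h2.trans ?_
    rw [div_sub_one ha.ne']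
    exact div_le_div_of_nonneg_right (le_trans h1.2 (by linarith [abs_nonneg (b - a)])) ha.le

/-- A summand is Lipschitz, up to the majorant, where all absolute values are large. -/
theorem exists_near_bound {R : ℝ} (hR0 : 0 ≤ R) : ∃ C : ℝ, 0 ≤ C ∧
    ∀ (y : 𝓞 F) (t : F) (s : ℝ), 1 < s → s ≤ 2 → y ≠ 0 → suppInd F (y : F) ≠ 0 →
      (∀ w : InfinitePlace F, 2 * |w t - w (y : F)| ≤ w (y : F) ∧ |w t - w (y : F)| ≤ R) →
      |wterm F s t - wterm F s (y : F)| ≤ C * majTerm F (y : F) := by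
  obtain ⟨B, hB0, hB⟩ := exists_dev_bound F
  obtain ⟨L, hL0, hL⟩ := exists_coords_lipschitz F
  have hd := deg_pos F
  set K1 : ℝ := 2 * R * Real.exp B with hK1
  have hK10 : 0 ≤ K1 := by positivity
  set KW : ℝ := Units.rank F * (L * (2 * K1)) with hKW
  set E : ℝ := Real.exp (2 * (deg F * K1)) with hE
  set C : ℝ := KW * E + 2 * (deg F * K1) * E with hC
  have hKW0 : 0 ≤ KW := by positivity
  have hC0 : 0 ≤ C := by positivity
  refine ⟨C, hC0, ?_⟩
  intro y t s hs1 hs2 hy hsupp hclose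
  have hy' : (y : F) ≠ 0 := by exact_mod_cast hy
  set N := normR F (y : F) with hN
  have hN1 : 1 ≤ N := one_le_normR_coe F hy
  have hN0 : 0 < N := lt_of_lt_of_le one_pos hN1
  set ε : ℝ := N ^ (-(1 / deg F)) with hε
  have hε1 : ε ≤ 1 := Real.rpow_le_one_of_one_le_of_nonpos hN1 (by
    have : 0 ≤ 1 / deg F := by positivity
    linarith)
  have hε0 : 0 < ε := Real.rpow_pos_of_pos hN0 _
  have hwy : ∀ w : InfinitePlace F, 0 < w (y : F) := fun w => pos_iff.2 hy'
  have hlog : ∀ w : InfinitePlace F, 0 < w t ∧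
      |Real.log (w t) - Real.log (w (y : F))| ≤ K1 * ε := by
    intro w
    obtain ⟨ht, hlt⟩ := abs_log_sub_log_le (hwy w) (hclose w).1
    refine ⟨ht, hlt.trans ?_⟩
    rw [div_le_iff₀ (hwy w)]
    have h1 : Real.exp (-B) * N ^ (1 / deg F) ≤ w (y : F) := by
      have h2 := (abs_le.1 (hB (y : F) hy' hsupp w)).1
      rw [dev, ← hN] at h2
      rw [Real.rpow_def_of_pos hN0, ← Real.exp_add, ← Real.exp_log (hwy w), Real.exp_le_exp,
        mul_one_div]
      linarith
    have h3 : ε * N ^ (1 / deg F) = 1 := by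
      rw [hε, ← Real.rpow_add hN0, neg_add_cancel, Real.rpow_zero]
    calc 2 * |w t - w (y : F)| ≤ 2 * R := by linarith [(hclose w).2]
      _ = K1 * ε * (Real.exp (-B) * N ^ (1 / deg F)) := by
        rw [hK1, Real.exp_neg]
        have := Real.exp_pos B
        field_simp
        linear_combination -R * h3
      _ ≤ K1 * ε * w (y : F) := mul_le_mul_of_nonneg_left h1 (by positivity)
  have ht : t ≠ 0 := fun h => by
    obtain ⟨h0, -⟩ := hlog (Classical.arbitrary _)
    rw [h, map_zero] at h0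
    exact lt_irrefl _ h0
  have hlogN : |Real.log (normR F t) - Real.log N| ≤ deg F * (K1 * ε) := by
    rw [hN, ← sum_mult_log F t ht, ← sum_mult_log F _ hy', ← sum_sub_distrib, ← sum_mult_real,
      sum_mul]
    refine (abs_sum_le_sum_abs _ _).trans (sum_le_sum fun w _ => ?_)
    rw [← mul_sub, abs_mul, Nat.abs_cast]
    exact mul_le_mul_of_nonneg_left (hlog w).2 (Nat.cast_nonneg _)
  have hdev : ∀ w, |dev F t w - dev F (y : F) w| ≤ 2 * K1 * ε := by
    intro w
    simp only [dev]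
    rw [sub_sub_sub_comm, ← sub_div]
    refine (abs_sub _ _).trans ?_
    rw [abs_div, abs_of_pos hd]
    have h1 : |Real.log (normR F t) - Real.log (normR F (y : F))| / deg F ≤ K1 * ε := by
      rw [div_le_iff₀ hd, mul_comm (K1 * ε) (deg F)]; exact hlogN
    linarith [(hlog w).2]
  have hW : |weight F t - weight F (y : F)| ≤ KW * ε := by
    refine (abs_prod_sub_prod_le _ _ _ (fun i _ => by
      rw [abs_of_nonneg (tent_nonneg _)]; exact tent_le_one _) (fun i _ => by
      rw [abs_of_nonneg (tent_nonneg _)]; exact tent_le_one _)).trans ?_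
    refine (sum_le_card_nsmul _ _ (L * (2 * K1 * ε)) fun i _ =>
      (abs_tent_sub_le _ _).trans (hL t (y : F) _ (by positivity) hdev i)).trans ?_
    rw [hKW, nsmul_eq_mul, card_univ, Fintype.card_fin]
    exact le_of_eq (by ring)
  have hNt : 0 < normR F t := normR_pos F ht
  set Δ : ℝ := Real.log (normR F t) - Real.log N with hΔ
  have hpow : normR F t ^ (-s) = N ^ (-s) * Real.exp (-s * Δ) := by
    rw [Real.rpow_def_of_pos hNt, Real.rpow_def_of_pos hN0, ← Real.exp_add, hΔ]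
    congr 1; ring
  have hsΔ : |-s * Δ| ≤ 2 * (deg F * K1) * ε := by
    rw [abs_mul, abs_neg, abs_of_pos (by linarith : 0 < s), mul_assoc, mul_assoc]
    exact mul_le_mul hs2 hlogN (abs_nonneg _) zero_le_two
  have hsΔ' : |-s * Δ| ≤ 2 * (deg F * K1) :=
    hsΔ.trans (mul_le_of_le_one_right (by positivity) hε1)
  have hexp : Real.exp (-s * Δ) ≤ E := Real.exp_le_exp.2 ((le_abs_self _).trans hsΔ')
  have hexp' : |Real.exp (-s * Δ) - 1| ≤ 2 * (deg F * K1) * ε * E := by
    have h1 : |Real.exp (-s * Δ) - 1| ≤ |-s * Δ| * Real.exp |-s * Δ| := by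
      set u := -s * Δ
      have hu := Real.add_one_le_exp u
      have hu' := Real.add_one_le_exp (-u)
      rcases le_total 0 u with h | h
      · rw [abs_of_nonneg h, abs_of_nonneg (by linarith [Real.one_le_exp h])]
        have : Real.exp u * (1 - u) ≤ 1 := by
          calc Real.exp u * (1 - u) ≤ Real.exp u * Real.exp (-u) :=
                mul_le_mul_of_nonneg_left (by linarith) (Real.exp_pos u).le
            _ = 1 := by rw [← Real.exp_add, add_neg_cancel, Real.exp_zero]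
        linarith
      · rw [abs_of_nonpos h, abs_of_nonpos (by linarith [Real.exp_le_one_iff.2 h])]
        have : 1 ≤ Real.exp (-u) := Real.one_le_exp (by linarith)
        nlinarith
    exact h1.trans (mul_le_mul hsΔ (Real.exp_le_exp.2 hsΔ') (Real.exp_pos _).le (by positivity))
  have hNs : N ^ (-s) * ε ≤ N ^ (-majExp F) := by
    rw [hε, ← Real.rpow_add hN0]
    exact Real.rpow_le_rpow_of_exponent_le hN1 (by rw [majExp]; linarith)
  have hS1 : suppInd F (y : F) = 1 := (suppInd_eq_zero_or_one F _).resolve_left hsupp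
  calc |wterm F s t - wterm F s (y : F)|
      = N ^ (-s) * |(weight F t - weight F (y : F)) * Real.exp (-s * Δ) +
          weight F (y : F) * (Real.exp (-s * Δ) - 1)| := by
        rw [← abs_of_nonneg (Real.rpow_nonneg hN0.le (-s)), ← abs_mul, wterm, wterm, ← hN, hpow]
        congr 1; ring
    _ ≤ N ^ (-s) * (KW * ε * E + 1 * (2 * (deg F * K1) * ε * E)) := by
        refine mul_le_mul_of_nonneg_left ((abs_add_le _ _).trans ?_) (Real.rpow_nonneg hN0.le _)
        rw [abs_mul, abs_mul, abs_of_nonneg (Real.exp_pos _).le,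
          abs_of_nonneg (weight_nonneg F _)]
        exact add_le_add (mul_le_mul hW hexp (Real.exp_pos _).le (by positivity))
          (mul_le_mul (weight_le_one F _) hexp' (abs_nonneg _) zero_le_one)
    _ = N ^ (-s) * ε * (KW * E + 2 * (deg F * K1) * E) := by ring
    _ ≤ N ^ (-majExp F) * C := by
        refine mul_le_mul hNs ?_ (by positivity) (Real.rpow_nonneg hN0.le _)
        rw [hC]
    _ = C * majTerm F (y : F) := by rw [majTerm, hS1, one_mul, ← hN, mul_comm]

/-- Summands at elements with some small absolute value are dominated by the majorant. -/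
theorem exists_far_bound {R : ℝ} (hR0 : 0 ≤ R) : ∃ C : ℝ, 0 ≤ C ∧
    ∀ (y : 𝓞 F) (s : ℝ), 1 < s → s ≤ 2 →
      (suppInd F (y : F) = 0 ∨ y = 0 ∨ ∃ w : InfinitePlace F, w (y : F) < 2 * R) →
      wterm F s (y : F) ≤ C * majTerm F (y : F) := by
  obtain ⟨B, hB0, hB⟩ := exists_dev_bound F
  have hd := deg_pos F
  set K1 : ℝ := 2 * R * Real.exp B with hK1
  have hK10 : 0 ≤ K1 := by positivity
  set Kfar : ℝ := (K1 ^ deg F) ^ majExp F with hKfar
  have hKfar0 : 0 ≤ Kfar := Real.rpow_nonneg (Real.rpow_nonneg hK10 _) _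
  set C : ℝ := Kfar with hC
  have hC0 : 0 ≤ C := hKfar0
  refine ⟨C, hC0, ?_⟩
  intro y s hs1 hs2 h
  by_cases hy : y = 0
  · rw [hy, RingOfIntegers.coe_eq_algebraMap, map_zero, wterm_zero F (by linarith)]
    exact mul_nonneg hC0 (majTerm_nonneg F _)
  by_cases hsupp : suppInd F (y : F) = 0
  · have : weight F (y : F) = 0 :=
      le_antisymm (hsupp ▸ weight_le_suppInd F _) (weight_nonneg F _)
    rw [wterm, this, zero_mul]
    exact mul_nonneg hC0 (majTerm_nonneg F _)
  obtain ⟨w, hw⟩ := (h.resolve_left hsupp).resolve_left hy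
  have hy' : (y : F) ≠ 0 := by exact_mod_cast hy
  set N := normR F (y : F) with hN
  have hN1 : 1 ≤ N := one_le_normR_coe F hy
  have hN0 : 0 < N := lt_of_lt_of_le one_pos hN1
  have h1 : N ^ (1 / deg F) ≤ K1 := by
    have h2 := (abs_le.1 (hB (y : F) hy' hsupp w)).1
    rw [dev, ← hN] at h2
    have h3 : N ^ (1 / deg F) ≤ w (y : F) * Real.exp B := by
      rw [Real.rpow_def_of_pos hN0, ← Real.exp_log (pos_iff.2 hy' : 0 < w (y : F)),
        ← Real.exp_add, Real.exp_le_exp, mul_one_div]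
      linarith
    refine h3.trans (mul_le_mul_of_nonneg_right ?_ (Real.exp_pos B).le)
    linarith
  have h4 : N ≤ K1 ^ deg F := by
    have := Real.rpow_le_rpow (Real.rpow_nonneg hN0.le _) h1 hd.le
    rwa [← Real.rpow_mul hN0.le, one_div_mul_cancel hd.ne', Real.rpow_one] at this
  have h5 : N ^ majExp F ≤ Kfar :=
    Real.rpow_le_rpow hN0.le h4 (by linarith [majExp_gt_one F])
  calc wterm F s (y : F) ≤ 1 * 1 :=
        mul_le_mul (weight_le_one F _) (Real.rpow_le_one_of_one_le_of_nonpos hN1 (by linarith))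
          (Real.rpow_nonneg hN0.le _) zero_le_one
    _ = N ^ majExp F * N ^ (-majExp F) := by
        rw [← Real.rpow_add hN0, add_neg_cancel, Real.rpow_zero, one_mul]
    _ ≤ C * N ^ (-majExp F) := by
        refine mul_le_mul_of_nonneg_right (h5.trans ?_) (Real.rpow_nonneg hN0.le _)
        rw [hC]
    _ = C * majTerm F (y : F) := by
        rw [majTerm, (suppInd_eq_zero_or_one F _).resolve_left hsupp, one_mul]

/-- The effect of a translation by `r` on a summand. -/
theorem exists_translate_bound (r : 𝓞 F) : ∃ C : ℝ, 0 ≤ C ∧ ∀ (y : 𝓞 F) (s : ℝ), 1 < s → s ≤ 2 →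
    |wterm F s ((y + r : 𝓞 F) : F) - wterm F s (y : F)| ≤
      C * (majTerm F (y : F) + majTerm F ((y + r : 𝓞 F) : F)) := by
  set R : ℝ := ∑ w : InfinitePlace F, w (r : F) with hR
  have hRw : ∀ w : InfinitePlace F, w (r : F) ≤ R := fun w =>
    single_le_sum (f := fun v : InfinitePlace F => v (r : F)) (fun v _ => apply_nonneg v _)
      (mem_univ w)
  have hR0 : 0 ≤ R := sum_nonneg fun w _ => apply_nonneg w _
  obtain ⟨C1, hC1, hnear'⟩ := exists_near_bound F hR0
  obtain ⟨C2, hC2, hfar'⟩ := exists_far_bound F hR0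
  set C : ℝ := C1 + C2 with hC
  have hC0 : 0 ≤ C := by positivity
  have hnear : ∀ (y : 𝓞 F) (t : F) (s : ℝ), 1 < s → s ≤ 2 → y ≠ 0 → suppInd F (y : F) ≠ 0 →
      (∀ w : InfinitePlace F, 2 * |w t - w (y : F)| ≤ w (y : F) ∧ |w t - w (y : F)| ≤ R) →
      |wterm F s t - wterm F s (y : F)| ≤ C * majTerm F (y : F) := fun y t s h1 h2 h3 h4 h5 =>
    (hnear' y t s h1 h2 h3 h4 h5).trans
      (mul_le_mul_of_nonneg_right (by linarith) (majTerm_nonneg F _))
  have hfar : ∀ (y : 𝓞 F) (s : ℝ), 1 < s → s ≤ 2 →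
      (suppInd F (y : F) = 0 ∨ y = 0 ∨ ∃ w : InfinitePlace F, w (y : F) < 2 * w (r : F)) →
      wterm F s (y : F) ≤ C * majTerm F (y : F) := fun y s h1 h2 h3 =>
    (hfar' y s h1 h2 (h3.imp_right (Or.imp_right fun ⟨w, hw⟩ => ⟨w, by linarith [hRw w]⟩))).trans
      (mul_le_mul_of_nonneg_right (by linarith) (majTerm_nonneg F _))
  refine ⟨C, hC0, ?_⟩
  -- combination
  intro y s hs1 hs2
  set y' : 𝓞 F := y + r with hy'
  have hCy := mul_nonneg hC0 (majTerm_nonneg F (y : F))
  have hCy' := mul_nonneg hC0 (majTerm_nonneg F (y' : F))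
  have hplace : ∀ w : InfinitePlace F, |w (y' : F) - w (y : F)| ≤ w (r : F) := by
    intro w
    refine le_trans (w.1.abs_abv_sub_le_abv_sub (y' : F) (y : F)) (le_of_eq ?_)
    rw [hy', RingOfIntegers.coe_eq_algebraMap, RingOfIntegers.coe_eq_algebraMap, map_add,
      add_sub_cancel_left]
    rfl
  by_cases h1 : suppInd F (y : F) = 0 ∨ y = 0 ∨ ∃ w : InfinitePlace F, w (y : F) < 2 * w (r : F)
  · by_cases h2 : suppInd F (y' : F) = 0 ∨ y' = 0 ∨
        ∃ w : InfinitePlace F, w (y' : F) < 2 * w (r : F)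
    · have e1 := hfar y s hs1 hs2 h1
      have e2 := hfar y' s hs1 hs2 h2
      have n1 := wterm_nonneg F s (y : F)
      have n2 := wterm_nonneg F s (y' : F)
      rw [mul_add, abs_le]
      constructor <;> linarith
    · push Not at h2
      obtain ⟨hs', hy0, hbig⟩ := h2
      have e := hnear y' (y : F) s hs1 hs2 hy0 hs' fun w => by
        rw [abs_sub_comm]
        exact ⟨le_trans (by linarith [hplace w]) (hbig w), (hplace w).trans (hRw w)⟩
      rw [abs_sub_comm, mul_add]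
      linarith
  · push Not at h1
    obtain ⟨hs', hy0, hbig⟩ := h1
    have e := hnear y (y' : F) s hs1 hs2 hy0 hs' fun w =>
      ⟨le_trans (by linarith [hplace w]) (hbig w), (hplace w).trans (hRw w)⟩
    rw [mul_add]
    linarith

/-- The partial zeta function of an ideal class. -/
def partialZeta (C : ClassGroup (𝓞 F)) (s : ℝ) : ℝ :=
  ∑' J : {J : (Ideal (𝓞 F))⁰ // ClassGroup.mk0 J = C},
    (Ideal.absNorm (J.1 : Ideal (𝓞 F)) : ℝ) ^ (-s)

theorem summable_partialZeta (C : ClassGroup (𝓞 F)) {s : ℝ} (hs : 1 < s) :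
    Summable fun J : {J : (Ideal (𝓞 F))⁰ // ClassGroup.mk0 J = C} =>
      (Ideal.absNorm (J.1 : Ideal (𝓞 F)) : ℝ) ^ (-s) :=
  (summable_absNorm_rpow F hs).subtype _

theorem partialZeta_nonneg (C : ClassGroup (𝓞 F)) (s : ℝ) : 0 ≤ partialZeta F C s :=
  tsum_nonneg fun _ => Real.rpow_nonneg (Nat.cast_nonneg _) _

variable {F}

/-- A generator of `J * b` when the class of `J` is inverse to that of `b`. -/
theorem exists_idealGenerator {C : ClassGroup (𝓞 F)} {b : (Ideal (𝓞 F))⁰}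
    (hb : ClassGroup.mk0 b = C⁻¹) (J : {J : (Ideal (𝓞 F))⁰ // ClassGroup.mk0 J = C}) :
    ∃ g : 𝓞 F, g ≠ 0 ∧ (J.1 : Ideal (𝓞 F)) * b = Ideal.span {g} :=
  ClassGroup.mk0_eq_mk0_inv_iff.1 (by rw [J.2, hb, inv_inv])

/-- Elements of `b`, parametrised by an ideal of the class and a unit. -/
def genMap {C : ClassGroup (𝓞 F)} {b : (Ideal (𝓞 F))⁰} (hb : ClassGroup.mk0 b = C⁻¹)
    (Ju : {J : (Ideal (𝓞 F))⁰ // ClassGroup.mk0 J = C} × (𝓞 F)ˣ) : (b : Ideal (𝓞 F)) :=
  ⟨(Ju.2 : 𝓞 F) * (exists_idealGenerator hb Ju.1).choose, by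
    refine Ideal.mul_mem_left _ _ (Ideal.mul_le_left (I := (b : Ideal (𝓞 F)))
      (J := (Ju.1.1 : Ideal (𝓞 F))) ?_)
    have h := Ideal.mem_span_singleton_self (exists_idealGenerator hb Ju.1).choose
    rw [← (exists_idealGenerator hb Ju.1).choose_spec.2] at h
    rwa [mul_comm]⟩

theorem genMap_injective {C : ClassGroup (𝓞 F)} {b : (Ideal (𝓞 F))⁰}
    (hb : ClassGroup.mk0 b = C⁻¹) : Function.Injective (genMap hb) := by
  rintro ⟨J, u⟩ ⟨J', u'⟩ h
  have h' : (u : 𝓞 F) * (exists_idealGenerator hb J).choose =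
      (u' : 𝓞 F) * (exists_idealGenerator hb J').choose := congrArg Subtype.val h
  have hJ : J = J' := by
    have e := congrArg (fun x => Ideal.span {x}) h'
    simp only [Ideal.span_singleton_mul_left_unit u.isUnit,
      Ideal.span_singleton_mul_left_unit u'.isUnit] at e
    rw [← (exists_idealGenerator hb J).choose_spec.2, ← (exists_idealGenerator hb J').choose_spec.2] at e
    refine Subtype.ext (Subtype.ext (mul_right_cancel₀ ?_ e))
    exact nonZeroDivisors.ne_zero b.2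
  subst hJ
  have hu : u = u' :=
    Units.ext (mul_right_cancel₀ (exists_idealGenerator hb J).choose_spec.1 h')
  rw [hu]

theorem mem_range_genMap {C : ClassGroup (𝓞 F)} {b : (Ideal (𝓞 F))⁰}
    (hb : ClassGroup.mk0 b = C⁻¹) (x : (b : Ideal (𝓞 F))) (hx : (x : 𝓞 F) ≠ 0) :
    x ∈ Set.range (genMap hb) := by
  obtain ⟨I, hI⟩ := (Ideal.dvd_span_singleton.2 x.2 : (b : Ideal (𝓞 F)) ∣ Ideal.span {(x : 𝓞 F)})
  have hI0 : I ∈ (Ideal (𝓞 F))⁰ := mem_nonZeroDivisors_iff_ne_zero.2 fun h => by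
    rw [h, mul_zero, Ideal.zero_eq_bot, Ideal.span_singleton_eq_bot] at hI
    exact hx hI
  have hC : ClassGroup.mk0 (⟨I, hI0⟩ : (Ideal (𝓞 F))⁰) = C := by
    have h : ClassGroup.mk0 (⟨I, hI0⟩ : (Ideal (𝓞 F))⁰) = (ClassGroup.mk0 b)⁻¹ :=
      ClassGroup.mk0_eq_mk0_inv_iff.2 ⟨x, hx, by rw [mul_comm]; exact hI.symm⟩
    rw [h, hb, inv_inv]
  set g := (exists_idealGenerator hb ⟨⟨I, hI0⟩, hC⟩).choose with hg
  have e : Ideal.span {g} = Ideal.span {(x : 𝓞 F)} := by
    rw [← (exists_idealGenerator hb ⟨⟨I, hI0⟩, hC⟩).choose_spec.2, hI, mul_comm]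
  obtain ⟨u, hu⟩ := Ideal.span_singleton_eq_span_singleton.1 e
  exact ⟨⟨⟨⟨I, hI0⟩, hC⟩, u⟩, Subtype.ext (by rw [← hu, mul_comm]; rfl)⟩

theorem normR_genMap {C : ClassGroup (𝓞 F)} {b : (Ideal (𝓞 F))⁰}
    (hb : ClassGroup.mk0 b = C⁻¹) (J : {J : (Ideal (𝓞 F))⁰ // ClassGroup.mk0 J = C})
    (u : (𝓞 F)ˣ) :
    normR F ((genMap hb (J, u) : 𝓞 F) : F) =
      Ideal.absNorm (b : Ideal (𝓞 F)) * Ideal.absNorm (J.1 : Ideal (𝓞 F)) := by
  rw [normR_coe, show ((genMap hb (J, u) : 𝓞 F)) = (u : 𝓞 F) * (exists_idealGenerator hb J).choose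
    from rfl, Ideal.span_singleton_mul_left_unit u.isUnit,
    ← (exists_idealGenerator hb J).choose_spec.2, map_mul, Nat.cast_mul, mul_comm]

theorem coe_genMap {C : ClassGroup (𝓞 F)} {b : (Ideal (𝓞 F))⁰}
    (hb : ClassGroup.mk0 b = C⁻¹) (J : {J : (Ideal (𝓞 F))⁰ // ClassGroup.mk0 J = C})
    (u : (𝓞 F)ˣ) :
    ((genMap hb (J, u) : 𝓞 F) : F) =
      ((u : 𝓞 F) : F) * (((exists_idealGenerator hb J).choose : 𝓞 F) : F) :=
  map_mul (algebraMap (𝓞 F) F) _ _

theorem coe_generator_ne_zero {C : ClassGroup (𝓞 F)} {b : (Ideal (𝓞 F))⁰}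
    (hb : ClassGroup.mk0 b = C⁻¹) (J : {J : (Ideal (𝓞 F))⁰ // ClassGroup.mk0 J = C}) :
    (((exists_idealGenerator hb J).choose : 𝓞 F) : F) ≠ 0 := by
  exact_mod_cast (exists_idealGenerator hb J).choose_spec.1

/-- The weighted sum over the lattice `b` is a multiple of a partial zeta function. -/
theorem hasSum_wterm {C : ClassGroup (𝓞 F)} {b : (Ideal (𝓞 F))⁰}
    (hb : ClassGroup.mk0 b = C⁻¹) {s : ℝ} (hs : 1 < s) :
    HasSum (fun x : (b : Ideal (𝓞 F)) => wterm F s ((x : 𝓞 F) : F))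
      (torsionOrder F * (Ideal.absNorm (b : Ideal (𝓞 F)) : ℝ) ^ (-s) * partialZeta F C s) := by
  rw [← (genMap_injective hb).hasSum_iff]
  swap
  · intro x hx
    have : (x : 𝓞 F) = 0 := not_imp_comm.1 (mem_range_genMap hb x) hx
    rw [this, RingOfIntegers.coe_eq_algebraMap, map_zero, wterm_zero F (by linarith)]
  set n : ℝ := (Ideal.absNorm (b : Ideal (𝓞 F)) : ℝ) with hn
  have hfib : ∀ J : {J : (Ideal (𝓞 F))⁰ // ClassGroup.mk0 J = C},
      HasSum (fun u : (𝓞 F)ˣ => wterm F s ((genMap hb (J, u) : 𝓞 F) : F))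
        (torsionOrder F * n ^ (-s) * (Ideal.absNorm (J.1 : Ideal (𝓞 F)) : ℝ) ^ (-s)) := by
    intro J
    have h := (hasSum_weight_units F (coe_generator_ne_zero hb J)).mul_right
      ((n * (Ideal.absNorm (J.1 : Ideal (𝓞 F)) : ℝ)) ^ (-s))
    rw [mul_assoc, ← Real.mul_rpow (Nat.cast_nonneg _) (Nat.cast_nonneg _)]
    refine h.congr_fun fun u => ?_
    rw [wterm, normR_genMap, coe_genMap]
  have hsum : Summable ((fun x : (b : Ideal (𝓞 F)) => wterm F s ((x : 𝓞 F) : F)) ∘ genMap hb) := by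
    refine (summable_prod_of_nonneg fun Ju => wterm_nonneg F s _).2
      ⟨fun J => (hfib J).summable, ?_⟩
    refine ((summable_partialZeta F C hs).mul_left (torsionOrder F * n ^ (-s))).congr fun J => ?_
    exact (hfib J).tsum_eq.symm
  have h := hsum.hasSum.prod_fiberwise hfib
  have h2 := (summable_partialZeta F C hs).hasSum.mul_left (torsionOrder F * n ^ (-s))
  rw [show torsionOrder F * n ^ (-s) * partialZeta F C s = _ from h2.unique h]
  exact hsum.hasSum

theorem summable_majTerm {C : ClassGroup (𝓞 F)} {b : (Ideal (𝓞 F))⁰}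
    (hb : ClassGroup.mk0 b = C⁻¹) :
    Summable fun x : (b : Ideal (𝓞 F)) => majTerm F ((x : 𝓞 F) : F) := by
  rw [← (genMap_injective hb).summable_iff]
  swap
  · intro x hx
    have : (x : 𝓞 F) = 0 := not_imp_comm.1 (mem_range_genMap hb x) hx
    rw [this, RingOfIntegers.coe_eq_algebraMap, map_zero, majTerm, normR_zero,
      Real.zero_rpow (by linarith [majExp_gt_one F]), mul_zero]
  set n : ℝ := (Ideal.absNorm (b : Ideal (𝓞 F)) : ℝ) with hn
  have hfib : ∀ J : {J : (Ideal (𝓞 F))⁰ // ClassGroup.mk0 J = C},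
      Summable (fun u : (𝓞 F)ˣ => majTerm F ((genMap hb (J, u) : 𝓞 F) : F)) ∧
      ∑' u : (𝓞 F)ˣ, majTerm F ((genMap hb (J, u) : 𝓞 F) : F) ≤
        torsionOrder F * 4 ^ Units.rank F * n ^ (-majExp F) *
          (Ideal.absNorm (J.1 : Ideal (𝓞 F)) : ℝ) ^ (-majExp F) := by
    intro J
    have e : (fun u : (𝓞 F)ˣ => majTerm F ((genMap hb (J, u) : 𝓞 F) : F)) = fun u : (𝓞 F)ˣ =>
        suppInd F (((u : 𝓞 F) : F) * (((exists_idealGenerator hb J).choose : 𝓞 F) : F)) *
          (n * (Ideal.absNorm (J.1 : Ideal (𝓞 F)) : ℝ)) ^ (-majExp F) := by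
      funext u; rw [majTerm, normR_genMap, coe_genMap]
    obtain ⟨h1, h2⟩ := summable_suppInd_units F (coe_generator_ne_zero hb J)
    rw [e]
    refine ⟨h1.mul_right _, ?_⟩
    rw [tsum_mul_right, mul_assoc _ (n ^ (-majExp F)),
      ← Real.mul_rpow (Nat.cast_nonneg _) (Nat.cast_nonneg _)]
    exact mul_le_mul_of_nonneg_right h2 (by positivity)
  refine (summable_prod_of_nonneg fun Ju => majTerm_nonneg F _).2 ⟨fun J => (hfib J).1, ?_⟩
  exact Summable.of_nonneg_of_le (fun J => tsum_nonneg fun u => majTerm_nonneg F _)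
    (fun J => (hfib J).2) ((summable_partialZeta F C (majExp_gt_one F)).mul_left _)

variable (F)

theorem summable_majTerm_univ : Summable fun x : 𝓞 F => majTerm F (x : F) := by
  have h := summable_majTerm (F := F) (C := 1) (b := 1) (by rw [map_one, inv_one])
  exact (Function.Injective.summable_iff (f := fun x : 𝓞 F => majTerm F (x : F))
    (g := fun x : ((1 : (Ideal (𝓞 F))⁰) : Ideal (𝓞 F)) => (x : 𝓞 F)) Subtype.val_injective
    fun x hx => absurd ⟨⟨x, by simp⟩, rfl⟩ hx).1 h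

theorem hasSum_wterm_univ {s : ℝ} (hs : 1 < s) :
    HasSum (fun x : 𝓞 F => wterm F s (x : F)) (torsionOrder F * partialZeta F 1 s) := by
  have h := hasSum_wterm (F := F) (C := 1) (b := 1) (by rw [map_one, inv_one]) hs
  rw [OneMemClass.coe_one, map_one, Nat.cast_one, Real.one_rpow, mul_one] at h
  exact (Function.Injective.hasSum_iff (f := fun x : 𝓞 F => wterm F s (x : F))
    (g := fun x : ((1 : (Ideal (𝓞 F))⁰) : Ideal (𝓞 F)) => (x : 𝓞 F)) Subtype.val_injective
    fun x hx => absurd ⟨⟨x, by simp⟩, rfl⟩ hx).1 h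

/-- `𝓞` is the disjoint union of the cosets of an ideal. -/
def cosetEquiv (I : Ideal (𝓞 F)) : (𝓞 F ⧸ I) × I ≃ 𝓞 F where
  toFun qy := (qy.2 : 𝓞 F) + qy.1.out
  invFun z := (Ideal.Quotient.mk I z, ⟨z - (Ideal.Quotient.mk I z).out, by
    rw [← Ideal.Quotient.eq, Ideal.Quotient.mk_out]⟩)
  left_inv qy := by
    have h : Ideal.Quotient.mk I ((qy.2 : 𝓞 F) + qy.1.out) = qy.1 := by
      rw [map_add, Ideal.Quotient.eq_zero_iff_mem.2 qy.2.2, zero_add, Ideal.Quotient.mk_out]
    refine Prod.ext h (Subtype.ext ?_)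
    simp only [h, add_sub_cancel_right]
  right_inv z := by simp

omit [NumberField F] in
theorem tsum_cosetEquiv (I : Ideal (𝓞 F)) [Fintype (𝓞 F ⧸ I)] (f : 𝓞 F → ℝ) (hf : Summable f) :
    ∑' x, f x = ∑ q : 𝓞 F ⧸ I, ∑' y : I, f ((y : 𝓞 F) + q.out) := by
  have h : Summable fun c => f (cosetEquiv F I c) := ((cosetEquiv F I).summable_iff).2 hf
  rw [← (cosetEquiv F I).tsum_eq, h.tsum_prod, tsum_fintype]
  rfl

/-- Partial zeta functions differ by bounded functions on `1 < s ≤ 2`. -/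
theorem exists_partialZeta_sub_le : ∃ B : ℝ, ∀ (C : ClassGroup (𝓞 F)) (s : ℝ), 1 < s → s ≤ 2 →
    |partialZeta F C s - partialZeta F 1 s| ≤ B := by
  obtain ⟨Cζ, hζ⟩ := exists_sub_one_mul_zeta_le F
  suffices h : ∀ C : ClassGroup (𝓞 F), ∃ B : ℝ, ∀ s : ℝ, 1 < s → s ≤ 2 →
      |partialZeta F C s - partialZeta F 1 s| ≤ B by
    choose B hB using h
    refine ⟨∑ C, |B C|, fun C s h1 h2 => (hB C s h1 h2).trans ((le_abs_self _).trans ?_)⟩
    exact single_le_sum (f := fun C => |B C|) (fun _ _ => abs_nonneg _) (mem_univ C)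
  intro C
  obtain ⟨b, hb⟩ := ClassGroup.mk0_surjective C⁻¹
  have hfin : Finite (𝓞 F ⧸ (b : Ideal (𝓞 F))) :=
    (Ideal.absNorm_ne_zero_iff _).1 (Ideal.absNorm_ne_zero_of_nonZeroDivisors b)
  have := Fintype.ofFinite (𝓞 F ⧸ (b : Ideal (𝓞 F)))
  choose K hK0 hK using fun q : 𝓞 F ⧸ (b : Ideal (𝓞 F)) => exists_translate_bound F q.out
  set M : (𝓞 F ⧸ (b : Ideal (𝓞 F))) → ℝ := fun q => K q *
    (∑' y : (b : Ideal (𝓞 F)), majTerm F ((y : 𝓞 F) : F) +
      ∑' y : (b : Ideal (𝓞 F)), majTerm F (((y : 𝓞 F) + q.out : 𝓞 F) : F)) with hM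
  set n : ℝ := (Ideal.absNorm (b : Ideal (𝓞 F)) : ℝ) with hn
  have hn1 : 1 ≤ n := by
    rw [hn, Nat.one_le_cast, Nat.one_le_iff_ne_zero]
    exact Ideal.absNorm_ne_zero_of_nonZeroDivisors b
  have hw : (0 : ℝ) < torsionOrder F := Nat.cast_pos.2 (torsionOrder_pos F)
  refine ⟨(∑ q, M q) / torsionOrder F + Cζ * Real.log n, fun s hs1 hs2 => ?_⟩
  have hall := hasSum_wterm_univ F hs1
  have hbs := hasSum_wterm hb hs1
  have hinj : ∀ q : 𝓞 F ⧸ (b : Ideal (𝓞 F)), Function.Injective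
      fun y : (b : Ideal (𝓞 F)) => (y : 𝓞 F) + q.out :=
    fun q => (add_left_injective _).comp Subtype.val_injective
  have hq : ∀ q : 𝓞 F ⧸ (b : Ideal (𝓞 F)), Summable fun y : (b : Ideal (𝓞 F)) =>
      wterm F s (((y : 𝓞 F) + q.out : 𝓞 F) : F) := fun q => hall.summable.comp_injective (hinj q)
  have hqm : ∀ q : 𝓞 F ⧸ (b : Ideal (𝓞 F)), Summable fun y : (b : Ideal (𝓞 F)) =>
      majTerm F (((y : 𝓞 F) + q.out : 𝓞 F) : F) :=
    fun q => (summable_majTerm_univ F).comp_injective (hinj q)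
  set S := ∑' y : (b : Ideal (𝓞 F)), wterm F s ((y : 𝓞 F) : F) with hS
  have hdec : torsionOrder F * partialZeta F 1 s =
      ∑ q : 𝓞 F ⧸ (b : Ideal (𝓞 F)), ∑' y : (b : Ideal (𝓞 F)),
        wterm F s (((y : 𝓞 F) + q.out : 𝓞 F) : F) := by
    rw [← hall.tsum_eq]
    exact tsum_cosetEquiv F (b : Ideal (𝓞 F)) (fun x => wterm F s (x : F)) hall.summable
  have hcard : n = Fintype.card (𝓞 F ⧸ (b : Ideal (𝓞 F))) := by
    rw [hn, Ideal.absNorm_apply, Submodule.cardQuot_apply, Nat.card_eq_fintype_card]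
  have hdiff : |torsionOrder F * partialZeta F 1 s - n * S| ≤ ∑ q, M q := by
    rw [hdec, hcard, ← nsmul_eq_mul, Fintype.card, ← sum_const, ← sum_sub_distrib]
    refine (abs_sum_le_sum_abs _ _).trans (sum_le_sum fun q _ => ?_)
    rw [hS, ← (hq q).tsum_sub hbs.summable]
    refine (Real.norm_eq_abs _).symm.le.trans ?_
    refine (tsum_of_norm_bounded
      ((((summable_majTerm hb).add (hqm q)).hasSum).mul_left (K q)) fun y => ?_).trans (le_of_eq ?_)
    · rw [Real.norm_eq_abs]; exact hK q _ s hs1 hs2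
    · rw [hM, (summable_majTerm hb).tsum_add (hqm q)]
  rw [hS, hbs.tsum_eq] at hdiff
  have hns : n * n ^ (-s) = n ^ (1 - s) := by
    rw [sub_eq_add_neg, Real.rpow_add (by linarith), Real.rpow_one]
  have h1 : |partialZeta F 1 s - n ^ (1 - s) * partialZeta F C s| ≤
      (∑ q, M q) / torsionOrder F := by
    rw [le_div_iff₀ hw, mul_comm]
    nth_rewrite 1 [← abs_of_pos hw]
    rw [← abs_mul]
    refine le_trans (le_of_eq ?_) hdiff
    rw [← hns]
    congr 1; ring
  have h2 : |(1 - n ^ (1 - s)) * partialZeta F C s| ≤ Cζ * Real.log n := by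
    have hn0 : 0 < n := by linarith
    have hlo : 0 ≤ 1 - n ^ (1 - s) := by
      linarith [Real.rpow_le_one_of_one_le_of_nonpos hn1 (by linarith : 1 - s ≤ 0)]
    have hhi : 1 - n ^ (1 - s) ≤ (s - 1) * Real.log n := by
      rw [Real.rpow_def_of_pos hn0]
      nlinarith [Real.add_one_le_exp (Real.log n * (1 - s))]
    rw [abs_mul, abs_of_nonneg hlo, abs_of_nonneg (partialZeta_nonneg F C s)]
    have hle : partialZeta F C s ≤
        ∑' J : (Ideal (𝓞 F))⁰, (Ideal.absNorm (J : Ideal (𝓞 F)) : ℝ) ^ (-s) :=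
      Summable.tsum_subtype_le
        (fun J : (Ideal (𝓞 F))⁰ => (Ideal.absNorm (J : Ideal (𝓞 F)) : ℝ) ^ (-s))
        {J | ClassGroup.mk0 J = C} (fun J => Real.rpow_nonneg (Nat.cast_nonneg _) _)
        (summable_absNorm_rpow F hs1)
    calc (1 - n ^ (1 - s)) * partialZeta F C s
        ≤ (s - 1) * Real.log n *
          ∑' J : (Ideal (𝓞 F))⁰, (Ideal.absNorm (J : Ideal (𝓞 F)) : ℝ) ^ (-s) :=
          mul_le_mul hhi hle (partialZeta_nonneg F C s)
            (mul_nonneg (by linarith) (Real.log_nonneg hn1))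
      _ = Real.log n * ((s - 1) *
          ∑' J : (Ideal (𝓞 F))⁰, (Ideal.absNorm (J : Ideal (𝓞 F)) : ℝ) ^ (-s)) := by ring
      _ ≤ Real.log n * Cζ := mul_le_mul_of_nonneg_left (hζ s hs1 hs2) (Real.log_nonneg hn1)
      _ = Cζ * Real.log n := mul_comm _ _
  calc |partialZeta F C s - partialZeta F 1 s|
      = |(1 - n ^ (1 - s)) * partialZeta F C s -
          (partialZeta F 1 s - n ^ (1 - s) * partialZeta F C s)| := by congr 1; ring
    _ ≤ _ := (abs_sub _ _).trans (by linarith)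

/-- The summand of an `L`-series of a class group character. -/
def charTerm (χ : ClassGroup (𝓞 F) →* ℂ) (s : ℝ) (J : (Ideal (𝓞 F))⁰) : ℂ :=
  χ (ClassGroup.mk0 J) * (((Ideal.absNorm (J : Ideal (𝓞 F)) : ℝ) ^ (-s) : ℝ) : ℂ)

theorem norm_char_eq_one (χ : ClassGroup (𝓞 F) →* ℂ) (c : ClassGroup (𝓞 F)) : ‖χ c‖ = 1 :=
  (MonoidHom.isOfFinOrder χ (isOfFinOrder_of_finite c)).norm_eq_one

theorem summable_charTerm (χ : ClassGroup (𝓞 F) →* ℂ) {s : ℝ} (hs : 1 < s) :
    Summable (charTerm F χ s) := by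
  refine Summable.of_norm ((summable_absNorm_rpow F hs).congr fun J => ?_)
  rw [charTerm, norm_mul, norm_char_eq_one, one_mul, Complex.norm_real, Real.norm_eq_abs,
    abs_of_nonneg (Real.rpow_nonneg (Nat.cast_nonneg _) _)]

/-- The `L`-series of a nontrivial class group character is bounded for `1 < s ≤ 2`. -/
theorem exists_norm_charSum_le {χ : ClassGroup (𝓞 F) →* ℂ} (hχ : ∃ c, χ c ≠ 1) :
    ∃ B : ℝ, ∀ s : ℝ, 1 < s → s ≤ 2 → ‖∑' J, charTerm F χ s J‖ ≤ B := by
  obtain ⟨B, hB⟩ := exists_partialZeta_sub_le F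
  refine ⟨Fintype.card (ClassGroup (𝓞 F)) * B, fun s hs1 hs2 => ?_⟩
  have hsum := summable_charTerm F χ hs1
  have hpart : ∀ C : ClassGroup (𝓞 F),
      ∑' J : {J : (Ideal (𝓞 F))⁰ // ClassGroup.mk0 J = C}, charTerm F χ s J.1 =
        χ C * (partialZeta F C s : ℂ) := by
    intro C
    rw [partialZeta, Complex.ofReal_tsum, ← tsum_mul_left]
    exact tsum_congr fun J => by rw [charTerm, J.2]
  rw [← (Equiv.sigmaFiberEquiv (ClassGroup.mk0 : (Ideal (𝓞 F))⁰ →* _)).tsum_eq,
    Summable.tsum_sigma (f := fun c => charTerm F χ s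
      ((Equiv.sigmaFiberEquiv (ClassGroup.mk0 : (Ideal (𝓞 F))⁰ →* _)) c))
      (((Equiv.sigmaFiberEquiv _).summable_iff).2 hsum), tsum_fintype]
  simp only [Equiv.sigmaFiberEquiv_apply]
  simp_rw [hpart]
  have hzero : ∑ C, χ C = 0 := by
    obtain ⟨c, hc⟩ := hχ
    have e : ∑ C, χ (c * C) = ∑ C, χ C := Equiv.sum_comp (Equiv.mulLeft c) (χ : ClassGroup (𝓞 F) → ℂ)
    simp only [map_mul, ← mul_sum] at e
    by_contra h
    exact hc (mul_right_cancel₀ h (e.trans (one_mul _).symm))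
  have e : ∑ C, χ C * (partialZeta F C s : ℂ) =
      ∑ C, χ C * ((partialZeta F C s - partialZeta F 1 s : ℝ) : ℂ) := by
    push_cast
    simp only [mul_sub, sum_sub_distrib, ← sum_mul, hzero, zero_mul, sub_zero]
  rw [e]
  refine (norm_sum_le _ _).trans ((sum_le_card_nsmul _ _ B fun C _ => ?_).trans (le_of_eq ?_))
  · rw [norm_mul, norm_char_eq_one, one_mul, Complex.norm_real, Real.norm_eq_abs]
    exact hB C s hs1 hs2
  · rw [nsmul_eq_mul, card_univ]

end

end Fermat.Agent.CFT
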