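/-
Euler products for the class group characters of a number field, on the real half line `1 < s`,
in the form of inequalities for sums over primes.

* `exists_tsum_re_char_le`: for a nontrivial character the sum of `Re χ(P) NP^(-s)` is bounded
  above for `1 < s ≤ 2`;
* `exists_tsum_prime_le`: the sum of `NP^(-s)` is at most `log (1/(s-1)) + O(1)`;
* `exists_log_le_tsum_degreeOne`: the sum over the primes of degree one, outside a given finite
  set of residue characteristics, is at least `log (1/(s-1)) - O(1)` near `1`.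
-/
import Mathlib.RingTheory.DedekindDomain.Ideal.Lemmas
import Mathlib.RingTheory.DedekindDomain.Factorization
import Mathlib.NumberTheory.SumPrimeReciprocals
import Mathlib.Analysis.SpecificLimits.Normed
import Mathlib.Analysis.PSeries
import Fermat.Agent.CFT.PartialZeta

set_option autoImplicit false

open scoped Classical nonZeroDivisors

open NumberField IsDedekindDomain Finset Filter Topology

namespace Fermat.Agent.CFT

noncomputable section

variable {F : Type*} [Field F] [NumberField F]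

/-- A prime, as a nonzero ideal. -/
def primeIdeal (v : HeightOneSpectrum (𝓞 F)) : (Ideal (𝓞 F))⁰ :=
  ⟨v.asIdeal, mem_nonZeroDivisors_iff_ne_zero.2 v.ne_bot⟩

omit [NumberField F] in
theorem primeIdeal_injective : Function.Injective (primeIdeal (F := F)) := fun v w h =>
  HeightOneSpectrum.ext (congrArg (fun J : (Ideal (𝓞 F))⁰ => (J : Ideal (𝓞 F))) h)

/-- `NP^(-s)`. -/
def primeTerm (s : ℝ) (v : HeightOneSpectrum (𝓞 F)) : ℝ :=
  (Ideal.absNorm v.asIdeal : ℝ) ^ (-s)

theorem primeTerm_nonneg (s : ℝ) (v : HeightOneSpectrum (𝓞 F)) : 0 ≤ primeTerm s v :=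
  Real.rpow_nonneg (Nat.cast_nonneg _) _

theorem two_le_absNorm (v : HeightOneSpectrum (𝓞 F)) : 2 ≤ Ideal.absNorm v.asIdeal := by
  have h0 : Ideal.absNorm v.asIdeal ≠ 0 := mt Ideal.absNorm_eq_zero_iff.1 v.ne_bot
  have h1 : Ideal.absNorm v.asIdeal ≠ 1 := mt Ideal.absNorm_eq_one_iff.1 v.isPrime.ne_top
  omega

theorem primeTerm_le_half {s : ℝ} (hs : 1 ≤ s) (v : HeightOneSpectrum (𝓞 F)) :
    primeTerm s v ≤ 1 / 2 := by
  have h2 : (2 : ℝ) ≤ Ideal.absNorm v.asIdeal := by exact_mod_cast two_le_absNorm v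
  calc primeTerm s v ≤ (Ideal.absNorm v.asIdeal : ℝ) ^ (-1 : ℝ) :=
        Real.rpow_le_rpow_of_exponent_le (by linarith) (by linarith)
    _ = 1 / (Ideal.absNorm v.asIdeal : ℝ) := by rw [Real.rpow_neg_one, one_div]
    _ ≤ 1 / 2 := by gcongr

theorem summable_primeTerm {s : ℝ} (hs : 1 < s) :
    Summable (primeTerm (F := F) s) := by
  have h := (summable_absNorm_rpow F hs).comp_injective (primeIdeal_injective (F := F))
  exact h.congr fun v => rfl

theorem sq_primeTerm (s : ℝ) (v : HeightOneSpectrum (𝓞 F)) :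
    primeTerm s v ^ 2 = primeTerm (2 * s) v := by
  rw [primeTerm, primeTerm, ← Real.rpow_natCast, ← Real.rpow_mul (Nat.cast_nonneg _)]
  congr 1
  push_cast
  ring

theorem sum_sq_primeTerm_le {s : ℝ} (hs : 1 ≤ s) (T : Finset (HeightOneSpectrum (𝓞 F))) :
    ∑ v ∈ T, primeTerm s v ^ 2 ≤ ∑' v : HeightOneSpectrum (𝓞 F), primeTerm 2 v := by
  refine (sum_le_sum fun v _ => ?_).trans
    ((summable_primeTerm one_lt_two).sum_le_tsum T fun v _ => primeTerm_nonneg _ _)
  rw [sq_primeTerm]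
  exact Real.rpow_le_rpow_of_exponent_le
    (by exact_mod_cast le_trans (by norm_num) (two_le_absNorm v)) (by linarith)

/-- The value of a class group character at a prime, times `NP^(-s)`. -/
def primeCharTerm (χ : ClassGroup (𝓞 F) →* ℂ) (s : ℝ) (v : HeightOneSpectrum (𝓞 F)) : ℂ :=
  χ (ClassGroup.mk0 (primeIdeal v)) * (primeTerm s v : ℂ)

theorem norm_primeCharTerm (χ : ClassGroup (𝓞 F) →* ℂ) (s : ℝ) (v : HeightOneSpectrum (𝓞 F)) :
    ‖primeCharTerm χ s v‖ = primeTerm s v := by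
  rw [primeCharTerm, norm_mul, norm_char_eq_one, one_mul, Complex.norm_real, Real.norm_eq_abs,
    abs_of_nonneg (primeTerm_nonneg s v)]

theorem charTerm_mul (χ : ClassGroup (𝓞 F) →* ℂ) (s : ℝ) (I J : (Ideal (𝓞 F))⁰) :
    charTerm F χ s (I * J) = charTerm F χ s I * charTerm F χ s J := by
  simp only [charTerm, map_mul, Submonoid.coe_mul, Nat.cast_mul,
    Real.mul_rpow (Nat.cast_nonneg _) (Nat.cast_nonneg _), Complex.ofReal_mul]
  ring

theorem charTerm_one (χ : ClassGroup (𝓞 F) →* ℂ) (s : ℝ) : charTerm F χ s 1 = 1 := by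
  simp [charTerm]

theorem charTerm_pow (χ : ClassGroup (𝓞 F) →* ℂ) (s : ℝ) (I : (Ideal (𝓞 F))⁰) (k : ℕ) :
    charTerm F χ s (I ^ k) = charTerm F χ s I ^ k := by
  induction k with
  | zero => simp [charTerm_one]
  | succ k ih => rw [pow_succ, pow_succ, charTerm_mul, ih]

/-- The ideals all of whose prime factors are in `T`. -/
def supportedIn (T : Finset (HeightOneSpectrum (𝓞 F))) : Set (Ideal (𝓞 F))⁰ :=
  {J | ∀ v : HeightOneSpectrum (𝓞 F), v.asIdeal ∣ (J : Ideal (𝓞 F)) → v ∈ T}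

theorem supportedIn_empty : supportedIn (F := F) ∅ = {1} := by
  ext J
  simp only [supportedIn, Set.mem_ofPred_eq, notMem_empty, imp_false, Set.mem_singleton_iff]
  constructor
  · intro h
    refine Subtype.ext ?_
    by_contra hne
    rw [OneMemClass.coe_one, Ideal.one_eq_top] at hne
    obtain ⟨M, hM, hle⟩ := Ideal.exists_le_maximal _ hne
    have hM0 : M ≠ ⊥ := fun h0 => nonZeroDivisors.ne_zero J.2 (le_bot_iff.1 (h0 ▸ hle))
    exact h ⟨M, hM.isPrime, hM0⟩ (Ideal.dvd_iff_le.2 hle)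
  · rintro rfl v hv
    exact v.isPrime.ne_top (by simpa using Ideal.dvd_iff_le.1 hv)

/-- Splitting off one prime. -/
def insertMap (v : HeightOneSpectrum (𝓞 F)) (T : Finset (HeightOneSpectrum (𝓞 F)))
    (kJ : ℕ × supportedIn T) : supportedIn (insert v T) :=
  ⟨primeIdeal v ^ kJ.1 * kJ.2.1, fun w hw => by
    rw [Submonoid.coe_mul, SubmonoidClass.coe_pow] at hw
    rcases w.prime.dvd_or_dvd hw with h | h
    · have h' := w.prime.dvd_of_dvd_pow h
      have : v.asIdeal = w.asIdeal :=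
        (v.isPrime.isMaximal v.ne_bot).eq_of_le w.isPrime.ne_top (Ideal.dvd_iff_le.1 h')
      exact Finset.mem_insert.2 (Or.inl (HeightOneSpectrum.ext this.symm))
    · exact Finset.mem_insert_of_mem (kJ.2.2 w h)⟩

theorem insertMap_bijective {v : HeightOneSpectrum (𝓞 F)}
    {T : Finset (HeightOneSpectrum (𝓞 F))} (hv : v ∉ T) :
    Function.Bijective (insertMap v T) := by
  constructor
  · have key : ∀ k m : ℕ, ∀ J J' : supportedIn T, v.asIdeal ^ k * (J.1 : Ideal (𝓞 F)) =
        v.asIdeal ^ (k + m) * (J'.1 : Ideal (𝓞 F)) → m = 0 ∧ J = J' := by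
      intro k m J J' h
      rw [pow_add, mul_assoc] at h
      have h' := mul_left_cancel₀ (pow_ne_zero k v.ne_bot) h
      rcases Nat.eq_zero_or_pos m with rfl | hm
      · rw [pow_zero, one_mul] at h'
        exact ⟨rfl, Subtype.ext (Subtype.ext h')⟩
      · exact absurd (J.2 v (h' ▸ dvd_mul_of_dvd_left (dvd_pow_self _ hm.ne') _)) hv
    rintro ⟨k, J⟩ ⟨k', J'⟩ h
    have h' : v.asIdeal ^ k * (J.1 : Ideal (𝓞 F)) = v.asIdeal ^ k' * (J'.1 : Ideal (𝓞 F)) :=
      congrArg (fun I : supportedIn (insert v T) => ((I.1 : (Ideal (𝓞 F))⁰) : Ideal (𝓞 F))) h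
    rcases le_total k k' with hk | hk
    · obtain ⟨m, rfl⟩ := Nat.exists_eq_add_of_le hk
      obtain ⟨rfl, rfl⟩ := key k m J J' h'
      rfl
    · obtain ⟨m, rfl⟩ := Nat.exists_eq_add_of_le hk
      obtain ⟨rfl, rfl⟩ := key k' m J' J h'.symm
      rfl
  · rintro ⟨I, hI⟩
    obtain ⟨n, a, hva, hIa⟩ := WfDvdMonoid.max_power_factor (nonZeroDivisors.ne_zero I.2)
      v.prime.irreducible
    have ha0 : a ≠ 0 := fun h => nonZeroDivisors.ne_zero I.2 (by rw [hIa, h, mul_zero])
    refine ⟨⟨n, ⟨⟨a, mem_nonZeroDivisors_iff_ne_zero.2 ha0⟩, fun w hw => ?_⟩⟩,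
      Subtype.ext (Subtype.ext hIa.symm)⟩
    rcases Finset.mem_insert.1 (hI w (hIa ▸ dvd_mul_of_dvd_right hw _)) with rfl | h
    · exact absurd hw hva
    · exact h

/-- The finite Euler product. -/
theorem tsum_supportedIn (χ : ClassGroup (𝓞 F) →* ℂ) {s : ℝ} (hs : 1 < s)
    (T : Finset (HeightOneSpectrum (𝓞 F))) :
    ∑' J : supportedIn T, charTerm F χ s J.1 = ∏ v ∈ T, (1 - primeCharTerm χ s v)⁻¹ := by
  induction T using Finset.induction with
  | empty =>
    rw [prod_empty, supportedIn_empty]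
    exact (tsum_singleton 1 (charTerm F χ s)).trans (charTerm_one χ s)
  | @insert v T hv ih =>
    rw [prod_insert hv, ← ih, ← (Equiv.ofBijective _ (insertMap_bijective hv)).tsum_eq]
    have hz : ‖primeCharTerm χ s v‖ < 1 := by
      rw [norm_primeCharTerm]
      linarith [primeTerm_le_half hs.le v]
    have hterm : ∀ kJ : ℕ × supportedIn T,
        charTerm F χ s (insertMap v T kJ).1 = primeCharTerm χ s v ^ kJ.1 * charTerm F χ s kJ.2.1 := by
      intro kJ
      rw [insertMap, charTerm_mul, charTerm_pow]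
      rfl
    have hT : Summable fun J : supportedIn T => charTerm F χ s J.1 :=
      (summable_charTerm F χ hs).subtype _
    have hT' : Summable fun J : supportedIn T => ‖charTerm F χ s J.1‖ := hT.norm
    have hg : Summable fun k : ℕ => ‖primeCharTerm χ s v ^ k‖ := by
      simp_rw [norm_pow]
      exact summable_geometric_of_lt_one (norm_nonneg _) hz
    simp only [Equiv.ofBijective_apply, hterm]
    rw [← tsum_mul_tsum_of_summable_norm hg hT', tsum_geometric_of_norm_lt_one hz]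

theorem tendsto_prod_charTerm (χ : ClassGroup (𝓞 F) →* ℂ) {s : ℝ} (hs : 1 < s) :
    Tendsto (fun T : Finset (HeightOneSpectrum (𝓞 F)) => ∏ v ∈ T, (1 - primeCharTerm χ s v)⁻¹)
      atTop (𝓝 (∑' J, charTerm F χ s J)) := by
  have hsum := summable_charTerm F χ hs
  rw [Metric.tendsto_atTop]
  intro ε hε
  obtain ⟨U, hU⟩ := ((tendsto_tsum_compl_atTop_zero
    (fun J : (Ideal (𝓞 F))⁰ => ‖charTerm F χ s J‖)).eventually (gt_mem_nhds hε)).exists
  have hfin : {v : HeightOneSpectrum (𝓞 F) | ∃ J ∈ U, v.asIdeal ∣ (J : Ideal (𝓞 F))}.Finite := by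
    have h := U.finite_toSet.biUnion fun (J : (Ideal (𝓞 F))⁰) _ =>
      Ideal.finite_factors (nonZeroDivisors.ne_zero J.2)
    exact h.subset fun v ⟨J, hJ, hv⟩ => Set.mem_biUnion hJ hv
  refine ⟨hfin.toFinset, fun T hT => ?_⟩
  have hUT : ↑U ⊆ supportedIn T := fun J hJ v hv => hT (hfin.mem_toFinset.2 ⟨J, hJ, hv⟩)
  rw [← tsum_supportedIn χ hs, dist_eq_norm, ← hsum.tsum_subtype_add_tsum_subtype_compl
    (supportedIn T), sub_add_cancel_left, norm_neg]
  refine lt_of_le_of_lt (le_trans (norm_tsum_le_tsum_norm (hsum.norm.subtype _)) ?_) hU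
  exact Summable.tsum_le_tsum_of_inj (e := fun J : ↑(supportedIn T)ᶜ =>
      (⟨J.1, fun h => J.2 (hUT h)⟩ : {J // J ∉ U}))
    (fun a b h => Subtype.ext (congrArg (fun x : {J // J ∉ U} => x.1) h))
    (fun c _ => norm_nonneg _) (fun _ => le_rfl)
    (hsum.norm.subtype _) (hsum.norm.subtype _)

theorem exp_le_norm_inv_one_sub (z : ℂ) (hz : z ≠ 1) :
    Real.exp (z.re - ‖z‖ ^ 2 / 2) ≤ ‖(1 - z)⁻¹‖ := by
  have h1 : 0 < ‖1 - z‖ := norm_pos_iff.2 (sub_ne_zero.2 (Ne.symm hz))
  have hsq : ∀ w : ℂ, ‖w‖ ^ 2 = w.re ^ 2 + w.im ^ 2 := fun w => by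
    rw [← Complex.normSq_eq_norm_sq, Complex.normSq_apply]; ring
  have h2 : ‖1 - z‖ ^ 2 ≤ Real.exp (-(z.re - ‖z‖ ^ 2 / 2)) ^ 2 := by
    rw [← Real.exp_nat_mul]
    refine le_trans (le_of_eq ?_) (Real.add_one_le_exp _)
    rw [hsq, hsq, Complex.sub_re, Complex.sub_im, Complex.one_re, Complex.one_im]
    push_cast
    ring
  have h3 : ‖1 - z‖ ≤ Real.exp (-(z.re - ‖z‖ ^ 2 / 2)) :=
    (sq_le_sq₀ h1.le (Real.exp_pos _).le).1 h2
  rw [norm_inv, le_inv_comm₀ (Real.exp_pos _) h1, ← Real.exp_neg]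
  exact h3

theorem inv_one_sub_le_exp {x : ℝ} (h0 : 0 ≤ x) (h : x ≤ 1 / 2) :
    (1 - x)⁻¹ ≤ Real.exp (x + 2 * x ^ 2) := by
  refine le_trans ?_ (Real.add_one_le_exp _)
  rw [inv_le_iff_one_le_mul₀ (by linarith)]
  nlinarith [mul_nonneg (sq_nonneg x) (by linarith : (0 : ℝ) ≤ 1 - 2 * x)]

theorem summable_re_primeCharTerm (χ : ClassGroup (𝓞 F) →* ℂ) {s : ℝ} (hs : 1 < s) :
    Summable fun v : HeightOneSpectrum (𝓞 F) => (primeCharTerm χ s v).re :=
  Summable.of_norm_bounded (summable_primeTerm hs) fun v => by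
    rw [Real.norm_eq_abs, ← norm_primeCharTerm χ]
    exact Complex.abs_re_le_norm _

/-- The logarithm of the Euler product, as an inequality. -/
theorem exp_tsum_re_le (χ : ClassGroup (𝓞 F) →* ℂ) {s : ℝ} (hs : 1 < s) :
    Real.exp (∑' v, (primeCharTerm χ s v).re - (∑' v : HeightOneSpectrum (𝓞 F), primeTerm 2 v) / 2)
      ≤ ‖∑' J, charTerm F χ s J‖ := by
  set Q := ∑' v : HeightOneSpectrum (𝓞 F), primeTerm 2 v
  refine le_of_tendsto_of_tendsto
    ((Real.continuous_exp.tendsto _).comp ((summable_re_primeCharTerm χ hs).hasSum.sub_const (Q / 2)))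
    (tendsto_prod_charTerm χ hs).norm (Eventually.of_forall fun T => ?_)
  simp only [Function.comp_apply, norm_prod]
  calc Real.exp (∑ v ∈ T, (primeCharTerm χ s v).re - Q / 2)
      ≤ Real.exp (∑ v ∈ T, ((primeCharTerm χ s v).re - ‖primeCharTerm χ s v‖ ^ 2 / 2)) := by
        rw [Real.exp_le_exp, sum_sub_distrib, ← sum_div]
        gcongr
        simp_rw [norm_primeCharTerm]
        exact sum_sq_primeTerm_le hs.le T
    _ ≤ ∏ v ∈ T, ‖(1 - primeCharTerm χ s v)⁻¹‖ := by
        rw [Real.exp_sum]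
        refine prod_le_prod (fun v _ => (Real.exp_pos _).le) fun v _ =>
          exp_le_norm_inv_one_sub _ fun h => ?_
        have h1 := norm_primeCharTerm χ s v
        rw [h, norm_one] at h1
        linarith [primeTerm_le_half hs.le v]

variable (F) in
theorem norm_tsum_charTerm_one {s : ℝ} :
    ‖∑' J, charTerm F 1 s J‖ =
      ∑' J : (Ideal (𝓞 F))⁰, (Ideal.absNorm (J : Ideal (𝓞 F)) : ℝ) ^ (-s) := by
  have h : charTerm F 1 s =
      fun J : (Ideal (𝓞 F))⁰ => (((Ideal.absNorm (J : Ideal (𝓞 F)) : ℝ) ^ (-s) : ℝ) : ℂ) := by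
    funext J; simp [charTerm]
  rw [h, ← Complex.ofReal_tsum, Complex.norm_real, Real.norm_eq_abs,
    abs_of_nonneg (tsum_nonneg fun J => Real.rpow_nonneg (Nat.cast_nonneg _) _)]

/-- For a nontrivial character the sum over primes is bounded above near `1`. -/
theorem exists_tsum_re_char_le {χ : ClassGroup (𝓞 F) →* ℂ} (hχ : ∃ c, χ c ≠ 1) :
    ∃ C : ℝ, ∀ s : ℝ, 1 < s → s ≤ 2 →
      ∑' v : HeightOneSpectrum (𝓞 F), (χ (ClassGroup.mk0 (primeIdeal v))).re * primeTerm s v
        ≤ C := by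
  obtain ⟨B, hB⟩ := exists_norm_charSum_le F hχ
  refine ⟨Real.log B + (∑' v : HeightOneSpectrum (𝓞 F), primeTerm 2 v) / 2, fun s hs1 hs2 => ?_⟩
  have h := (exp_tsum_re_le χ hs1).trans (hB s hs1 hs2)
  have hB0 : 0 < B := (Real.exp_pos _).trans_le h
  rw [← Real.le_log_iff_exp_le hB0] at h
  have e : (fun v => (χ (ClassGroup.mk0 (primeIdeal v))).re * primeTerm s v) =
      fun v : HeightOneSpectrum (𝓞 F) => (primeCharTerm χ s v).re := by
    funext v; simp [primeCharTerm]
  rw [e]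
  linarith

variable (F)

/-- The sum over all primes is at most `log (1/(s-1)) + O(1)`. -/
theorem exists_tsum_prime_le : ∃ C : ℝ, ∀ s : ℝ, 1 < s → s ≤ 2 →
    ∑' v : HeightOneSpectrum (𝓞 F), primeTerm s v ≤ -Real.log (s - 1) + C := by
  obtain ⟨B, hB⟩ := exists_sub_one_mul_zeta_le F
  refine ⟨Real.log B + (∑' v : HeightOneSpectrum (𝓞 F), primeTerm 2 v) / 2, fun s hs1 hs2 => ?_⟩
  have h := exp_tsum_re_le (1 : ClassGroup (𝓞 F) →* ℂ) hs1
  rw [norm_tsum_charTerm_one] at h
  have h' := (le_div_iff₀' (by linarith : 0 < s - 1)).2 (hB s hs1 hs2)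
  have h2 := h.trans h'
  have hB0 : 0 < B := by
    have := (Real.exp_pos _).trans_le h2
    rwa [div_pos_iff_of_pos_right (by linarith)] at this
  rw [← Real.le_log_iff_exp_le (div_pos hB0 (by linarith)),
    Real.log_div hB0.ne' (by linarith)] at h2
  have e : (fun v : HeightOneSpectrum (𝓞 F) => (primeCharTerm 1 s v).re) =
      fun v => primeTerm s v := by
    funext v; simp [primeCharTerm]
  rw [e] at h2
  linarith

theorem zeta_le_exp {s : ℝ} (hs : 1 < s) :
    ∑' J : (Ideal (𝓞 F))⁰, (Ideal.absNorm (J : Ideal (𝓞 F)) : ℝ) ^ (-s) ≤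
      Real.exp (∑' v : HeightOneSpectrum (𝓞 F), primeTerm s v +
        2 * ∑' v : HeightOneSpectrum (𝓞 F), primeTerm 2 v) := by
  rw [← norm_tsum_charTerm_one F]
  refine le_of_tendsto (tendsto_prod_charTerm (1 : ClassGroup (𝓞 F) →* ℂ) hs).norm
    (Eventually.of_forall fun T => ?_)
  rw [norm_prod]
  calc ∏ v ∈ T, ‖(1 - primeCharTerm 1 s v)⁻¹‖
      ≤ ∏ v ∈ T, Real.exp (primeTerm s v + 2 * primeTerm s v ^ 2) := by
        refine prod_le_prod (fun v _ => norm_nonneg _) fun v _ => ?_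
        have hx := primeTerm_le_half hs.le v
        rw [primeCharTerm, MonoidHom.one_apply, one_mul, norm_inv, ← Complex.ofReal_one,
          ← Complex.ofReal_sub, Complex.norm_real, Real.norm_eq_abs, abs_of_nonneg (by linarith)]
        exact inv_one_sub_le_exp (primeTerm_nonneg s v) hx
    _ ≤ _ := by
        rw [← Real.exp_sum, Real.exp_le_exp, sum_add_distrib, ← mul_sum]
        exact add_le_add ((summable_primeTerm hs).sum_le_tsum T fun v _ => primeTerm_nonneg _ _)
          (mul_le_mul_of_nonneg_left (sum_sq_primeTerm_le hs.le T) zero_le_two)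

/-- The primes of degree one whose residue characteristic is outside `S`. -/
def degreeOneSet (S : Finset ℕ) : Set (HeightOneSpectrum (𝓞 F)) :=
  {v | (Ideal.absNorm v.asIdeal).Prime ∧ Ideal.absNorm v.asIdeal ∉ S}

theorem natCast_mem_of_dvd_absNorm {ℓ : ℕ} (hℓ : ℓ.Prime) {v : HeightOneSpectrum (𝓞 F)}
    (h : ℓ ∣ Ideal.absNorm v.asIdeal) : (ℓ : 𝓞 F) ∈ v.asIdeal := by
  have := v.isPrime.isMaximal v.ne_bot
  obtain ⟨q, n, -, hqP, hq, e⟩ := Ideal.exists_prime_and_absNorm_eq_pow v.asIdeal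
  rw [e] at h
  rwa [(Nat.prime_dvd_prime_iff_eq hℓ hq).1 (hℓ.dvd_of_dvd_pow h)]

/-- At most `[F : ℚ]` primes lie over a prime number. -/
theorem card_le_finrank_of_dvd {ℓ : ℕ} (hℓ : ℓ.Prime) (T : Finset (HeightOneSpectrum (𝓞 F)))
    (hT : ∀ v ∈ T, ℓ ∣ Ideal.absNorm v.asIdeal) : T.card ≤ Module.finrank ℚ F := by
  have hinj : Function.Injective (fun v : HeightOneSpectrum (𝓞 F) => v.asIdeal) := fun _ _ h =>
    HeightOneSpectrum.ext h
  have h1 : ∏ P ∈ T.map ⟨fun v => v.asIdeal, hinj⟩, P ∣ Ideal.span {(ℓ : 𝓞 F)} := by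
    refine Finset.prod_primes_dvd _ (fun P hP => ?_) (fun P hP => ?_)
    all_goals obtain ⟨v, hv, rfl⟩ := Finset.mem_map.1 hP
    · exact v.prime
    · exact Ideal.dvd_span_singleton.2 (natCast_mem_of_dvd_absNorm F hℓ (hT v hv))
  rw [prod_map] at h1
  simp only [Function.Embedding.coeFn_mk] at h1
  have h2 : ℓ ^ T.card ∣ ℓ ^ Module.finrank ℚ F := by
    have h3 := map_dvd (Ideal.absNorm (S := 𝓞 F)) h1
    rw [map_prod, Ideal.absNorm_span_singleton, Algebra.norm_natCast, Int.natAbs_pow,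
      Int.natAbs_natCast, RingOfIntegers.rank] at h3
    refine dvd_trans ?_ h3
    rw [← prod_const]
    exact prod_dvd_prod_of_dvd _ _ hT
  exact (Nat.pow_dvd_pow_iff_le_right hℓ.one_lt).1 h2

theorem exists_prime_dvd_absNorm (v : HeightOneSpectrum (𝓞 F)) :
    ∃ q : Nat.Primes, (q : ℕ) ∣ Ideal.absNorm v.asIdeal := by
  have h := two_le_absNorm v
  exact ⟨⟨_, Nat.minFac_prime (n := Ideal.absNorm v.asIdeal) (by omega)⟩, Nat.minFac_dvd _⟩

/-- The primes which are not of degree one outside `S` contribute a bounded amount. -/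
theorem exists_tsum_compl_degreeOne_le (S : Finset ℕ) : ∃ C : ℝ, ∀ s : ℝ, 1 < s →
    ∑' v : ↑(degreeOneSet F S)ᶜ, primeTerm s v.1 ≤ C := by
  set S' : Finset Nat.Primes := S.preimage (fun q : Nat.Primes => (q : ℕ))
    Nat.Primes.coe_nat_injective.injOn with hS'
  set g : Nat.Primes → ℝ := fun q =>
    ((q : ℕ) : ℝ) ^ (-2 : ℝ) + if q ∈ S' then ((q : ℕ) : ℝ) ^ (-1 : ℝ) else 0 with hg
  have hg0 : ∀ q, 0 ≤ g q := fun q => by
    refine add_nonneg (Real.rpow_nonneg (Nat.cast_nonneg _) _) ?_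
    split_ifs
    · exact Real.rpow_nonneg (Nat.cast_nonneg _) _
    · exact le_rfl
  have hgs : Summable g :=
    (Nat.Primes.summable_rpow.2 (by norm_num)).add (summable_of_ne_finset_zero (s := S')
      fun q hq => if_neg hq)
  refine ⟨Module.finrank ℚ F * ∑' q, g q, fun s hs => ?_⟩
  have hsum : Summable fun v : ↑(degreeOneSet F S)ᶜ => primeTerm s v.1 :=
    (summable_primeTerm hs).subtype _
  refine Real.tsum_le_of_sum_le (fun v => primeTerm_nonneg s v.1) fun U => ?_
  choose q hq using fun v : HeightOneSpectrum (𝓞 F) => exists_prime_dvd_absNorm F v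
  calc ∑ v ∈ U, primeTerm s v.1
      ≤ ∑ v ∈ U, g (q v.1) := by
        refine sum_le_sum fun v _ => ?_
        have hv : ¬((Ideal.absNorm v.1.asIdeal).Prime ∧ Ideal.absNorm v.1.asIdeal ∉ S) := v.2
        have hqp : (q v.1 : ℕ).Prime := (q v.1).2
        have h2 := two_le_absNorm v.1
        have hq1 : (1 : ℝ) ≤ (q v.1 : ℕ) := by exact_mod_cast hqp.one_le
        by_cases hpr : (Ideal.absNorm v.1.asIdeal).Prime
        · push Not at hv
          have e := (Nat.prime_dvd_prime_iff_eq hqp hpr).1 (hq v.1)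
          have hm : q v.1 ∈ S' := Finset.mem_preimage.2 (show ((q v.1 : ℕ)) ∈ S from e ▸ hv hpr)
          rw [hg]
          simp only [hm, if_true]
          refine le_add_of_nonneg_of_le (Real.rpow_nonneg (Nat.cast_nonneg _) _) ?_
          rw [primeTerm, ← e]
          exact Real.rpow_le_rpow_of_exponent_le hq1 (by linarith)
        · have := v.1.isPrime.isMaximal v.1.ne_bot
          obtain ⟨r, n, hn, -, hr, e⟩ := Ideal.exists_prime_and_absNorm_eq_pow v.1.asIdeal
          have hd := hq v.1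
          rw [e] at hd hpr
          have hrq : (q v.1 : ℕ) = r := (Nat.prime_dvd_prime_iff_eq hqp hr).1 (hqp.dvd_of_dvd_pow hd)
          have hn2 : 2 ≤ n := by
            rcases Nat.lt_or_ge n 2 with h | h
            · exact absurd (by rw [show n = 1 by omega, pow_one]; exact hr) hpr
            · exact h
          refine le_add_of_le_of_nonneg ?_ (by
            split_ifs
            · exact Real.rpow_nonneg (Nat.cast_nonneg _) _
            · exact le_rfl)
          rw [primeTerm, e, hrq, Nat.cast_pow, ← Real.rpow_natCast, ← Real.rpow_mul (Nat.cast_nonneg _)]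
          refine Real.rpow_le_rpow_of_exponent_le (hrq ▸ hq1) ?_
          have : (2 : ℝ) ≤ n := by exact_mod_cast hn2
          nlinarith
    _ ≤ ∑ r ∈ U.image (fun v => q v.1), (Module.finrank ℚ F : ℝ) * g r := by
        rw [← sum_fiberwise_of_maps_to (g := fun v => q v.1) (fun v hv => mem_image_of_mem (fun v : ↑(degreeOneSet F S)ᶜ => q v.1) hv)]
        refine sum_le_sum fun r _ => ?_
        rw [sum_congr rfl (fun v hv => by rw [(mem_filter.1 hv).2] :
          ∀ v ∈ U.filter (fun v => q v.1 = r), g (q v.1) = g r), sum_const, nsmul_eq_mul]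
        refine mul_le_mul_of_nonneg_right ?_ (hg0 r)
        have hc := card_le_finrank_of_dvd F r.2
          ((U.filter (fun v => q v.1 = r)).map (Function.Embedding.subtype _)) (fun v hv => by
            obtain ⟨w, hw, rfl⟩ := Finset.mem_map.1 hv
            exact (mem_filter.1 hw).2 ▸ hq w.1)
        rw [card_map] at hc
        exact_mod_cast hc
    _ ≤ Module.finrank ℚ F * ∑' r, g r := by
        rw [← mul_sum]
        exact mul_le_mul_of_nonneg_left (hgs.sum_le_tsum _ fun r _ => hg0 r) (Nat.cast_nonneg _)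

/-- The lower bound for the primes of degree one. -/
theorem exists_log_le_tsum_degreeOne (S : Finset ℕ) : ∃ C δ : ℝ, 0 < δ ∧ δ ≤ 1 ∧
    ∀ s : ℝ, 1 < s → s < 1 + δ →
      -Real.log (s - 1) - C ≤ ∑' v : degreeOneSet F S, primeTerm s v.1 := by
  obtain ⟨C₂, hC₂⟩ := exists_tsum_compl_degreeOne_le F S
  set r := dedekindZeta_residue F with hr
  have hr0 : 0 < r := dedekindZeta_residue_pos F
  have ht : Tendsto (fun s : ℝ => (s - 1) *
      ∑' J : (Ideal (𝓞 F))⁰, (Ideal.absNorm (J : Ideal (𝓞 F)) : ℝ) ^ (-s))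
      (𝓝[>] 1) (𝓝 r) := by
    have h := (Complex.continuous_re.tendsto _).comp (tendsto_sub_one_mul_dedekindZeta_nhdsGT F)
    simp only [Complex.ofReal_re] at h
    refine h.congr' ?_
    filter_upwards [self_mem_nhdsWithin] with s hs
    simp only [Function.comp_apply]
    rw [tsum_absNorm_rpow F hs]
    simp [Complex.mul_re]
  have he := ht.eventually_const_le (half_lt_self hr0)
  rw [Filter.eventually_iff, mem_nhdsGT_iff_exists_Ioo_subset] at he
  obtain ⟨u, hu, hsub⟩ := he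
  rw [Set.mem_Ioi] at hu
  refine ⟨-Real.log (r / 2) + 2 * (∑' v : HeightOneSpectrum (𝓞 F), primeTerm 2 v) + C₂,
    min (u - 1) 1, lt_min (by linarith) one_pos, min_le_right _ _, fun s hs1 hs2 => ?_⟩
  have hs : s < u := by linarith [min_le_left (u - 1) 1]
  have h := (hsub ⟨hs1, hs⟩ : r / 2 ≤ (s - 1) * _).trans
    (mul_le_mul_of_nonneg_left (zeta_le_exp F hs1) (by linarith : (0 : ℝ) ≤ s - 1))
  have h2 := Real.log_le_log (half_pos hr0) h
  rw [Real.log_mul (by linarith) (Real.exp_pos _).ne', Real.log_exp,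
    ← (summable_primeTerm hs1).tsum_subtype_add_tsum_subtype_compl (degreeOneSet F S)] at h2
  linarith [hC₂ s hs1]

end

end Fermat.Agent.CFT
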