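/-
The primes of a number field `E ⊆ ℚ̄` cut out by the places of `ℚ̄`, and their behaviour when a
Frobenius element at the place fixes `E` (primes of degree one).
-/
import Mathlib.RingTheory.Ideal.Norm.RelNorm
import Mathlib.NumberTheory.NumberField.Basic
import Mathlib.FieldTheory.PrimitiveElement
import Fermat.Agent.Galois.Frobenius
import Fermat.Agent.Mult.Inertia
import Fermat.Agent.CFT.ClassChar

set_option autoImplicit false

open scoped NumberField nonZeroDivisors Pointwise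
open IsDedekindDomain

namespace Fermat.Agent.CFT

noncomputable section

local notation "Qb" => AlgebraicClosure ℚ
local notation "GQ" => (AlgebraicClosure ℚ ≃ₐ[ℚ] AlgebraicClosure ℚ)

variable (E : IntermediateField ℚ (AlgebraicClosure ℚ))

theorem isIntegral_coe_int (x : 𝓞 E) : IsIntegral ℤ ((x : E) : Qb) :=
  (NumberField.RingOfIntegers.isIntegral_coe x).map (E.val.restrictScalars ℤ)

/-- The integers of `E` inside a valuation subring of `ℚ̄`. -/
def intToPlace (A : ValuationSubring Qb) : 𝓞 E →+* A where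
  toFun x := ⟨((x : E) : Qb), Galois.mem_valuationSubring_of_isIntegral A (isIntegral_coe_int E x)⟩
  map_one' := rfl
  map_mul' _ _ := rfl
  map_zero' := rfl
  map_add' _ _ := rfl

/-- The prime of `E` below a place of `ℚ̄`. -/
def placeIdeal (A : ValuationSubring Qb) : Ideal (𝓞 E) :=
  (IsLocalRing.maximalIdeal A).comap (intToPlace E A)

theorem mem_placeIdeal {A : ValuationSubring Qb} {x : 𝓞 E} :
    x ∈ placeIdeal E A ↔ ((x : E) : Qb) ∈ A.nonunits :=
  (ValuationSubring.coe_mem_nonunits_iff (a := intToPlace E A x)).symm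

instance placeIdeal_isPrime (A : ValuationSubring Qb) : (placeIdeal E A).IsPrime :=
  Ideal.IsPrime.comap _

theorem natCast_mem_placeIdeal {ℓ : ℕ} {A : ValuationSubring Qb} (hA : A.LiesOverPrime ℓ) :
    (ℓ : 𝓞 E) ∈ placeIdeal E A := by
  rw [mem_placeIdeal]
  simpa [ValuationSubring.LiesOverPrime] using hA

theorem placeIdeal_ne_bot {ℓ : ℕ} (hℓ : ℓ.Prime) {A : ValuationSubring Qb}
    (hA : A.LiesOverPrime ℓ) : placeIdeal E A ≠ ⊥ := fun h => by
  have := natCast_mem_placeIdeal E hA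
  rw [h, Ideal.mem_bot, Nat.cast_eq_zero] at this
  exact hℓ.ne_zero this

theorem placeIdeal_isMaximal [NumberField E] {ℓ : ℕ} (hℓ : ℓ.Prime) {A : ValuationSubring Qb}
    (hA : A.LiesOverPrime ℓ) : (placeIdeal E A).IsMaximal :=
  (placeIdeal_isPrime E A).isMaximal (placeIdeal_ne_bot E hℓ hA)

/-- The prime below a place, as a nonzero ideal. -/
def placeNZ {ℓ : ℕ} (hℓ : ℓ.Prime) {A : ValuationSubring Qb} (hA : A.LiesOverPrime ℓ) :
    (Ideal (𝓞 E))⁰ :=
  ⟨placeIdeal E A, mem_nonZeroDivisors_iff_ne_zero.2 (placeIdeal_ne_bot E hℓ hA)⟩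

/-- The prime below a place, as a point of the prime spectrum. -/
def placePrime {ℓ : ℕ} (hℓ : ℓ.Prime) {A : ValuationSubring Qb} (hA : A.LiesOverPrime ℓ) :
    HeightOneSpectrum (𝓞 E) :=
  ⟨placeIdeal E A, placeIdeal_isPrime E A, placeIdeal_ne_bot E hℓ hA⟩

theorem frobenius_sub_pow_mem {ℓ : ℕ} {A : ValuationSubring Qb} {τ : GQ}
    (hτ : A.IsFrobeniusAt τ ℓ) {x : Qb} (hx : x ∈ A) : τ x - x ^ ℓ ∈ A.nonunits := by
  have h1 := hτ.smul_residue_eq (IsLocalRing.residue A ⟨x, hx⟩)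
  rw [← IsLocalRing.ResidueField.residue_smul, ← map_pow, ← sub_eq_zero, ← map_sub,
    IsLocalRing.residue_eq_zero_iff, ← ValuationSubring.coe_mem_nonunits_iff] at h1
  exact h1

/-- If a Frobenius element at `A` fixes `E`, the prime below `A` has degree one. -/
theorem absNorm_placeIdeal [NumberField E] {ℓ : ℕ} (hℓ : ℓ.Prime) {A : ValuationSubring Qb}
    (hA : A.LiesOverPrime ℓ) {τ : GQ} (hτ : A.IsFrobeniusAt τ ℓ) (hfix : ∀ x ∈ E, τ x = x) :
    Ideal.absNorm (placeIdeal E A) = ℓ := by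
  classical
  have hmax := placeIdeal_isMaximal E hℓ hA
  set P := placeIdeal E A with hP
  obtain ⟨q, n, hn, hqP, hq, hnorm⟩ := Ideal.exists_prime_and_absNorm_eq_pow P
  have hqℓ : q = ℓ := by
    have h1 : ((q : ℕ) : Qb) ∈ A.nonunits := by
      have := (mem_placeIdeal E).1 hqP
      simpa using this
    have h2 := (Galois.intCast_mem_nonunits_iff hℓ hA (q : ℤ)).1 (by simpa using h1)
    exact ((Nat.prime_dvd_prime_iff_eq hℓ hq).1 (Int.natCast_dvd_natCast.1 h2)).symm
  subst hqℓ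
  have hfin : Finite (𝓞 E ⧸ P) := (Ideal.absNorm_ne_zero_iff _).1 (by
    rw [hnorm]; exact pow_ne_zero _ hℓ.ne_zero)
  let _ := Ideal.Quotient.field P
  have := Fintype.ofFinite (𝓞 E ⧸ P)
  have hroot : ∀ y : 𝓞 E ⧸ P,
      (Polynomial.X ^ q - Polynomial.X : Polynomial (𝓞 E ⧸ P)).IsRoot y := by
    intro y
    obtain ⟨x, rfl⟩ := Ideal.Quotient.mk_surjective y
    have h1 : x ^ q - x ∈ P := by
      rw [hP, mem_placeIdeal]
      have h2 := frobenius_sub_pow_mem hτ
        (Galois.mem_valuationSubring_of_isIntegral A (isIntegral_coe_int E x))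
      rw [hfix _ (x : E).2] at h2
      have h3 := A.nonunits.neg_mem h2
      simpa using h3
    rw [Polynomial.IsRoot, Polynomial.eval_sub, Polynomial.eval_pow, Polynomial.eval_X, ← map_pow,
      ← map_sub, Ideal.Quotient.eq_zero_iff_mem]
    exact h1
  have hne : (Polynomial.X ^ q - Polynomial.X : Polynomial (𝓞 E ⧸ P)) ≠ 0 :=
    FiniteField.X_pow_card_sub_X_ne_zero _ hℓ.one_lt
  have hdeg := FiniteField.X_pow_card_sub_X_natDegree_eq (𝓞 E ⧸ P) hℓ.one_lt
  have hcard : Fintype.card (𝓞 E ⧸ P) ≤ q := by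
    rw [← hdeg]
    exact Polynomial.card_le_degree_of_subset_roots (Z := Finset.univ) fun y _ =>
      (Polynomial.mem_roots hne).2 (hroot y)
  rw [Ideal.absNorm_apply, Submodule.cardQuot_apply, Nat.card_eq_fintype_card] at hnorm ⊢
  refine le_antisymm hcard ?_
  rw [hnorm]
  exact Nat.le_self_pow hn.ne' q

variable (F : IntermediateField ℚ (AlgebraicClosure ℚ))

/-- A Frobenius element fixing `F ⊇ E` identifies the prime below `A` in `E` with the norm of the
prime below `A` in `F`. -/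
theorem relNorm_placeIdeal [NumberField E] [NumberField F] [Algebra E F]
    (htower : ∀ x : E, ((algebraMap E F x : F) : Qb) = (x : Qb))
    {ℓ : ℕ} (hℓ : ℓ.Prime) {A : ValuationSubring Qb} (hA : A.LiesOverPrime ℓ) {τ : GQ}
    (hτ : A.IsFrobeniusAt τ ℓ) (hfix : ∀ x ∈ F, τ x = x) :
    Ideal.relNorm (𝓞 E) (placeIdeal F A) = placeIdeal E A := by
  have hfixE : ∀ x ∈ E, τ x = x := fun x hx => by
    have h := hfix _ (algebraMap E F ⟨x, hx⟩).2
    rwa [htower] at h
  have : (placeIdeal F A).LiesOver (placeIdeal E A) := ⟨by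
    ext x
    rw [Ideal.mem_comap, mem_placeIdeal, mem_placeIdeal]
    rw [show ((algebraMap (𝓞 E) (𝓞 F) x : 𝓞 F) : F) = algebraMap E F (x : E) from rfl, htower]⟩
  obtain ⟨s, hs⟩ := Ideal.exists_relNorm_eq_pow_of_isPrime (placeIdeal F A) (placeIdeal E A)
  have h := congrArg Ideal.absNorm hs
  rw [Ideal.absNorm_relNorm, absNorm_placeIdeal F hℓ hA hτ hfix, map_pow,
    absNorm_placeIdeal E hℓ hA hτ hfixE] at h
  have hs1 : s = 1 := by
    refine (Nat.pow_right_injective hℓ.two_le ?_).symm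
    simpa using h
  rw [hs, hs1, pow_one]

theorem algebraicInteger_finite_primes {d : Qb} (hd : IsIntegral ℤ d) (hd0 : d ≠ 0) :
    ∃ S : Finset ℕ, ∀ ℓ : ℕ, ℓ.Prime → ℓ ∉ S → ∀ A : ValuationSubring Qb,
      A.LiesOverPrime ℓ → d ∉ A.nonunits := by
  have hc : (minpoly ℤ d).coeff 0 ≠ 0 := by
    have h := minpoly.coeff_zero_ne_zero (hd.tower_top (A := ℚ)) hd0
    rw [minpoly.isIntegrallyClosed_eq_field_fractions' ℚ hd, Polynomial.coeff_map] at h
    exact fun h0 => h (by rw [h0, map_zero])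
  refine ⟨((minpoly ℤ d).coeff 0).natAbs.primeFactors, fun ℓ hℓ hS A hA hmem => hS ?_⟩
  have hdA : d ∈ A := Galois.mem_valuationSubring_of_isIntegral A hd
  have h0 : (((minpoly ℤ d).coeff 0 : ℤ) : Qb) ∈ A.nonunits := by
    have h := minpoly.aeval ℤ d
    rw [Polynomial.aeval_eq_sum_range, Finset.sum_range_succ', pow_zero] at h
    have e : (((minpoly ℤ d).coeff 0 : ℤ) : Qb) =
        -(d * ∑ i ∈ Finset.range (minpoly ℤ d).natDegree,
          ((minpoly ℤ d).coeff (i + 1) : Qb) * d ^ i) := by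
      rw [eq_neg_iff_add_eq_zero, Finset.mul_sum, add_comm]
      refine Eq.trans ?_ h
      congr 1
      · refine Finset.sum_congr rfl fun i _ => ?_
        rw [zsmul_eq_mul, pow_succ]; ring
      · rw [zsmul_eq_mul, mul_one]
    rw [e]
    exact A.nonunits.neg_mem
      (Mult.mul_mem_nonunits hmem (sum_mem fun i _ => mul_mem (intCast_mem A _) (pow_mem hdA i)))
  have h1 := (Galois.intCast_mem_nonunits_iff hℓ hA _).1 h0
  exact Nat.mem_primeFactors.2
    ⟨hℓ, Int.natCast_dvd.1 h1, Int.natAbs_ne_zero.2 hc⟩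

/-- Outside a finite set of residue characteristics, every prime of degree one of `E` lies below
a place whose decomposition group fixes `E`. -/
theorem exists_place_fixing [FiniteDimensional ℚ E] [NumberField E] :
    ∃ S : Finset ℕ, ∀ v : HeightOneSpectrum (𝓞 E), v ∈ degreeOneSet E S →
      ∃ A : ValuationSubring Qb, A.LiesOverPrime (Ideal.absNorm v.asIdeal) ∧
        placeIdeal E A = v.asIdeal ∧ ∀ τ ∈ A.decompositionSubgroup ℚ, ∀ x ∈ E, τ x = x := by
  classical
  obtain ⟨θ₀, hθ₀⟩ := Field.exists_primitive_element ℚ E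
  obtain ⟨m, hm, hint⟩ := ((IsFractionRing.isAlgebraic_iff ℤ ℚ E).2
    (Algebra.IsAlgebraic.isAlgebraic θ₀)).exists_integral_multiple
  set θ : 𝓞 E := ⟨m • θ₀, hint⟩ with hθ
  set R : Finset Qb := (((minpoly ℚ (((θ : E) : Qb))).aroots Qb).toFinset).erase ((θ : E) : Qb)
  have hRint : ∀ r ∈ R, IsIntegral ℤ (r - ((θ : E) : Qb)) ∧ r - ((θ : E) : Qb) ≠ 0 := by
    intro r hr
    obtain ⟨hne, hr⟩ := Finset.mem_erase.1 hr
    rw [Multiset.mem_toFinset, Polynomial.mem_aroots] at hr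
    refine ⟨IsIntegral.sub ?_ (isIntegral_coe_int E θ), sub_ne_zero.2 hne⟩
    refine ⟨minpoly ℤ ((θ : E) : Qb), minpoly.monic (isIntegral_coe_int E θ), ?_⟩
    have e := minpoly.isIntegrallyClosed_eq_field_fractions' ℚ (isIntegral_coe_int E θ)
    rw [e, Polynomial.aeval_map_algebraMap] at hr
    exact hr.2
  have hex : ∀ r : Qb, ∃ S : Finset ℕ, r ∈ R → ∀ ℓ : ℕ, ℓ.Prime → ℓ ∉ S →
      ∀ A : ValuationSubring Qb, A.LiesOverPrime ℓ → r - ((θ : E) : Qb) ∉ A.nonunits := by
    intro r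
    by_cases hr : r ∈ R
    · obtain ⟨S, hS⟩ := algebraicInteger_finite_primes (hRint r hr).1 (hRint r hr).2
      exact ⟨S, fun _ => hS⟩
    · exact ⟨∅, fun h => absurd h hr⟩
  choose T hT using hex
  refine ⟨R.biUnion T, ?_⟩
  rintro v ⟨hℓ, hS⟩
  set ℓ := Ideal.absNorm v.asIdeal with hℓdef
  let φ : 𝓞 E →+* Qb := E.val.toRingHom.comp (algebraMap (𝓞 E) E)
  have hφ : Function.Injective φ := fun a b h =>
    FaithfulSMul.algebraMap_injective (𝓞 E) E (Subtype.ext h)
  let e : 𝓞 E ≃+* φ.range := RingEquiv.ofBijective φ.rangeRestrict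
    ⟨fun a b (h : φ.rangeRestrict a = φ.rangeRestrict b) =>
      hφ (congrArg (fun u : φ.range => (u : Qb)) h), φ.rangeRestrict_surjective⟩
  let I : Ideal φ.range := Ideal.comap (e.symm : φ.range →+* 𝓞 E) v.asIdeal
  have hI : I ≠ ⊤ := fun h => v.isPrime.ne_top (Ideal.comap_eq_top_iff.mp h)
  obtain ⟨A, -, hA⟩ := Ideal.image_subset_nonunits_valuationSubring I hI
  have hPA : ∀ c ∈ v.asIdeal, φ c ∈ A.nonunits := fun c hc =>
    hA ⟨e c, by
      show e.symm (e c) ∈ v.asIdeal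
      rwa [RingEquiv.symm_apply_apply], rfl⟩
  have hAℓ : A.LiesOverPrime ℓ := by
    have := hPA _ (Ideal.absNorm_mem v.asIdeal)
    rwa [map_natCast, ← hℓdef] at this
  have heq : v.asIdeal = placeIdeal E A :=
    (v.isPrime.isMaximal v.ne_bot).eq_of_le (placeIdeal_isPrime E A).ne_top fun c hc =>
      (mem_placeIdeal E).2 (hPA c hc)
  refine ⟨A, hAℓ, heq.symm, fun τ hτ => ?_⟩
  obtain ⟨n, hn⟩ : ∃ n : ℤ, θ - (n : 𝓞 E) ∈ v.asIdeal := by
    have hc : Nat.card (𝓞 E ⧸ v.asIdeal) = ℓ := by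
      rw [hℓdef, Ideal.absNorm_apply, Submodule.cardQuot_apply]
    have := Fact.mk hℓ
    have h1 : (1 : 𝓞 E ⧸ v.asIdeal) ≠ 0 := by
      rw [Ne, ← map_one (Ideal.Quotient.mk v.asIdeal), Ideal.Quotient.eq_zero_iff_mem]
      exact fun h => v.isPrime.ne_top ((Ideal.eq_top_iff_one _).2 h)
    obtain ⟨n, hn⟩ := AddSubgroup.mem_zmultiples_iff.1
      (mem_zmultiples_of_prime_card hc h1 (g' := Ideal.Quotient.mk v.asIdeal θ))
    refine ⟨n, ?_⟩
    rw [← Ideal.Quotient.eq, ← hn]
    simp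
  have h1 : ((θ : E) : Qb) - n ∈ A.nonunits := by
    have := hPA _ hn
    simpa [φ] using this
  have hfixθ : τ ((θ : E) : Qb) = ((θ : E) : Qb) := by
    by_contra hne
    have hr : τ ((θ : E) : Qb) ∈ R := by
      refine Finset.mem_erase.2 ⟨hne, ?_⟩
      rw [Multiset.mem_toFinset, Polynomial.mem_aroots]
      have hi : IsIntegral ℚ ((θ : E) : Qb) := (isIntegral_coe_int E θ).tower_top
      refine ⟨minpoly.ne_zero hi, ?_⟩
      rw [Polynomial.aeval_algHom_apply, minpoly.aeval, map_zero]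
    refine hT _ hr ℓ hℓ (fun h => hS (Finset.mem_biUnion.2 ⟨_, hr, h⟩)) A hAℓ ?_
    have h2 := (Mult.apply_mem_nonunits_iff_of_mem_decomposition hτ _).2 h1
    rw [map_sub, map_intCast] at h2
    have h3 := A.nonunits.add_mem h2 (A.nonunits.neg_mem h1)
    simpa using h3
  intro x hx
  have hle : E ≤ IntermediateField.fixedField (Subgroup.zpowers τ) := by
    have hgen : E = IntermediateField.adjoin ℚ {((θ : E) : Qb)} := by
      have htop : IntermediateField.adjoin ℚ {(θ : E)} = ⊤ := by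
        refine le_antisymm le_top ?_
        rw [← hθ₀, IntermediateField.adjoin_simple_le_iff]
        have : θ₀ = ((m : E))⁻¹ * (θ : E) := by
          rw [hθ]
          show θ₀ = ((m : E))⁻¹ * (m • θ₀)
          rw [zsmul_eq_mul, inv_mul_cancel_left₀ (Int.cast_ne_zero.2 hm)]
        rw [this]
        exact mul_mem (inv_mem (intCast_mem _ m)) (IntermediateField.mem_adjoin_simple_self ℚ _)
      have h' := congrArg IntermediateField.lift htop
      exact ((IntermediateField.lift_adjoin_simple ℚ E (θ : E)).symm.trans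
        (h'.trans (IntermediateField.lift_top ℚ E))).symm
    rw [hgen, IntermediateField.adjoin_simple_le_iff, IntermediateField.mem_fixedField_iff]
    intro g hg
    obtain ⟨k, rfl⟩ := Subgroup.mem_zpowers_iff.1 hg
    have hs : τ ∈ MulAction.stabilizer GQ ((θ : E) : Qb) := hfixθ
    exact Subgroup.zpow_mem _ hs k
  exact (IntermediateField.mem_fixedField_iff _ _).1 (hle hx) τ (Subgroup.mem_zpowers τ)

end

end Fermat.Agent.CFT
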