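/-
Artin's crossing of an unramified character with a cyclotomic character, at one auxiliary prime.

Let `a` be an additive character mod `n` of `Gal(ℚ̄/K)` which is unramified everywhere, `q` a
prime, `ψ` a character of order `n` modulo `q`, and `F` the fixed field of
`{h | a h = ψ (χ_q h)}`.  On `F` the character `u = ψ ∘ N` is a class group character
(elementary, as the primes above `q` are totally ramified in `F/K`), and so is `v = f ∘ N_{F/K}`
for a character `f` of the class group of `K`.  If `f` vanishes where `a` does, counting primes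
with the bound for class group `L`-series shows that `u` and `v` are proportional at primes of
degree one.
-/
import Mathlib.FieldTheory.Galois.Infinite
import Mathlib.RingTheory.Norm.Transitivity
import Mathlib.RingTheory.Trace.Basic
import Mathlib.NumberTheory.LegendreSymbol.AddCharacter
import Mathlib.Analysis.Fourier.ZMod
import Fermat.Agent.CFT.ComplexNorm
import Fermat.Agent.CFT.Places
import Fermat.Agent.CFT.CrossLemmas
import Fermat.Agent.CFT.ClassMaps

set_option autoImplicit false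

open scoped NumberField nonZeroDivisors Pointwise
open IsDedekindDomain Finset

namespace Fermat.Agent.CFT

noncomputable section

local notation "Qb" => AlgebraicClosure ℚ
local notation "GQ" => (AlgebraicClosure ℚ ≃ₐ[ℚ] AlgebraicClosure ℚ)

theorem mem_of_fix_fixedField {H : Subgroup GQ} (hH : IsOpen (H : Set GQ)) {τ : GQ}
    (h : ∀ x ∈ IntermediateField.fixedField H, τ x = x) : τ ∈ H := by
  have e : (IntermediateField.fixedField H).fixingSubgroup = H :=
    InfiniteGalois.fixingSubgroup_fixedField ⟨H, H.isClosed_of_isOpen hH⟩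
  rw [← e, IntermediateField.mem_fixingSubgroup_iff]
  exact h

theorem fix_of_mem_fixedField {H : Subgroup GQ} {τ : GQ} (hτ : τ ∈ H) :
    ∀ x ∈ IntermediateField.fixedField H, τ x = x := fun x hx =>
  (IntermediateField.mem_fixedField_iff _ _).1 hx τ hτ

theorem numberField_fixedField {H : Subgroup GQ} (hH : IsOpen (H : Set GQ)) :
    NumberField (IntermediateField.fixedField H) := by
  have e : (IntermediateField.fixedField H).fixingSubgroup = H :=
    InfiniteGalois.fixingSubgroup_fixedField ⟨H, H.isClosed_of_isOpen hH⟩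
  have h : FiniteDimensional ℚ (IntermediateField.fixedField H) := by
    rw [← InfiniteGalois.isOpen_iff_finite, e]
    exact hH
  exact @NumberField.mk _ _ inferInstance h

/-- An embedding of a subfield extends to an automorphism. -/
theorem exists_extend {E : IntermediateField ℚ Qb} (ν : E →ₐ[ℚ] Qb) :
    ∃ g : GQ, ∀ x : E, g (x : Qb) = ν x := by
  refine ⟨AlgEquiv.ofBijective (ν.liftNormal Qb)
    (Algebra.IsAlgebraic.algHom_bijective _), fun x => ?_⟩
  exact ν.liftNormal_commutes Qb x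

theorem prod_sub_prod_mem {ι : Type*} (A : ValuationSubring Qb) (s : Finset ι) (x y : ι → Qb)
    (hx : ∀ i ∈ s, x i ∈ A) (hy : ∀ i ∈ s, y i ∈ A) (h : ∀ i ∈ s, x i - y i ∈ A.nonunits) :
    ∏ i ∈ s, x i - ∏ i ∈ s, y i ∈ A.nonunits := by
  classical
  induction s using Finset.induction with
  | empty => simp [A.nonunits.zero_mem]
  | @insert i s hi ih =>
    rw [prod_insert hi, prod_insert hi]
    have h1 := Mult.mul_mem_nonunits (h i (mem_insert_self i s))
      (prod_mem fun j hj => hx j (mem_insert_of_mem hj) : ∏ j ∈ s, x j ∈ A)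
    have h2 := Mult.mul_mem_nonunits (ih (fun j hj => hx j (mem_insert_of_mem hj))
      (fun j hj => hy j (mem_insert_of_mem hj)) (fun j hj => h j (mem_insert_of_mem hj)))
      (hy i (mem_insert_self i s))
    have e : x i * ∏ j ∈ s, x j - y i * ∏ j ∈ s, y j =
        (x i - y i) * ∏ j ∈ s, x j + (∏ j ∈ s, x j - ∏ j ∈ s, y j) * y i := by ring
    rw [e]
    exact A.nonunits.add_mem h1 h2

theorem pow_sub_pow_mem {A : ValuationSubring Qb} {x y : Qb} (hx : x ∈ A) (hy : y ∈ A)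
    (h : x - y ∈ A.nonunits) (n : ℕ) : x ^ n - y ^ n ∈ A.nonunits := by
  have := prod_sub_prod_mem A (Finset.range n) (fun _ => x) (fun _ => y)
    (fun _ _ => hx) (fun _ _ => hy) fun _ _ => h
  simpa using this

variable {n : ℕ} [NeZero n]

/-- The data of an everywhere unramified additive character of `Gal(ℚ̄/K)`. -/
structure UnramifiedChar (n : ℕ) (K : IntermediateField ℚ (AlgebraicClosure ℚ))
    (a : (AlgebraicClosure ℚ ≃ₐ[ℚ] AlgebraicClosure ℚ) → ZMod n) : Prop where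
  map_mul : ∀ σ τ, σ ∈ K.fixingSubgroup → τ ∈ K.fixingSubgroup → a (σ * τ) = a σ + a τ
  exists_level : ∃ L₀ : IntermediateField ℚ (AlgebraicClosure ℚ), FiniteDimensional ℚ L₀ ∧
    ∀ σ, σ ∈ K.fixingSubgroup → (∀ x ∈ L₀, σ x = x) → a σ = 0
  unramified : ∀ ℓ : ℕ, ℓ.Prime → ∀ A : ValuationSubring (AlgebraicClosure ℚ),
    A.LiesOverPrime ℓ → ∀ σ ∈ A.inertiaSubgroupIn ℚ, σ ∈ K.fixingSubgroup → a σ = 0

variable {K : IntermediateField ℚ (AlgebraicClosure ℚ)}
  {a : (AlgebraicClosure ℚ ≃ₐ[ℚ] AlgebraicClosure ℚ) → ZMod n}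

theorem UnramifiedChar.map_one (h : UnramifiedChar n K a) : a 1 = 0 := by
  have h1 := h.map_mul 1 1 (one_mem _) (one_mem _)
  rw [one_mul] at h1
  exact left_eq_add.1 h1

theorem UnramifiedChar.map_inv (h : UnramifiedChar n K a) {σ : GQ} (hσ : σ ∈ K.fixingSubgroup) :
    a σ⁻¹ = -a σ := by
  have h1 := h.map_mul σ⁻¹ σ (inv_mem hσ) hσ
  rw [inv_mul_cancel, h.map_one] at h1
  exact eq_neg_of_add_eq_zero_left h1.symm

theorem UnramifiedChar.map_pow (h : UnramifiedChar n K a) {σ : GQ} (hσ : σ ∈ K.fixingSubgroup)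
    (k : ℕ) : a (σ ^ k) = k * a σ := by
  induction k with
  | zero => rw [pow_zero, h.map_one, Nat.cast_zero, zero_mul]
  | succ k ih => rw [pow_succ, h.map_mul _ _ (pow_mem hσ k) hσ, ih]; push_cast; ring

variable {q : ℕ} [hq : Fact q.Prime] {ψ : ZMod q → ZMod n}

/-- The crossing group. -/
def crossGroup (ha : UnramifiedChar n K a) (hψ : IsModChar n q ψ) : Subgroup GQ where
  carrier := {h | h ∈ K.fixingSubgroup ∧ a h = ψ (Datum.chiMod q h)}
  one_mem' := ⟨one_mem _, by rw [ha.map_one, _root_.map_one, hψ.map_one]⟩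
  mul_mem' := fun {x y} hx hy =>
    ⟨mul_mem hx.1 hy.1, by rw [ha.map_mul _ _ hx.1 hy.1, hψ.chi_mul, hx.2, hy.2]⟩
  inv_mem' := fun {x} hx => ⟨inv_mem hx.1, by
    have h1 := hψ.chi_mul x⁻¹ x
    rw [inv_mul_cancel, _root_.map_one, hψ.map_one] at h1
    rw [ha.map_inv hx.1, hx.2]
    exact neg_eq_of_add_eq_zero_left h1.symm⟩

theorem mem_crossGroup {ha : UnramifiedChar n K a} {hψ : IsModChar n q ψ} {h : GQ} :
    h ∈ crossGroup ha hψ ↔ h ∈ K.fixingSubgroup ∧ a h = ψ (Datum.chiMod q h) := Iff.rfl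

/-- The subgroup of the crossing group on which both characters vanish. -/
def crossKer (ha : UnramifiedChar n K a) (hψ : IsModChar n q ψ) : Subgroup GQ where
  carrier := {h | h ∈ crossGroup ha hψ ∧ a h = 0}
  one_mem' := ⟨one_mem _, ha.map_one⟩
  mul_mem' := fun {x y} hx hy =>
    ⟨mul_mem hx.1 hy.1, by rw [ha.map_mul _ _ hx.1.1 hy.1.1, hx.2, hy.2, add_zero]⟩
  inv_mem' := fun {x} hx => ⟨inv_mem hx.1, by rw [ha.map_inv hx.1.1, hx.2, neg_zero]⟩

theorem mem_crossKer {ha : UnramifiedChar n K a} {hψ : IsModChar n q ψ} {h : GQ} :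
    h ∈ crossKer ha hψ ↔ h ∈ crossGroup ha hψ ∧ a h = 0 := Iff.rfl

theorem isOpen_crossKer [FiniteDimensional ℚ K] (ha : UnramifiedChar n K a)
    (hψ : IsModChar n q ψ) : IsOpen (crossKer ha hψ : Set GQ) := by
  obtain ⟨L₀, hL₀f, hL₀⟩ := ha.exists_level
  obtain ⟨Lq, hLqf, hLq⟩ := Datum.exists_level_chiMod q
  refine Subgroup.isOpen_mono (fun σ hσ => ?_)
    (K ⊔ (L₀ ⊔ Lq) : IntermediateField ℚ Qb).fixingSubgroup_isOpen
  have hfix := (IntermediateField.mem_fixingSubgroup_iff _ σ).1 hσ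
  have hK : σ ∈ K.fixingSubgroup :=
    (IntermediateField.mem_fixingSubgroup_iff _ σ).2 fun x hx =>
      hfix x ((le_sup_left : K ≤ K ⊔ (L₀ ⊔ Lq)) hx)
  have ha0 : a σ = 0 := hL₀ σ hK fun x hx =>
    hfix x ((le_trans le_sup_left le_sup_right : L₀ ≤ K ⊔ (L₀ ⊔ Lq)) hx)
  refine mem_crossKer.2 ⟨mem_crossGroup.2 ⟨hK, ?_⟩, ha0⟩
  rw [hLq σ fun x hx => hfix x ((le_trans le_sup_right le_sup_right : Lq ≤ K ⊔ (L₀ ⊔ Lq)) hx),
    hψ.map_one, ha0]

theorem isOpen_crossGroup [FiniteDimensional ℚ K] (ha : UnramifiedChar n K a)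
    (hψ : IsModChar n q ψ) : IsOpen (crossGroup ha hψ : Set GQ) :=
  Subgroup.isOpen_mono (H₁ := crossKer ha hψ) (fun _ h => (mem_crossKer.1 h).1) (isOpen_crossKer ha hψ)

theorem le_fixedField_crossGroup (ha : UnramifiedChar n K a) (hψ : IsModChar n q ψ) :
    K ≤ IntermediateField.fixedField (crossGroup ha hψ) := fun x hx => by
  rw [IntermediateField.mem_fixedField_iff]
  exact fun g hg => (IntermediateField.mem_fixingSubgroup_iff _ g).1 hg.1 x hx

theorem exists_embedding_ext {E F : IntermediateField ℚ Qb} [Algebra E F]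
    (htower : ∀ x : E, ((algebraMap E F x : F) : Qb) = (x : Qb)) (ν : F →ₐ[E] Qb) :
    ∃ g : GQ, g ∈ E.fixingSubgroup ∧ ∀ y : F, g (y : Qb) = ν y := by
  obtain ⟨g, hg⟩ := exists_extend
    (⟨ν.toRingHom, fun r => map_ratCast ν.toRingHom r⟩ : F →ₐ[ℚ] Qb)
  refine ⟨g, (IntermediateField.mem_fixingSubgroup_iff _ g).2 fun x hx => ?_, hg⟩
  have h1 := hg (algebraMap E F ⟨x, hx⟩)
  rw [htower] at h1
  exact h1.trans (ν.commutes ⟨x, hx⟩)

variable [FiniteDimensional ℚ K] [NumberField K]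

section Norm

variable (ha : UnramifiedChar n K a) (hψ : IsModChar n q ψ)
  (F : IntermediateField ℚ (AlgebraicClosure ℚ)) [NumberField F] [Algebra K F]

omit [FiniteDimensional ℚ K] [NumberField K] in
/-- Elements of `Gal(ℚ̄/K)` move the integers of `F` only within their class modulo a place over
`q`, and `[F : K] = p`. -/
theorem crossField_local (hF : ∀ g : GQ, g ∈ crossGroup ha hψ ↔ ∀ x ∈ F, g x = x)
    (htower : ∀ x : K, ((algebraMap K F x : F) : Qb) = (x : Qb))
    (hqK : ∀ A : ValuationSubring Qb, A.LiesOverPrime q →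
      A.inertiaSubgroupIn ℚ ≤ K.fixingSubgroup)
    (hinert : ∀ A : ValuationSubring Qb, A.LiesOverPrime q →
      ∃ σ ∈ A.inertiaSubgroupIn ℚ, ψ (Datum.chiMod q σ) = 1) :
    Module.finrank K F = n ∧ ∀ A : ValuationSubring Qb, A.LiesOverPrime q →
      ∀ (α : 𝓞 F) (ν : F →ₐ[K] Qb), ν (α : F) - ((α : F) : Qb) ∈ A.nonunits := by
  classical
  have hKF : IsScalarTower K F Qb := IsScalarTower.of_algebraMap_eq fun x => (htower x).symm
  have hQKF : IsScalarTower ℚ K F := IsScalarTower.of_algebraMap_eq' (Subsingleton.elim _ _)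
  have : FiniteDimensional K F := Module.Finite.of_restrictScalars_finite ℚ K F
  have key : ∀ σ : GQ, σ ∈ K.fixingSubgroup → a σ = 0 → ψ (Datum.chiMod q σ) = 1 →
      ∀ g ∈ K.fixingSubgroup, ∀ y : F,
        g (y : Qb) = (σ ^ (ψ (Datum.chiMod q g) - a g).val) (y : Qb) := by
    intro σ hσK hσa hσψ g hg y
    set i := (ψ (Datum.chiMod q g) - a g).val with hi
    have hh : (σ ^ i)⁻¹ * g ∈ crossGroup ha hψ := by
      refine mem_crossGroup.2 ⟨mul_mem (inv_mem (pow_mem hσK i)) hg, ?_⟩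
      have h1 := hψ.chi_mul (σ ^ i) ((σ ^ i)⁻¹ * g)
      rw [mul_inv_cancel_left, hψ.chi_pow, hσψ, mul_one, hi, ZMod.natCast_zmod_val] at h1
      rw [ha.map_mul _ _ (inv_mem (pow_mem hσK i)) hg, ha.map_inv (pow_mem hσK i),
        ha.map_pow hσK, hσa, mul_zero, neg_zero, zero_add]
      linear_combination h1
    have h2 := (hF _).1 hh _ y.2
    calc g (y : Qb) = (σ ^ i * ((σ ^ i)⁻¹ * g)) (y : Qb) := by rw [mul_inv_cancel_left]
      _ = (σ ^ i) (y : Qb) := by rw [AlgEquiv.mul_apply, h2]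
  obtain ⟨A0, hA0⟩ := Galois.exists_liesOverPrime hq.out
  obtain ⟨σ0, hσ0, hσ0ψ⟩ := hinert A0 hA0
  have hσ0K := hqK A0 hA0 hσ0
  have hσ0a := ha.unramified q hq.out A0 hA0 σ0 hσ0 hσ0K
  choose ext hextK hext using fun ν : F →ₐ[K] Qb => exists_embedding_ext htower ν
  refine ⟨?_, fun A hA α ν => ?_⟩
  · rw [← AlgHom.card K F Qb]
    refine (Fintype.card_congr (Equiv.ofBijective
      (fun ν => ψ (Datum.chiMod q (ext ν)) - a (ext ν)) ⟨fun ν ν' h => ?_, fun i => ?_⟩)).trans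
      (ZMod.card n)
    · refine AlgHom.ext fun y => ?_
      rw [← hext ν y, ← hext ν' y, key σ0 hσ0K hσ0a hσ0ψ _ (hextK ν) y,
        key σ0 hσ0K hσ0a hσ0ψ _ (hextK ν') y]
      simp only at h
      rw [h]
    · let ν : F →ₐ[K] Qb :=
        { toRingHom := ((σ0 ^ i.val : GQ) : Qb →+* Qb).comp (algebraMap F Qb)
          commutes' := fun x => by
            show (σ0 ^ i.val) ((algebraMap K F x : F) : Qb) = (x : Qb)
            rw [htower]
            exact (IntermediateField.mem_fixingSubgroup_iff _ _).1 (pow_mem hσ0K i.val) _ x.2 }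
      refine ⟨ν, ?_⟩
      have hh : (σ0 ^ i.val)⁻¹ * ext ν ∈ crossGroup ha hψ := (hF _).2 fun y hy => by
        have h1 := hext ν ⟨y, hy⟩
        rw [AlgEquiv.mul_apply, h1]
        exact (σ0 ^ i.val).symm_apply_apply y
      obtain ⟨-, hh2⟩ := mem_crossGroup.1 hh
      have h1 := hψ.chi_mul (σ0 ^ i.val) ((σ0 ^ i.val)⁻¹ * ext ν)
      rw [mul_inv_cancel_left, hψ.chi_pow, hσ0ψ, mul_one, ZMod.natCast_zmod_val, ← hh2,
        ha.map_mul _ _ (inv_mem (pow_mem hσ0K _)) (hextK ν), ha.map_inv (pow_mem hσ0K _),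
        ha.map_pow hσ0K, hσ0a, mul_zero, neg_zero, zero_add] at h1
      show ψ (Datum.chiMod q (ext ν)) - a (ext ν) = i
      rw [h1, add_sub_cancel_right]
  · obtain ⟨σ, hσ, hσψ⟩ := hinert A hA
    rw [← hext ν, key σ (hqK A hA hσ) (ha.unramified q hq.out A hA σ hσ (hqK A hA hσ)) hσψ _
      (hextK ν)]
    exact Mult.sub_mem_nonunits_of_mem_inertia (pow_mem hσ _)
      (Galois.mem_valuationSubring_of_isIntegral A (isIntegral_coe_int F α))

/-- The norm to `ℚ` of an integer of `F` prime to `q` is killed by `ψ`. -/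
theorem modChar_norm_eq_zero (hsign : ψ (-1) = 0 ∨ NumberField.IsTotallyComplex F)
    (hnq : (n : ZMod q) ≠ 0)
    (hF : ∀ g : GQ, g ∈ crossGroup ha hψ ↔ ∀ x ∈ F, g x = x)
    (htower : ∀ x : K, ((algebraMap K F x : F) : Qb) = (x : Qb))
    (hqK : ∀ A : ValuationSubring Qb, A.LiesOverPrime q →
      A.inertiaSubgroupIn ℚ ≤ K.fixingSubgroup)
    (hinert : ∀ A : ValuationSubring Qb, A.LiesOverPrime q →
      ∃ σ ∈ A.inertiaSubgroupIn ℚ, ψ (Datum.chiMod q σ) = 1) (α : 𝓞 F)
    (hα : ¬ q ∣ Ideal.absNorm (Ideal.span {α})) :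
    ψ (Ideal.absNorm (Ideal.span {α}) : ZMod q) = 0 := by
  classical
  obtain ⟨hrank, hloc⟩ := crossField_local ha hψ F hF htower hqK hinert
  have hKF : IsScalarTower K F Qb := IsScalarTower.of_algebraMap_eq fun x => (htower x).symm
  have hQKF : IsScalarTower ℚ K F := IsScalarTower.of_algebraMap_eq' (Subsingleton.elim _ _)
  have : FiniteDimensional K F := Module.Finite.of_restrictScalars_finite ℚ K F
  have hcard : Fintype.card (F →ₐ[K] Qb) = n := (AlgHom.card K F Qb).trans hrank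
  set β : K := Algebra.norm K (α : F) with hβ
  set γ : K := Algebra.trace K F (α : F) with hγ
  have hνint : ∀ ν : F →ₐ[K] Qb, IsIntegral ℤ (ν (α : F)) := fun ν =>
    (NumberField.RingOfIntegers.isIntegral_coe α).map (ν.restrictScalars ℤ)
  have hβint : IsIntegral ℤ ((β : K) : Qb) := by
    show IsIntegral ℤ (algebraMap K Qb β)
    rw [hβ, Algebra.norm_eq_prod_embeddings]
    exact IsIntegral.prod _ fun ν _ => hνint ν
  have hγint : IsIntegral ℤ ((γ : K) : Qb) := by
    show IsIntegral ℤ (algebraMap K Qb γ)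
    rw [hγ, trace_eq_sum_embeddings]
    exact IsIntegral.sum _ fun ν _ => hνint ν
  have hcong : ∀ A : ValuationSubring Qb, A.LiesOverPrime q →
      ((β : K) : Qb) * (n : Qb) ^ n - ((γ : K) : Qb) ^ n ∈ A.nonunits := by
    intro A hA
    have hαA : ((α : F) : Qb) ∈ A :=
      Galois.mem_valuationSubring_of_isIntegral A (isIntegral_coe_int F α)
    have hνA : ∀ ν : F →ₐ[K] Qb, ν (α : F) ∈ A := fun ν =>
      Galois.mem_valuationSubring_of_isIntegral A (hνint ν)
    have hb : ((β : K) : Qb) - ((α : F) : Qb) ^ n ∈ A.nonunits := by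
      have h := prod_sub_prod_mem A (univ : Finset (F →ₐ[K] Qb)) (fun ν => ν (α : F))
        (fun _ => ((α : F) : Qb)) (fun ν _ => hνA ν) (fun _ _ => hαA) fun ν _ => hloc A hA α ν
      rw [← Algebra.norm_eq_prod_embeddings, prod_const, card_univ, hcard] at h
      exact h
    have hc : ((γ : K) : Qb) - (n : Qb) * ((α : F) : Qb) ∈ A.nonunits := by
      have h : ∑ ν : F →ₐ[K] Qb, (ν (α : F) - ((α : F) : Qb)) ∈ A.nonunits :=
        sum_mem fun ν _ => hloc A hA α ν
      rw [sum_sub_distrib, ← trace_eq_sum_embeddings, sum_const, card_univ, hcard,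
        nsmul_eq_mul] at h
      exact h
    have h1 := Mult.mul_mem_nonunits hb (pow_mem (natCast_mem A n) n)
    have h2 := pow_sub_pow_mem (Galois.mem_valuationSubring_of_isIntegral A hγint)
      (mul_mem (natCast_mem A n) hαA) hc n
    have h3 := A.nonunits.add_mem h1 (A.nonunits.neg_mem h2)
    convert h3 using 1
    ring
  obtain ⟨A, hA⟩ := Galois.exists_liesOverPrime hq.out
  have hemb : ∀ e : K →ₐ[ℚ] Qb, e β * (n : Qb) ^ n - e γ ^ n ∈ A.nonunits := by
    intro e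
    obtain ⟨g, hg⟩ := exists_extend e
    have hA' : (g⁻¹ • A).LiesOverPrime q := by
      rw [ValuationSubring.LiesOverPrime, Galois.mem_smul_nonunits, inv_inv, AlgEquiv.smul_def,
        map_natCast]
      exact hA
    have h := hcong _ hA'
    rw [Galois.mem_smul_nonunits, inv_inv, AlgEquiv.smul_def, map_sub, map_mul, map_pow, map_pow,
      map_natCast, hg, hg] at h
    exact h
  have heint : ∀ (e : K →ₐ[ℚ] Qb) (x : K), IsIntegral ℤ (x : Qb) → e x ∈ A := fun e x hx =>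
    Galois.mem_valuationSubring_of_isIntegral A
      (((isIntegral_algHom_iff ((K.val).restrictScalars ℤ) Subtype.val_injective).1 hx).map
        (e.restrictScalars ℤ))
  have hall := prod_sub_prod_mem A (univ : Finset (K →ₐ[ℚ] Qb))
    (fun e => e β * (n : Qb) ^ n) (fun e => e γ ^ n)
    (fun e _ => mul_mem (heint e β hβint) (pow_mem (natCast_mem A n) n))
    (fun e _ => pow_mem (heint e γ hγint) n) fun e _ => hemb e
  rw [prod_mul_distrib, prod_const, prod_pow, ← Algebra.norm_eq_prod_embeddings,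
    ← Algebra.norm_eq_prod_embeddings] at hall
  obtain ⟨z, hz⟩ : ∃ z : ℤ, (z : ℚ) = Algebra.norm ℚ γ := by
    have hint : IsIntegral ℤ γ :=
      (isIntegral_algHom_iff ((K.val).restrictScalars ℤ) Subtype.val_injective).1 hγint
    obtain ⟨z, hz⟩ := IsIntegrallyClosed.algebraMap_eq_of_integral (Algebra.isIntegral_norm ℚ hint)
    exact ⟨z, by rw [← hz]; rfl⟩
  have hN : Algebra.norm ℚ β = ((Algebra.norm ℤ α : ℤ) : ℚ) := by
    rw [hβ, Algebra.norm_norm, Algebra.coe_norm_int]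
  rw [hN, ← hz, map_intCast, map_intCast] at hall
  set m := (univ : Finset (K →ₐ[ℚ] Qb)).card
  set n1 := Algebra.norm ℤ α with hn1
  have hdvd : (q : ℤ) ∣ n1 * ((n : ℤ) ^ n) ^ m - z ^ n := by
    refine (Galois.intCast_mem_nonunits_iff hq.out hA _).1 ?_
    push_cast
    exact hall
  have hmod := (ZMod.intCast_zmod_eq_zero_iff_dvd _ q).2 hdvd
  push_cast at hmod
  rw [sub_eq_zero] at hmod
  rw [Ideal.absNorm_span_singleton, ← hn1] at hα ⊢
  have hn0 : (n1 : ZMod q) ≠ 0 := fun h =>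
    hα (Int.natCast_dvd.1 ((ZMod.intCast_zmod_eq_zero_iff_dvd n1 q).1 h))
  have hz0 : (z : ZMod q) ≠ 0 := fun h => by
    rw [h, zero_pow (NeZero.ne n), mul_eq_zero] at hmod
    exact hmod.elim hn0 (pow_ne_zero _ (pow_ne_zero _ hnq))
  have h1 := congrArg ψ hmod
  rw [hψ _ _ hn0 (pow_ne_zero _ (pow_ne_zero _ hnq)), hψ.map_pow (pow_ne_zero _ hnq),
    hψ.map_pow hnq, hψ.map_pow hz0, ZMod.natCast_self, zero_mul, mul_zero, add_zero,
    zero_mul] at h1
  rcases Int.natAbs_eq n1 with h | h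
  · rw [h, Int.cast_natCast] at h1
    exact h1
  · rcases hsign with hs | hs
    · rw [h, Int.cast_neg, Int.cast_natCast, neg_eq_neg_one_mul,
        hψ _ _ (neg_ne_zero.2 one_ne_zero) ?_, hs, zero_add] at h1
      · exact h1
      · intro hc
        apply hn0
        rw [h, Int.cast_neg, Int.cast_natCast, hc, neg_zero]
    · have hpos : (0 : ℚ) ≤ ((n1 : ℤ) : ℚ) := by
        rw [hn1, Algebra.coe_norm_int]
        exact norm_nonneg_of_isTotallyComplex _
      have e : (n1.natAbs : ℤ) = n1 := Int.natAbs_of_nonneg (Int.cast_nonneg_iff.1 hpos)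
      rw [← e, Int.cast_natCast] at h1
      exact h1

end Norm

omit [FiniteDimensional ℚ K] [NumberField K] in
theorem finrank_le_of_crossKer (ha : UnramifiedChar n K a) (hψ : IsModChar n q ψ)
    (F M : IntermediateField ℚ Qb) [NumberField F] [NumberField M] [Algebra F M]
    (hF : ∀ g : GQ, g ∈ crossGroup ha hψ ↔ ∀ x ∈ F, g x = x)
    (hM : ∀ g : GQ, g ∈ crossKer ha hψ ↔ ∀ x ∈ M, g x = x)
    (htower : ∀ x : F, ((algebraMap F M x : M) : Qb) = (x : Qb)) :
    Module.finrank F M ≤ n := by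
  classical
  have hFM : IsScalarTower F M Qb := IsScalarTower.of_algebraMap_eq fun x => (htower x).symm
  have hQFM : IsScalarTower ℚ F M := IsScalarTower.of_algebraMap_eq' (Subsingleton.elim _ _)
  have : FiniteDimensional F M := Module.Finite.of_restrictScalars_finite ℚ F M
  choose g hgF hg using fun ν : M →ₐ[F] Qb => exists_embedding_ext htower ν
  have hgH : ∀ ν, g ν ∈ crossGroup ha hψ := fun ν =>
    (hF _).2 ((IntermediateField.mem_fixingSubgroup_iff _ _).1 (hgF ν))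
  rw [← AlgHom.card F M Qb]
  refine (Fintype.card_le_of_injective (fun ν => a (g ν)) fun ν ν' h => ?_).trans (ZMod.card n).le
  refine AlgHom.ext fun y => ?_
  rw [← hg ν y, ← hg ν' y]
  have hk : (g ν')⁻¹ * g ν ∈ crossKer ha hψ :=
    mem_crossKer.2 ⟨mul_mem (inv_mem (hgH ν')) (hgH ν), by
      rw [ha.map_mul _ _ (inv_mem (hgH ν').1) (hgH ν).1, ha.map_inv (hgH ν').1]
      simp only at h
      rw [h, neg_add_cancel]⟩
  have h2 := (hM _).1 hk _ y.2
  calc g ν (y : Qb) = (g ν' * ((g ν')⁻¹ * g ν)) (y : Qb) := by rw [mul_inv_cancel_left]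
    _ = g ν' (y : Qb) := by rw [AlgEquiv.mul_apply, h2]

/-- A hom to `Multiplicative (ZMod n)`, read additively. -/
def addVal {G : Type*} [Group G] (f : G →* Multiplicative (ZMod n)) (x : G) : ZMod n :=
  Multiplicative.toAdd (f x)

theorem addVal_mul {G : Type*} [Group G] (f : G →* Multiplicative (ZMod n)) (x y : G) :
    addVal f (x * y) = addVal f x + addVal f y := by simp [addVal]

/-- The norm character `ψ ∘ N` on the class group of the crossing field. -/
theorem exists_normChar {F : Type*} [Field F] [NumberField F] (hψ : IsModChar n q ψ)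
    (hker : ∀ α : 𝓞 F, ¬ q ∣ Ideal.absNorm (Ideal.span {α}) →
      ψ (Ideal.absNorm (Ideal.span {α}) : ZMod q) = 0) :
    ∃ u : ClassGroup (𝓞 F) →* Multiplicative (ZMod n), ∀ J : (Ideal (𝓞 F))⁰,
      ¬ q ∣ Ideal.absNorm (J : Ideal (𝓞 F)) →
        addVal u (ClassGroup.mk0 J) = ψ (Ideal.absNorm (J : Ideal (𝓞 F)) : ZMod q) := by
  classical
  have hqspan : Ideal.span {(q : 𝓞 F)} ≠ 0 := by
    rw [Ne, Ideal.zero_eq_bot, Ideal.span_singleton_eq_bot, Nat.cast_eq_zero]
    exact hq.out.ne_zero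
  have hex : ∀ C : ClassGroup (𝓞 F), ∃ J : (Ideal (𝓞 F))⁰, ClassGroup.mk0 J = C ∧
      ¬ q ∣ Ideal.absNorm (J : Ideal (𝓞 F)) := by
    intro C
    obtain ⟨J, hJ, hJ'⟩ := exists_mk0_eq_prime_to C (Ideal.finite_factors hqspan).toFinset
    refine ⟨J, hJ, fun hdvd => ?_⟩
    obtain ⟨P, hP, hPq, hPJ⟩ := Ideal.exists_isMaximal_dvd_of_dvd_absNorm' hq.out _ hdvd
    have hqP : (q : 𝓞 F) ∈ P := by
      have h : (q : ℤ) ∈ P.under ℤ := by rw [hPq]; exact Ideal.mem_span_singleton_self _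
      simpa using h
    have hP0 : P ≠ ⊥ := fun h => by
      rw [h, Ideal.mem_bot, Nat.cast_eq_zero] at hqP
      exact hq.out.ne_zero hqP
    exact hJ' ⟨P, hP.isPrime, hP0⟩
      ((Set.Finite.mem_toFinset _).2 (Ideal.dvd_span_singleton.2 hqP)) hPJ
  have hnz : ∀ J : (Ideal (𝓞 F))⁰, ¬ q ∣ Ideal.absNorm (J : Ideal (𝓞 F)) →
      (Ideal.absNorm (J : Ideal (𝓞 F)) : ZMod q) ≠ 0 := fun J h => by
    rwa [Ne, ZMod.natCast_eq_zero_iff]
  have hmulq : ∀ J J' : (Ideal (𝓞 F))⁰, ¬ q ∣ Ideal.absNorm (J : Ideal (𝓞 F)) →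
      ¬ q ∣ Ideal.absNorm (J' : Ideal (𝓞 F)) →
      ¬ q ∣ Ideal.absNorm ((J * J' : (Ideal (𝓞 F))⁰) : Ideal (𝓞 F)) ∧
      ψ (Ideal.absNorm ((J * J' : (Ideal (𝓞 F))⁰) : Ideal (𝓞 F)) : ZMod q) =
        ψ (Ideal.absNorm (J : Ideal (𝓞 F)) : ZMod q) +
          ψ (Ideal.absNorm (J' : Ideal (𝓞 F)) : ZMod q) := by
    intro J J' h h'
    rw [Submonoid.coe_mul, map_mul]
    refine ⟨hq.out.not_dvd_mul h h', ?_⟩
    rw [Nat.cast_mul]
    exact hψ _ _ (hnz J h) (hnz J' h')
  obtain ⟨u, hu⟩ := exists_hom_of_rel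
    (fun (C : ClassGroup (𝓞 F)) (g : Multiplicative (ZMod n)) => ∀ J : (Ideal (𝓞 F))⁰,
      ClassGroup.mk0 J = C → ¬ q ∣ Ideal.absNorm (J : Ideal (𝓞 F)) →
        Multiplicative.toAdd g = ψ (Ideal.absNorm (J : Ideal (𝓞 F)) : ZMod q))
    (fun C => by
      obtain ⟨J₀, hJ₀, hJ₀q⟩ := hex C⁻¹
      refine ⟨Multiplicative.ofAdd (-ψ (Ideal.absNorm (J₀ : Ideal (𝓞 F)) : ZMod q)),
        fun J hJ hJq => ?_⟩
      obtain ⟨hq2, hψ2⟩ := hmulq J J₀ hJq hJ₀q
      have hone : ClassGroup.mk0 (⟨((J * J₀ : (Ideal (𝓞 F))⁰) : Ideal (𝓞 F)),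
          (J * J₀).2⟩ : (Ideal (𝓞 F))⁰) = 1 := by
        rw [Subtype.coe_eta, map_mul, hJ, hJ₀, mul_inv_cancel]
      obtain ⟨α, hα⟩ := ((ClassGroup.mk0_eq_one_iff (J * J₀).2).1 hone).principal
      rw [show ((J * J₀ : (Ideal (𝓞 F))⁰) : Ideal (𝓞 F)) = Ideal.span {α} from hα] at hq2 hψ2
      rw [hker α hq2] at hψ2
      rw [toAdd_ofAdd]
      exact neg_eq_of_add_eq_zero_left hψ2.symm)
    (fun C C' g g' hg hg' J hJ hJq => by
      obtain ⟨J₁, hJ₁, hJ₁q⟩ := hex C
      obtain ⟨J₂, hJ₂, hJ₂q⟩ := hex C'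
      obtain ⟨J₀, hJ₀, hJ₀q⟩ := hex (C * C')⁻¹
      have hrel : ∀ I : (Ideal (𝓞 F))⁰, ClassGroup.mk0 I = C * C' →
          ¬ q ∣ Ideal.absNorm (I : Ideal (𝓞 F)) →
          ψ (Ideal.absNorm (I : Ideal (𝓞 F)) : ZMod q) =
            -ψ (Ideal.absNorm (J₀ : Ideal (𝓞 F)) : ZMod q) := by
        intro I hI hIq
        obtain ⟨hq2, hψ2⟩ := hmulq I J₀ hIq hJ₀q
        have hone : ClassGroup.mk0 (⟨((I * J₀ : (Ideal (𝓞 F))⁰) : Ideal (𝓞 F)),
            (I * J₀).2⟩ : (Ideal (𝓞 F))⁰) = 1 := by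
          rw [Subtype.coe_eta, map_mul, hI, hJ₀, mul_inv_cancel]
        obtain ⟨α, hα⟩ := ((ClassGroup.mk0_eq_one_iff (I * J₀).2).1 hone).principal
        rw [show ((I * J₀ : (Ideal (𝓞 F))⁰) : Ideal (𝓞 F)) = Ideal.span {α} from hα] at hq2 hψ2
        rw [hker α hq2] at hψ2
        exact eq_neg_of_add_eq_zero_left hψ2.symm
      obtain ⟨hq12, hψ12⟩ := hmulq J₁ J₂ hJ₁q hJ₂q
      rw [toAdd_mul, hg J₁ hJ₁ hJ₁q, hg' J₂ hJ₂ hJ₂q, ← hψ12,
        hrel J hJ hJq, hrel _ (by rw [map_mul, hJ₁, hJ₂]) hq12])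
    (fun C g g' hg hg' => by
      obtain ⟨J, hJ, hJq⟩ := hex C
      exact Multiplicative.toAdd.injective ((hg J hJ hJq).trans (hg' J hJ hJq).symm))
  exact ⟨u, fun J hJ => hu _ J rfl hJ⟩

theorem card_fiber_le {F M : Type*} [Field F] [NumberField F] [Field M] [NumberField M]
    [Algebra F M] (T : Finset (HeightOneSpectrum (𝓞 M))) (w : HeightOneSpectrum (𝓞 F)) {ℓ : ℕ}
    (hℓ : 1 < ℓ) (hw : Ideal.absNorm w.asIdeal = ℓ) (hT : ∀ v ∈ T, Ideal.absNorm v.asIdeal = ℓ)
    (hover : ∀ v ∈ T, v.asIdeal.under (𝓞 F) = w.asIdeal) :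
    T.card ≤ Module.finrank F M := by
  classical
  have hinj : Function.Injective (fun v : HeightOneSpectrum (𝓞 M) => v.asIdeal) := fun _ _ h =>
    HeightOneSpectrum.ext h
  have h1 : ∏ P ∈ T.map ⟨fun v => v.asIdeal, hinj⟩, P ∣
      Ideal.map (algebraMap (𝓞 F) (𝓞 M)) w.asIdeal := by
    refine Finset.prod_primes_dvd _ (fun P hP => ?_) (fun P hP => ?_)
    all_goals obtain ⟨v, hv, rfl⟩ := Finset.mem_map.1 hP
    · exact v.prime
    · exact Ideal.dvd_iff_le.2 (Ideal.map_le_iff_le_comap.2 (hover v hv).ge)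
  rw [prod_map] at h1
  simp only [Function.Embedding.coeFn_mk] at h1
  have h3 := map_dvd (Ideal.absNorm (S := 𝓞 M)) h1
  rw [map_prod, Finset.prod_congr rfl hT, prod_const, Ideal.absNorm_algebraMap, hw,
    ← IsFractionRing.finrank_eq (𝓞 F) F (𝓞 M) M] at h3
  exact (Nat.pow_dvd_pow_iff_le_right hℓ).1 h3

theorem sum_re_stdAddChar (x y : ZMod n) :
    ∑ ij : ZMod n × ZMod n, (ZMod.stdAddChar (ij.1 * x + ij.2 * y)).re =
      if x = 0 ∧ y = 0 then (n : ℝ) ^ 2 else 0 := by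
  rw [← Complex.re_sum, Fintype.sum_prod_type]
  simp_rw [AddChar.map_add_eq_mul, ← Finset.mul_sum, ← Finset.sum_mul,
    AddChar.sum_mulShift _ (ZMod.isPrimitive_stdAddChar n), ZMod.card]
  split_ifs with h1 h2 h3 <;> simp_all [sq]

/-- A class group character from two additive ones. -/
def pairChar {C : Type*} [CommGroup C] (u v : C →* Multiplicative (ZMod n)) (ij : ZMod n × ZMod n) :
    C →* ℂ where
  toFun c := ZMod.stdAddChar (ij.1 * addVal u c + ij.2 * addVal v c)
  map_one' := by simp [addVal]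
  map_mul' c d := by
    rw [← AddChar.map_add_eq_mul, addVal_mul, addVal_mul]
    congr 1
    ring

/-- Two class group characters of `F`, the first surjective, are proportional when primes killed
by both are as numerous as the primes of degree one of an extension of degree at most `n`. -/
theorem chars_dependent {F M : Type*} [Field F] [NumberField F] [Field M] [NumberField M]
    [Algebra F M] (hdeg : Module.finrank F M ≤ n) (S : Finset ℕ)
    (u v : ClassGroup (𝓞 F) →* Multiplicative (ZMod n))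
    (π : degreeOneSet M S → HeightOneSpectrum (𝓞 F))
    (hπnorm : ∀ w, Ideal.absNorm (π w).asIdeal = Ideal.absNorm w.1.asIdeal)
    (hπover : ∀ w, w.1.asIdeal.under (𝓞 F) = (π w).asIdeal)
    (hπu : ∀ w, addVal u (ClassGroup.mk0 (primeIdeal (π w))) = 0)
    (hπv : ∀ w, addVal v (ClassGroup.mk0 (primeIdeal (π w))) = 0)
    (c d : ClassGroup (𝓞 F)) (hc : IsUnit (addVal u c)) :
    addVal u c * addVal v d = addVal u d * addVal v c := by
  classical
  by_contra hne
  set T : Finset (ZMod n × ZMod n) :=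
    Finset.univ.filter fun ij => ∀ e, pairChar u v ij e = 1 with hT
  have hTann : ∀ ij ∈ T, ∀ e, ij.1 * addVal u e + ij.2 * addVal v e = 0 := fun ij hij e => by
    refine ZMod.injective_stdAddChar ?_
    rw [AddChar.map_zero_eq_one]
    exact (Finset.mem_filter.1 hij).2 e
  -- the annihilator of the pair misses a second coordinate
  have hTcard : T.card + 1 ≤ n := by
    have hinj : Set.InjOn Prod.snd (T : Set (ZMod n × ZMod n)) := by
      intro x hx y hy hxy
      have hx1 := hTann x hx c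
      have hy1 := hTann y hy c
      refine Prod.ext (hc.mul_left_inj.1 ?_) hxy
      rw [hxy] at hx1
      linear_combination hx1 - hy1
    have h1 : (1 : ZMod n) ∉ T.image Prod.snd := by
      intro h
      obtain ⟨x, hx, hx2⟩ := Finset.mem_image.1 h
      have hxc := hTann x hx c
      have hxd := hTann x hx d
      rw [hx2, one_mul] at hxc hxd
      refine hne ?_
      linear_combination addVal u c * hxd - addVal u d * hxc
    have h2 := Finset.card_le_univ (insert (1 : ZMod n) (T.image Prod.snd))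
    rwa [Finset.card_insert_of_notMem h1, Finset.card_image_of_injOn hinj, ZMod.card] at h2
  have hex : ∀ ij : ZMod n × ZMod n, ∃ C : ℝ, ∀ s : ℝ, 1 < s → s ≤ 2 →
      ∑' x : HeightOneSpectrum (𝓞 F),
        (pairChar u v ij (ClassGroup.mk0 (primeIdeal x))).re * primeTerm s x ≤
      (if ij ∈ T then -Real.log (s - 1) else 0) + C := by
    intro ij
    by_cases hij : ij ∈ T
    · obtain ⟨C, hC⟩ := exists_tsum_prime_le F
      refine ⟨C, fun s h1 h2 => ?_⟩
      rw [if_pos hij]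
      refine le_trans (le_of_eq (tsum_congr fun x => ?_)) (hC s h1 h2)
      rw [(Finset.mem_filter.1 hij).2, Complex.one_re, one_mul]
    · obtain ⟨C, hC⟩ := exists_tsum_re_char_le (χ := pairChar u v ij) (by
        by_contra hall
        push Not at hall
        exact hij (Finset.mem_filter.2 ⟨Finset.mem_univ _, hall⟩))
      exact ⟨C, fun s h1 h2 => by rw [if_neg hij, zero_add]; exact hC s h1 h2⟩
  choose C hC using hex
  obtain ⟨C', δ, hδ, hδ1, hM⟩ := exists_log_le_tsum_degreeOne M S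
  set K₀ : ℝ := ∑ ij, C ij + n * C' with hK₀
  set ε : ℝ := min (δ / 2) (Real.exp (-(K₀ + 1))) with hε
  have hε0 : 0 < ε := lt_min (by linarith) (Real.exp_pos _)
  set s : ℝ := 1 + ε with hs
  have hs1 : 1 < s := by linarith
  have hsδ : s < 1 + δ := by linarith [min_le_left (δ / 2) (Real.exp (-(K₀ + 1)))]
  have hs2 : s ≤ 2 := by linarith
  set Λ : ℝ := -Real.log (s - 1) with hΛ
  have hΛK : K₀ + 1 ≤ Λ := by
    have h := Real.log_le_log hε0 (min_le_right (δ / 2) (Real.exp (-(K₀ + 1))))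
    rw [Real.log_exp] at h
    rw [hΛ, hs, add_sub_cancel_left]
    linarith
  set Z : HeightOneSpectrum (𝓞 F) → ℝ := fun x =>
    if addVal u (ClassGroup.mk0 (primeIdeal x)) = 0 ∧
      addVal v (ClassGroup.mk0 (primeIdeal x)) = 0 then primeTerm s x else 0 with hZ
  have hZ0 : ∀ x, 0 ≤ Z x := fun x => by
    rw [hZ]; dsimp only; split_ifs
    · exact primeTerm_nonneg s x
    · exact le_rfl
  have hZs : Summable Z := Summable.of_nonneg_of_le hZ0 (fun x => by
    rw [hZ]; dsimp only; split_ifs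
    · exact le_rfl
    · exact primeTerm_nonneg s x) (summable_primeTerm hs1)
  have hsum : ∀ ij, Summable fun x : HeightOneSpectrum (𝓞 F) =>
      (pairChar u v ij (ClassGroup.mk0 (primeIdeal x))).re * primeTerm s x := fun ij =>
    (summable_re_primeCharTerm (pairChar u v ij) hs1).congr fun x => by simp [primeCharTerm]
  have hA : (n : ℝ) ^ 2 * ∑' x, Z x ≤ T.card * Λ + ∑ ij, C ij := by
    calc (n : ℝ) ^ 2 * ∑' x, Z x
        = ∑ ij, ∑' x : HeightOneSpectrum (𝓞 F),
            (pairChar u v ij (ClassGroup.mk0 (primeIdeal x))).re * primeTerm s x := by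
          rw [← Summable.tsum_finsetSum fun ij _ => hsum ij, ← tsum_mul_left]
          refine tsum_congr fun x => ?_
          rw [← Finset.sum_mul]
          simp only [pairChar, MonoidHom.coe_mk, OneHom.coe_mk, sum_re_stdAddChar, hZ]
          split_ifs <;> simp
      _ ≤ ∑ ij, ((if ij ∈ T then Λ else 0) + C ij) := sum_le_sum fun ij _ => hC ij s hs1 hs2
      _ = T.card * Λ + ∑ ij, C ij := by
          rw [sum_add_distrib, Finset.sum_ite_mem, Finset.univ_inter, sum_const, nsmul_eq_mul]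
  have hB : ∑' w : degreeOneSet M S, primeTerm s w.1 ≤ n * ∑' x, Z x := by
    refine Real.tsum_le_of_sum_le (fun w => primeTerm_nonneg s w.1) fun U => ?_
    calc ∑ w ∈ U, primeTerm s w.1 = ∑ w ∈ U, Z (π w) := by
          refine sum_congr rfl fun w _ => ?_
          rw [hZ]; dsimp only
          rw [if_pos ⟨hπu w, hπv w⟩, primeTerm, primeTerm, hπnorm]
      _ = ∑ x ∈ U.image π, (U.filter fun w => π w = x).card • Z x :=
          (sum_comp Z π)
      _ ≤ ∑ x ∈ U.image π, n • Z x := by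
          refine sum_le_sum fun x hx => ?_
          obtain ⟨w, hwU, rfl⟩ := Finset.mem_image.1 hx
          refine smul_le_smul_of_nonneg_right ?_ (hZ0 _)
          refine le_trans ?_ hdeg
          have hc := card_fiber_le (F := F) (M := M)
            ((U.filter fun w' => π w' = π w).map (Function.Embedding.subtype _)) (π w)
            (ℓ := Ideal.absNorm (π w).asIdeal) (two_le_absNorm _) rfl
            (fun v hv => by
              obtain ⟨w', hw', rfl⟩ := Finset.mem_map.1 hv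
              rw [← (mem_filter.1 hw').2]
              exact (hπnorm w').symm)
            (fun v hv => by
              obtain ⟨w', hw', rfl⟩ := Finset.mem_map.1 hv
              rw [← (mem_filter.1 hw').2]
              exact hπover w')
          rwa [card_map] at hc
      _ ≤ n * ∑' x, Z x := by
          rw [← Finset.smul_sum, nsmul_eq_mul]
          exact mul_le_mul_of_nonneg_left (hZs.sum_le_tsum _ fun x _ => hZ0 x) (Nat.cast_nonneg _)
  have hM' := (hM s hs1 hsδ).trans hB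
  rw [← hΛ] at hM'
  have hfin : (n : ℝ) * (Λ - C') ≤ T.card * Λ + ∑ ij, C ij := by
    refine le_trans ?_ hA
    calc (n : ℝ) * (Λ - C') ≤ n * (n * ∑' x, Z x) :=
          mul_le_mul_of_nonneg_left hM' (Nat.cast_nonneg _)
      _ = (n : ℝ) ^ 2 * ∑' x, Z x := by ring
  have hΛ0 : 0 ≤ Λ := by
    rw [hΛ, hs, add_sub_cancel_left, neg_nonneg]
    exact Real.log_nonpos hε0.le (by linarith)
  have hT' : ((T.card : ℝ) + 1) * Λ ≤ n * Λ :=
    mul_le_mul_of_nonneg_right (by exact_mod_cast hTcard) hΛ0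
  linarith

/-- The crossing lemma: `f` is proportional to `a` at any two Frobenius elements in the crossing
group. -/
theorem crossing (ha : UnramifiedChar n K a) (hψ : IsModChar n q ψ)
    (hsign : ψ (-1) = 0 ∨ NumberField.IsTotallyComplex K) (hnq : (n : ZMod q) ≠ 0)
    (hqK : ∀ A : ValuationSubring Qb, A.LiesOverPrime q →
      A.inertiaSubgroupIn ℚ ≤ K.fixingSubgroup)
    (hinert : ∀ A : ValuationSubring Qb, A.LiesOverPrime q →
      ∃ σ ∈ A.inertiaSubgroupIn ℚ, ψ (Datum.chiMod q σ) = 1)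
    (f : ClassGroup (𝓞 K) →* Multiplicative (ZMod n)) (Sf : Finset ℕ)
    (hf : ∀ (ℓ : ℕ) (hℓ : ℓ.Prime), ℓ ∉ Sf → ∀ (A : ValuationSubring Qb) (hA : A.LiesOverPrime ℓ)
      (τ : GQ), A.IsFrobeniusAt τ ℓ → τ ∈ K.fixingSubgroup → a τ = 0 →
        addVal f (ClassGroup.mk0 (placeNZ K hℓ hA)) = 0)
    {ℓ : ℕ} (hℓ : ℓ.Prime) (hℓq : ℓ ≠ q) {A : ValuationSubring Qb} (hA : A.LiesOverPrime ℓ)
    {τ : GQ} (hτ : A.IsFrobeniusAt τ ℓ) (hτK : τ ∈ K.fixingSubgroup)
    (hτψ : a τ = ψ (ℓ : ZMod q))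
    {ℓ' : ℕ} (hℓ' : ℓ'.Prime) (hℓ'q : ℓ' ≠ q) {A' : ValuationSubring Qb}
    (hA' : A'.LiesOverPrime ℓ') {τ' : GQ} (hτ' : A'.IsFrobeniusAt τ' ℓ')
    (hτ'K : τ' ∈ K.fixingSubgroup) (hτ'ψ : a τ' = ψ (ℓ' : ZMod q)) (hτu : IsUnit (a τ)) :
    a τ * addVal f (ClassGroup.mk0 (placeNZ K hℓ' hA')) =
      a τ' * addVal f (ClassGroup.mk0 (placeNZ K hℓ hA)) := by
  classical
  have hopenH := isOpen_crossGroup ha hψ
  have hopenN := isOpen_crossKer ha hψ
  set F := IntermediateField.fixedField (crossGroup ha hψ) with hFdef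
  set M := IntermediateField.fixedField (crossKer ha hψ) with hMdef
  have : NumberField F := numberField_fixedField hopenH
  have : NumberField M := numberField_fixedField hopenN
  have : FiniteDimensional ℚ M := NumberField.to_finiteDimensional
  let _ : Algebra K F :=
    (IntermediateField.inclusion (le_fixedField_crossGroup ha hψ)).toRingHom.toAlgebra
  have hFM : F ≤ M := fun x hx =>
    (IntermediateField.mem_fixedField_iff _ _).2 fun g hg =>
      fix_of_mem_fixedField (mem_crossKer.1 hg).1 x hx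
  let _ : Algebra F M := (IntermediateField.inclusion hFM).toRingHom.toAlgebra
  have hF : ∀ g : GQ, g ∈ crossGroup ha hψ ↔ ∀ x ∈ F, g x = x :=
    fun g => ⟨fix_of_mem_fixedField, mem_of_fix_fixedField hopenH⟩
  have hMf : ∀ g : GQ, g ∈ crossKer ha hψ ↔ ∀ x ∈ M, g x = x :=
    fun g => ⟨fix_of_mem_fixedField, mem_of_fix_fixedField hopenN⟩
  have htKF : ∀ x : K, ((algebraMap K F x : F) : Qb) = (x : Qb) := fun _ => rfl
  have htFM : ∀ x : F, ((algebraMap F M x : M) : Qb) = (x : Qb) := fun _ => rfl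
  obtain ⟨u, hu⟩ := exists_normChar (F := F) hψ
    (modChar_norm_eq_zero ha hψ F (hsign.imp_right fun h => by
      have := h
      exact NumberField.isTotallyComplex_of_algebra K F) hnq hF htKF hqK hinert)
  obtain ⟨nm, hnm⟩ := exists_normMap (K := K) (L := F)
  set v := f.comp nm with hv
  -- the values of `u` and `v` at a Frobenius element in the crossing group
  have hval : ∀ (m : ℕ) (hm : m.Prime), m ≠ q → ∀ (B : ValuationSubring Qb)
      (hB : B.LiesOverPrime m) (σ : GQ), B.IsFrobeniusAt σ m → σ ∈ crossGroup ha hψ →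
      Ideal.absNorm (placeIdeal F B) = m ∧
      addVal u (ClassGroup.mk0 (placeNZ F hm hB)) = ψ (m : ZMod q) ∧
      addVal v (ClassGroup.mk0 (placeNZ F hm hB)) =
        addVal f (ClassGroup.mk0 (placeNZ K hm hB)) := by
    intro m hm hmq B hB σ hσ hσH
    have hN := absNorm_placeIdeal F hm hB hσ ((hF σ).1 hσH)
    refine ⟨hN, ?_, ?_⟩
    · rw [hu _ (by
        rw [show ((placeNZ F hm hB : (Ideal (𝓞 F))⁰) : Ideal (𝓞 F)) = placeIdeal F B from rfl, hN]
        exact fun h => hmq ((Nat.prime_dvd_prime_iff_eq hq.out hm).1 h).symm)]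
      rw [show ((placeNZ F hm hB : (Ideal (𝓞 F))⁰) : Ideal (𝓞 F)) = placeIdeal F B from rfl, hN]
    · have e : relNormNZ K F (placeNZ F hm hB) = placeNZ K hm hB :=
        Subtype.ext (relNorm_placeIdeal K F htKF hm hB hσ ((hF σ).1 hσH))
      show addVal f (nm (ClassGroup.mk0 (placeNZ F hm hB))) = _
      rw [hnm, e]
  have hfrobq : ∀ (m : ℕ), m.Prime → m ≠ q → ∀ (B : ValuationSubring Qb), B.LiesOverPrime m →
      ∀ σ : GQ, B.IsFrobeniusAt σ m → Datum.chiMod q σ = (m : ZMod q) := fun m hm hmq B hB σ hσ =>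
    Datum.chiMod_frobenius q hB hσ ((Nat.coprime_primes hm hq.out).2 hmq)
  obtain ⟨S₀, hS₀⟩ := exists_place_fixing M
  set S := insert q (S₀ ∪ Sf) with hS
  have hπ : ∀ w : degreeOneSet M S, ∃ x : HeightOneSpectrum (𝓞 F),
      Ideal.absNorm x.asIdeal = Ideal.absNorm w.1.asIdeal ∧
      w.1.asIdeal.under (𝓞 F) = x.asIdeal ∧
      addVal u (ClassGroup.mk0 (primeIdeal x)) = 0 ∧
      addVal v (ClassGroup.mk0 (primeIdeal x)) = 0 := by
    rintro ⟨w, hwp, hwS⟩
    rw [hS, Finset.mem_insert, Finset.mem_union, not_or, not_or] at hwS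
    obtain ⟨B, hB, hBw, hfix⟩ := hS₀ w ⟨hwp, hwS.2.1⟩
    obtain ⟨σ, hσ⟩ := Galois.exists_isFrobeniusAt hwp hB
    have hσN : σ ∈ crossKer ha hψ :=
      mem_of_fix_fixedField hopenN (hfix σ hσ.mem_decompositionSubgroup)
    obtain ⟨hσH, hσa⟩ := mem_crossKer.1 hσN
    obtain ⟨hN, hu', hv'⟩ := hval _ hwp hwS.1 B hB σ hσ hσH
    refine ⟨placePrime F hwp hB, hN, ?_, ?_, ?_⟩
    · show w.asIdeal.under (𝓞 F) = placeIdeal F B
      rw [← hBw]
      ext y
      rw [Ideal.mem_comap, mem_placeIdeal, mem_placeIdeal]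
      rw [show ((algebraMap (𝓞 F) (𝓞 M) y : 𝓞 M) : M) = algebraMap F M (y : F) from rfl, htFM]
    · show addVal u (ClassGroup.mk0 (placeNZ F hwp hB)) = 0
      rw [hu', ← hfrobq _ hwp hwS.1 B hB σ hσ, ← (mem_crossGroup.1 hσH).2, hσa]
    · show addVal v (ClassGroup.mk0 (placeNZ F hwp hB)) = 0
      rw [hv']
      exact hf _ hwp hwS.2.2 B hB σ hσ hσH.1 hσa
  choose π hπn hπo hπu hπv using hπ
  have hmem : ∀ (m : ℕ), m.Prime → m ≠ q → ∀ (B : ValuationSubring Qb), B.LiesOverPrime m →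
      ∀ σ : GQ, B.IsFrobeniusAt σ m → σ ∈ K.fixingSubgroup → a σ = ψ (m : ZMod q) →
      σ ∈ crossGroup ha hψ := fun m hm hmq B hB σ hσ hσK hσψ =>
    mem_crossGroup.2 ⟨hσK, by rw [hfrobq m hm hmq B hB σ hσ, hσψ]⟩
  obtain ⟨-, hu1, hv1⟩ := hval ℓ hℓ hℓq A hA τ hτ (hmem ℓ hℓ hℓq A hA τ hτ hτK hτψ)
  obtain ⟨-, hu2, hv2⟩ := hval ℓ' hℓ' hℓ'q A' hA' τ' hτ'
    (hmem ℓ' hℓ' hℓ'q A' hA' τ' hτ' hτ'K hτ'ψ)
  have h := chars_dependent (finrank_le_of_crossKer ha hψ F M hF hMf htFM) S u v π hπn hπo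
    hπu hπv (ClassGroup.mk0 (placeNZ F hℓ hA)) (ClassGroup.mk0 (placeNZ F hℓ' hA'))
    (by rwa [hu1, ← hτψ])
  rw [hu1, hu2, hv1, hv2] at h
  rw [hτψ, hτ'ψ]
  exact h

end

end Fermat.Agent.CFT
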