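/-
Auxiliary primes for the crossing: a prime `q ≡ 1 mod n` (`n` a prime power) and a primitive
character of order `n` modulo `q` taking a prescribed value at a given prime `ℓ`.
-/
import Mathlib.RingTheory.Nilpotent.Basic
import Mathlib.Tactic.NormNum.Prime
import Fermat.Agent.CFT.CrossField
import Fermat.Agent.Density.Main
import Fermat.Agent.Mult.RootMoved

set_option autoImplicit false

open scoped NumberField

namespace Fermat.Agent.CFT

noncomputable section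

local notation "Qb" => AlgebraicClosure ℚ
local notation "GQ" => (AlgebraicClosure ℚ ≃ₐ[ℚ] AlgebraicClosure ℚ)

/-- Some `p`-th root of `ℓ` is moved by an automorphism fixing the `n`-th roots of unity. -/
def KummerMoved (p n ℓ : ℕ) [NeZero n] : Prop :=
  ∃ (h : GQ) (θ : Qb), Datum.chiMod n h = 1 ∧ θ ^ p = (ℓ : Qb) ∧ h θ ≠ θ

variable {p k n : ℕ} [hp : Fact p.Prime] [NeZero n]

theorem one_lt_of_eq_pow (hn : n = p ^ (k + 1)) : 1 < n :=
  hn ▸ Nat.one_lt_pow (Nat.succ_ne_zero k) hp.out.one_lt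

theorem coprime_of_ne (hn : n = p ^ (k + 1)) {ℓ : ℕ} (hℓ : ℓ.Prime) (hℓp : ℓ ≠ p) :
    ℓ.Coprime n :=
  hn ▸ ((Nat.coprime_primes hℓ hp.out).2 hℓp).pow_right _

theorem kummerMoved_of_ne (hn : n = p ^ (k + 1)) {ℓ : ℕ} (hℓ : ℓ.Prime) (hℓp : ℓ ≠ p) :
    KummerMoved p n ℓ := by
  obtain ⟨θ, hθ⟩ := IsAlgClosed.exists_pow_nat_eq (ℓ : Qb) hp.out.pos
  obtain ⟨A₀, hA₀⟩ := Galois.exists_liesOverPrime hℓ
  obtain ⟨g, hg, hgθ⟩ := Mult.exists_inertia_apply_ne (A := A₀) hℓ hA₀ hp.out.ne_zero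
    (t := θ) (r := (ℓ : ℚ)) (Nat.cast_ne_zero.2 hℓ.ne_zero) (by simp [hθ]) (by
      have := Fact.mk hℓ
      rw [padicValRat.self hℓ.one_lt, Int.natCast_dvd, Int.natAbs_one, Nat.dvd_one]
      exact hp.out.ne_one)
  exact ⟨g, θ, Datum.chiMod_inertia n hA₀ hg (coprime_of_ne hn hℓ hℓp), hθ, hgθ⟩

theorem kummerMoved_self [NeZero p] : KummerMoved p p p := by
  obtain ⟨θ, hθ⟩ := IsAlgClosed.exists_pow_nat_eq (p : Qb) hp.out.pos
  obtain ⟨ζ, hζ⟩ := HasEnoughRootsOfUnity.exists_primitiveRoot Qb p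
  set E := IntermediateField.adjoin ℚ {ζ} with hE
  have hcyc : IsCyclotomicExtension {p} ℚ E := hζ.intermediateField_adjoin_isCyclotomicExtension ℚ
  have hirr : Irreducible (Polynomial.X ^ p - Polynomial.C (p : ℚ)) := by
    refine X_pow_sub_C_irreducible_of_prime hp.out fun b hb => ?_
    have hb0 : b ≠ 0 := by
      rintro rfl
      rw [zero_pow hp.out.ne_zero] at hb
      exact hp.out.ne_zero (by exact_mod_cast hb.symm)
    have h := congrArg (padicValRat p) hb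
    rw [padicValRat.pow, padicValRat.self hp.out.one_lt] at h
    have h2 : p ∣ 1 := Int.natCast_dvd_natCast.1 ⟨padicValRat p b, by push_cast; exact h.symm⟩
    exact hp.out.ne_one (Nat.dvd_one.1 h2)
  have hnot : θ ∉ E := by
    intro hθE
    have hfin : FiniteDimensional ℚ E :=
      IntermediateField.adjoin.finiteDimensional (Algebra.IsIntegral.isIntegral ζ)
    have hdvd := minpoly.degree_dvd (Algebra.IsIntegral.isIntegral (R := ℚ) (⟨θ, hθE⟩ : E))
    rw [← minpoly.algebraMap_eq (B' := Qb) (RingHom.injective _) (⟨θ, hθE⟩ : E),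
      show algebraMap E Qb ⟨θ, hθE⟩ = θ from rfl,
      ← minpoly.eq_of_irreducible_of_monic hirr (by simp [hθ])
        (Polynomial.monic_X_pow_sub_C _ hp.out.ne_zero),
      Polynomial.natDegree_X_pow_sub_C,
      IsCyclotomicExtension.finrank (n := p) E (Polynomial.cyclotomic.irreducible_rat hp.out.pos),
      Nat.totient_prime hp.out] at hdvd
    have := Nat.le_of_dvd (Nat.sub_pos_of_lt hp.out.one_lt) hdvd
    have := hp.out.two_le
    omega
  obtain ⟨h, hhE, hhθ⟩ : ∃ h : GQ, h ∈ E.fixingSubgroup ∧ h θ ≠ θ := by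
    by_contra hall
    push Not at hall
    refine hnot ?_
    rw [← InfiniteGalois.fixedField_fixingSubgroup E, IntermediateField.mem_fixedField_iff]
    exact hall
  refine ⟨h, θ, ?_, hθ, hhθ⟩
  have h1 := Datum.chiMod_eq_natCast p h (a := 1) fun μ hμ => by
    obtain ⟨i, -, rfl⟩ := hζ.eq_pow_of_pow_eq_one hμ
    rw [pow_one, map_pow, (IntermediateField.mem_fixingSubgroup_iff _ h).1 hhE ζ
      (IntermediateField.mem_adjoin_simple_self ℚ ζ)]
  simpa using h1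

theorem kummerMoved_two_four : KummerMoved 2 4 2 := by
  obtain ⟨θ, hθ⟩ := IsAlgClosed.exists_pow_nat_eq (2 : Qb) two_pos
  have h5 : Nat.Prime 5 := by norm_num
  obtain ⟨A, τ, hA, hτ⟩ := Galois.exists_valuationSubring_isFrobeniusAt h5
  refine ⟨τ, θ, ?_, by exact_mod_cast hθ, fun h => ?_⟩
  · rw [Datum.chiMod_frobenius 4 hA hτ (by norm_num)]
    decide
  · have hθA : θ ∈ A := Galois.mem_valuationSubring_of_isIntegral A
      (IsIntegral.of_pow two_pos (by rw [hθ, ← map_ofNat (algebraMap ℤ Qb) 2]; exact isIntegral_algebraMap))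
    have h1 := Mult.mul_mem_nonunits (frobenius_sub_pow_mem hτ hθA) hθA
    have h6 : (τ θ - θ ^ 5) * θ = ((-6 : ℤ) : Qb) := by
      rw [h, show (θ - θ ^ 5) * θ = θ ^ 2 - (θ ^ 2) ^ 3 by ring, hθ]
      norm_num
    rw [h6, Galois.intCast_mem_nonunits_iff h5 hA] at h1
    norm_num at h1

/-- An automorphism fixing the `n`-th roots of unity acts on an `n`-th root as a translation. -/
theorem pow_apply_root (hn1 : 1 < n) {σ : GQ} (hσ : Datum.chiMod n σ = 1) {Θ : Qb} (hΘ0 : Θ ≠ 0)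
    (hw : (σ Θ * Θ⁻¹) ^ n = 1) (i : ℕ) : (σ ^ i) Θ = (σ Θ * Θ⁻¹) ^ i * Θ := by
  have := Fact.mk hn1
  induction i with
  | zero => simp
  | succ i ih =>
    have hfix : σ (σ Θ * Θ⁻¹) = σ Θ * Θ⁻¹ := by
      rw [Datum.chiMod_spec n σ hw, hσ, ZMod.val_one, pow_one]
    rw [pow_succ', AlgEquiv.mul_apply, ih, map_mul, map_pow, hfix, pow_succ, mul_assoc,
      inv_mul_cancel_right₀ hΘ0]

/-- Elements of `ZMod (p ^ (k + 1))` with the same annihilator differ by a unit. -/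
theorem exists_unit_mul_eq (hn : n = p ^ (k + 1)) {v x : ZMod n}
    (h : ∀ d : ℕ, (d : ZMod n) * v = 0 ↔ (d : ZMod n) * x = 0) :
    ∃ u : ZMod n, IsUnit u ∧ u * v = x := by
  have key : ∀ a b : ZMod n, (∀ d : ℕ, (d : ZMod n) * a = 0 → (d : ZMod n) * b = 0) →
      ∃ c : ZMod n, c * a = b := by
    intro a b hab
    set g := Nat.gcd a.val n with hg
    have hgn : g ∣ n := Nat.gcd_dvd_right _ _
    have hgpos : 0 < g := Nat.gcd_pos_of_pos_right _ (NeZero.pos n)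
    obtain ⟨d, hd⟩ := hgn
    have hda : (d : ZMod n) * a = 0 := by
      obtain ⟨r, hr⟩ := Nat.gcd_dvd_left a.val n
      rw [← ZMod.natCast_zmod_val a, ← Nat.cast_mul, ZMod.natCast_eq_zero_iff, hr, ← hg,
        show d * (g * r) = g * d * r by ring, ← hd]
      exact dvd_mul_right _ _
    have hdb := hab d hda
    rw [← ZMod.natCast_zmod_val b, ← Nat.cast_mul, ZMod.natCast_eq_zero_iff] at hdb
    have hgb : g ∣ b.val := by
      have hdpos : 0 < d := Nat.pos_of_ne_zero fun h0 => NeZero.ne n (by rw [hd, h0, mul_zero])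
      refine (Nat.mul_dvd_mul_iff_right hdpos).1 ?_
      rwa [← hd, mul_comm b.val]
    obtain ⟨r, hr⟩ := hgb
    have hbez := congrArg (fun z : ℤ => (z : ZMod n)) (Nat.gcd_eq_gcd_ab a.val n)
    simp only [Int.cast_natCast, Int.cast_add, Int.cast_mul, ZMod.natCast_self, zero_mul, add_zero,
      ZMod.natCast_zmod_val] at hbez
    refine ⟨(Nat.gcdA a.val n : ZMod n) * r, ?_⟩
    rw [← ZMod.natCast_zmod_val b, hr, Nat.cast_mul, hg, hbez]
    ring
  obtain ⟨c, hc⟩ := key v x fun d => (h d).1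
  by_cases hcu : IsUnit c
  · exact ⟨c, hcu, hc⟩
  obtain ⟨c', hc'⟩ := key x v fun d => (h d).2
  have hnil : IsNilpotent (c * c') := by
    refine Commute.isNilpotent_mul_right (Commute.all _ _) ⟨k + 1, ?_⟩
    rw [← ZMod.natCast_zmod_val c] at hcu ⊢
    rw [ZMod.isUnit_iff_coprime] at hcu
    have hpc : p ∣ c.val := by
      by_contra hnd
      have hco := (((Nat.Prime.coprime_iff_not_dvd hp.out).2 hnd).symm).pow_right (k + 1)
      exact hcu (hn.symm ▸ hco)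
    rw [← Nat.cast_pow, ZMod.natCast_eq_zero_iff]
    exact hn.symm ▸ pow_dvd_pow_of_dvd hpc (k + 1)
  have hx0 : x = 0 := by
    refine hnil.isUnit_one_sub.mul_right_eq_zero.1 ?_
    rw [sub_mul, one_mul, mul_assoc, hc', hc, sub_self]
  refine ⟨1, isUnit_one, ?_⟩
  rw [one_mul, ← hc', hx0, mul_zero]

/-- **Auxiliary primes**: a primitive character of order `n` with a prescribed value at `ℓ`. -/
theorem exists_aux_char (hn : n = p ^ (k + 1)) {ℓ : ℕ} (hℓ : ℓ.Prime) (hK : KummerMoved p n ℓ)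
    (x : ZMod n) (S : Finset ℕ) :
    ∃ q : ℕ, q.Prime ∧ q ∉ S ∧ q ≠ ℓ ∧ (n : ZMod q) ≠ 0 ∧ ∃ ψ : ZMod q → ZMod n,
      IsModChar n q ψ ∧ (∃ t : ZMod q, t ≠ 0 ∧ IsUnit (ψ t)) ∧ ψ (ℓ : ZMod q) = x := by
  classical
  have hn1 := one_lt_of_eq_pow hn
  have : Fact (1 < n) := ⟨hn1⟩
  obtain ⟨h, θ, hh, hθ, hhθ⟩ := hK
  obtain ⟨Θ, hΘ⟩ := IsAlgClosed.exists_pow_nat_eq θ (pow_pos hp.out.pos k)
  have hΘn : Θ ^ n = (ℓ : Qb) := by rw [hn, pow_succ, pow_mul, hΘ, hθ]
  have hℓ0 : (ℓ : Qb) ≠ 0 := Nat.cast_ne_zero.2 hℓ.ne_zero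
  have hΘ0 : Θ ≠ 0 := by
    rintro rfl
    rw [zero_pow (NeZero.ne n)] at hΘn
    exact hℓ0 hΘn.symm
  have hwroot : ∀ σ : GQ, (σ Θ * Θ⁻¹) ^ n = 1 := fun σ => by
    rw [mul_pow, inv_pow, ← map_pow, hΘn, map_natCast, mul_inv_cancel₀ hℓ0]
  set z := h Θ * Θ⁻¹ with hzdef
  have hz : IsPrimitiveRoot z n := by
    have h1 : ¬ z ^ p ^ k = 1 := fun h1 => by
      rw [hzdef, mul_pow, inv_pow, ← map_pow, hΘ] at h1
      exact hhθ ((mul_inv_eq_one₀ (hΘ ▸ pow_ne_zero _ hΘ0)).1 h1)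
    rw [IsPrimitiveRoot.iff_orderOf, hn]
    exact orderOf_eq_prime_pow h1 (hn ▸ hwroot h)
  set g := h ^ x.val with hgdef
  have hgχ : Datum.chiMod n g = 1 := by rw [hgdef, map_pow, hh, one_pow]
  have hgw : g Θ * Θ⁻¹ = z ^ x.val := by
    rw [hgdef, pow_apply_root hn1 hh hΘ0 (hwroot h), mul_inv_cancel_right₀ hΘ0]
  obtain ⟨Ln, hLnf, hLn⟩ := Datum.exists_level_chiMod n
  have : FiniteDimensional ℚ (IntermediateField.adjoin ℚ {Θ}) :=
    IntermediateField.adjoin.finiteDimensional (Algebra.IsIntegral.isIntegral Θ)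
  obtain ⟨q, hq, hqS, A, hA, τ, hτ, ⟨j, hj⟩, ⟨j', hj'⟩⟩ :=
    Density.exists_frobenius_pow g (Ln ⊔ IntermediateField.adjoin ℚ {Θ}) (S ∪ {ℓ, p})
  simp only [Finset.mem_union, Finset.mem_insert, Finset.mem_singleton, not_or] at hqS
  obtain ⟨hqS, hqℓ, hqp⟩ := hqS
  have := Fact.mk hq
  have hΘmem : Θ ∈ Ln ⊔ IntermediateField.adjoin ℚ {Θ} :=
    (le_sup_right : IntermediateField.adjoin ℚ {Θ} ≤ _) (IntermediateField.mem_adjoin_simple_self ℚ Θ)
  have hqn : q.Coprime n := coprime_of_ne hn hq hqp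
  have hτn : Datum.chiMod n τ = 1 := by
    have h1 : Datum.chiMod n ((g ^ j')⁻¹ * τ) = 1 := hLn _ fun y hy => by
      rw [AlgEquiv.mul_apply, hj' y ((le_sup_left : Ln ≤ _) hy)]
      exact (g ^ j').symm_apply_apply y
    conv_lhs => rw [← mul_inv_cancel_left (g ^ j') τ]
    rw [map_mul, h1, mul_one, map_pow, hgχ, one_pow]
  have hnq1 : n ∣ q - 1 := by
    have h1 := hτn
    rw [Datum.chiMod_frobenius n hA hτ hqn] at h1
    rw [← ZMod.natCast_eq_zero_iff, Nat.cast_sub hq.one_lt.le, h1, Nat.cast_one, sub_self]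
  obtain ⟨m, hm⟩ := hnq1
  have hm0 : 0 < m := Nat.pos_of_ne_zero fun h0 => by
    rw [h0, mul_zero] at hm
    have := hq.one_lt
    omega
  set w := τ Θ * Θ⁻¹ with hwdef
  have hwz : w = (z ^ x.val) ^ j' := by
    rw [hwdef, hj' Θ hΘmem, pow_apply_root hn1 hgχ hΘ0 (hwroot g), hgw, mul_inv_cancel_right₀ hΘ0]
  have hzw : z ^ x.val = w ^ j := by
    rw [← hgw, hj Θ hΘmem, pow_apply_root hn1 hτn hΘ0 (hwroot τ), mul_inv_cancel_right₀ hΘ0]
  have hΘA : Θ ∈ A := Galois.mem_valuationSubring_of_isIntegral A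
    (IsIntegral.of_pow (NeZero.pos n) (by rw [hΘn, ← map_natCast (algebraMap ℤ Qb)]; exact isIntegral_algebraMap))
  have hΘinv : Θ⁻¹ ∈ A := by
    by_contra hc
    have h1 : Θ ∈ A.nonunits := (ValuationSubring.mem_nonunits_iff_or A).2 (Or.inr hc)
    have h2 : Θ ^ n ∈ A.nonunits := by
      obtain ⟨r, hr⟩ := Nat.exists_eq_succ_of_ne_zero (NeZero.ne n)
      rw [hr, pow_succ']
      exact Mult.mul_mem_nonunits h1 (pow_mem hΘA r)
    rw [hΘn, Mult.natCast_mem_nonunits_iff hq hA] at h2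
    exact hqℓ ((Nat.prime_dvd_prime_iff_eq hq hℓ).1 h2)
  have hwA : w ∈ A := by
    rw [hwdef]
    exact mul_mem ((Mult.apply_mem_iff_of_mem_decomposition hτ.mem_decompositionSubgroup Θ).2 hΘA)
      hΘinv
  have hcong : ∀ d : ℕ, w ^ d - ((ℓ : Qb) ^ (d * m)) ∈ A.nonunits := by
    intro d
    have h1 := Mult.mul_mem_nonunits (frobenius_sub_pow_mem hτ hΘA) hΘinv
    have hqe : q = n * m + 1 := by have := hq.one_lt; omega
    rw [sub_mul, ← hwdef, hqe, pow_succ, mul_inv_cancel_right₀ hΘ0, pow_mul, hΘn] at h1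
    rw [mul_comm d, pow_mul]
    exact pow_sub_pow_mem hwA (pow_mem (natCast_mem A ℓ) m) h1 d
  have hxiff : ∀ d : ℕ, ((ℓ : ZMod q)) ^ (d * m) = 1 ↔ (d : ZMod n) * x = 0 := by
    intro d
    have h1 : ((ℓ : ZMod q)) ^ (d * m) = 1 ↔ w ^ d = 1 := by
      have hcast : ((ℓ : ZMod q)) ^ (d * m) = 1 ↔ ((ℓ : Qb) ^ (d * m) - 1) ∈ A.nonunits := by
        rw [show ((ℓ : Qb) ^ (d * m) - 1) = (((ℓ : ℤ) ^ (d * m) - 1 : ℤ) : Qb) by push_cast; rfl,
          Galois.intCast_mem_nonunits_iff hq hA, ← ZMod.intCast_zmod_eq_zero_iff_dvd]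
        push_cast
        rw [sub_eq_zero]
      rw [hcast]
      constructor
      · intro h1
        refine Datum.eq_one_of_sub_one_mem_nonunits (A := A) (n := n) hA hqn (NeZero.ne n)
          (by rw [← pow_mul, mul_comm, pow_mul, hwroot, one_pow]) ?_
        have := A.nonunits.add_mem (hcong d) h1
        rwa [sub_add_sub_cancel] at this
      · intro h1
        have := A.nonunits.neg_mem (hcong d)
        rwa [h1, neg_sub] at this
    rw [h1, hwz, show (d : ZMod n) * x = ((d * x.val : ℕ) : ZMod n) by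
        rw [Nat.cast_mul, ZMod.natCast_zmod_val], ZMod.natCast_eq_zero_iff,
      mul_comm d, ← hz.pow_eq_one_iff_dvd, pow_mul]
    constructor
    · intro h2
      rw [hzw, hwz, ← pow_mul, mul_comm j d, pow_mul, h2, one_pow]
    · intro h2
      rw [← pow_mul, mul_comm j' d, pow_mul, h2, one_pow]
  -- the primitive character
  let e := zmodCyclicMulEquiv (inferInstance : IsCyclic (ZMod q)ˣ)
  have hcard : Nat.card (ZMod q)ˣ = n * m := by
    rw [Nat.card_eq_fintype_card, ZMod.card_units, hm]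
  have : NeZero (Nat.card (ZMod q)ˣ) := ⟨Nat.card_pos.ne'⟩
  let red : ZMod (Nat.card (ZMod q)ˣ) →+* ZMod n :=
    ZMod.castHom (hcard ▸ dvd_mul_right n m) (ZMod n)
  let L : (ZMod q)ˣ → ZMod n := fun u => red (Multiplicative.toAdd (e.symm u))
  have hL : ∀ u v, L (u * v) = L u + L v := fun u v => by simp [L]
  have hLiff : ∀ (u : (ZMod q)ˣ) (d : ℕ), (d : ZMod n) * L u = 0 ↔ u ^ (d * m) = 1 := by
    intro u d
    set b := Multiplicative.toAdd (e.symm u) with hb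
    have h1 : L u = (b.val : ZMod n) := by
      show red b = _
      conv_lhs => rw [← ZMod.natCast_zmod_val b]
      rw [map_natCast]
    have h2 : u ^ (d * m) = 1 ↔ Nat.card (ZMod q)ˣ ∣ d * m * b.val := by
      rw [← map_eq_one_iff e.symm e.symm.injective, map_pow, ← toAdd_eq_zero, toAdd_pow, ← hb,
        nsmul_eq_mul, show ((d * m : ℕ) : ZMod (Nat.card (ZMod q)ˣ)) * b =
          ((d * m * b.val : ℕ) : ZMod (Nat.card (ZMod q)ˣ)) by
            rw [Nat.cast_mul (d * m), ZMod.natCast_zmod_val], ZMod.natCast_eq_zero_iff]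
    rw [h1, h2, ← Nat.cast_mul, ZMod.natCast_eq_zero_iff]
    generalize b.val = r
    rw [hcard, mul_right_comm d m, Nat.mul_dvd_mul_iff_right hm0]
  let ψ₀ : ZMod q → ZMod n := fun y => if hy : y = 0 then 0 else L (Units.mk0 y hy)
  have hψ₀ : IsModChar n q ψ₀ := fun a b ha hb => by
    simp only [ψ₀, dif_neg ha, dif_neg hb, dif_neg (mul_ne_zero ha hb)]
    rw [show Units.mk0 (a * b) (mul_ne_zero ha hb) = Units.mk0 a ha * Units.mk0 b hb from
      Units.ext rfl, hL]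
  have hℓq : (ℓ : ZMod q) ≠ 0 := by
    rw [Ne, ZMod.natCast_eq_zero_iff]
    exact fun h => hqℓ ((Nat.prime_dvd_prime_iff_eq hq hℓ).1 h)
  obtain ⟨u, hu, huv⟩ := exists_unit_mul_eq hn (v := ψ₀ (ℓ : ZMod q)) (x := x) fun d => by
    rw [← hxiff d, show ψ₀ (ℓ : ZMod q) = L (Units.mk0 _ hℓq) from dif_neg hℓq, hLiff,
      Units.ext_iff, Units.val_pow_eq_pow_val, Units.val_mk0, Units.val_one]
  refine ⟨q, hq, hqS, hqℓ, fun h0 => ?_, fun y => u * ψ₀ y, hψ₀.const_mul u,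
    ⟨((e (Multiplicative.ofAdd 1) : (ZMod q)ˣ) : ZMod q), Units.ne_zero _, ?_⟩, huv⟩
  · rw [ZMod.natCast_eq_zero_iff] at h0
    have := Nat.le_of_dvd (NeZero.pos n) h0
    have : n ≤ n * m := Nat.le_mul_of_pos_right n hm0
    have := hq.one_lt
    omega
  · have h1 : ψ₀ ((e (Multiplicative.ofAdd 1) : (ZMod q)ˣ) : ZMod q) = 1 := by
      simp only [ψ₀, dif_neg (Units.ne_zero _), Units.mk0_val]
      show red _ = 1
      rw [MulEquiv.symm_apply_apply, toAdd_ofAdd, map_one]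
    simpa [h1] using hu

end

end Fermat.Agent.CFT
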