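/-
Outside a finite set of primes, inertia fixes a given number field inside `ℚ̄`.
-/
import Fermat.Agent.CFT.Places

set_option autoImplicit false

namespace Fermat.Agent.CFT

noncomputable section

local notation "Qb" => AlgebraicClosure ℚ
local notation "GQ" => (AlgebraicClosure ℚ ≃ₐ[ℚ] AlgebraicClosure ℚ)

theorem exists_inertia_fix_integral {x : Qb} (hx : IsIntegral ℤ x) :
    ∃ S : Finset ℕ, ∀ q : ℕ, q.Prime → q ∉ S → ∀ A : ValuationSubring Qb, A.LiesOverPrime q →
      ∀ σ ∈ A.inertiaSubgroupIn ℚ, σ x = x := by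
  classical
  have hex : ∀ r : Qb, ∃ S : Finset ℕ, IsIntegral ℤ r → r ≠ x → ∀ q : ℕ, q.Prime → q ∉ S →
      ∀ A : ValuationSubring Qb, A.LiesOverPrime q → r - x ∉ A.nonunits := by
    intro r
    by_cases hr : IsIntegral ℤ r ∧ r ≠ x
    · obtain ⟨S, hS⟩ := algebraicInteger_finite_primes (hr.1.sub hx) (sub_ne_zero.2 hr.2)
      exact ⟨S, fun _ _ => hS⟩
    · exact ⟨∅, fun h1 h2 => absurd ⟨h1, h2⟩ hr⟩
  choose T hT using hex
  refine ⟨((minpoly ℚ x).aroots Qb).toFinset.biUnion T, fun q hq hS A hA σ hσ => ?_⟩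
  by_contra hne
  have hi : IsIntegral ℤ (σ x) := hx.map (σ.toAlgHom.restrictScalars ℤ)
  have hr : σ x ∈ ((minpoly ℚ x).aroots Qb).toFinset := by
    rw [Multiset.mem_toFinset, Polynomial.mem_aroots]
    refine ⟨minpoly.ne_zero hx.tower_top, ?_⟩
    rw [Polynomial.aeval_algHom_apply, minpoly.aeval, map_zero]
  exact hT _ hi hne q hq (fun h => hS (Finset.mem_biUnion.2 ⟨_, hr, h⟩)) A hA
    (Mult.sub_mem_nonunits_of_mem_inertia hσ (Galois.mem_valuationSubring_of_isIntegral A hx))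

/-- Outside a finite set of primes, inertia fixes a given number field inside `ℚ̄`. -/
theorem exists_inertia_le_fixingSubgroup (K : IntermediateField ℚ Qb) [FiniteDimensional ℚ K] :
    ∃ S : Finset ℕ, ∀ q : ℕ, q.Prime → q ∉ S → ∀ A : ValuationSubring Qb, A.LiesOverPrime q →
      A.inertiaSubgroupIn ℚ ≤ K.fixingSubgroup := by
  classical
  let b := Module.finBasis ℚ K
  have hex : ∀ i, ∃ S : Finset ℕ, ∀ q : ℕ, q.Prime → q ∉ S → ∀ A : ValuationSubring Qb,
      A.LiesOverPrime q → ∀ σ ∈ A.inertiaSubgroupIn ℚ, σ (b i : Qb) = b i := by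
    intro i
    obtain ⟨m, hm, hint⟩ := ((IsFractionRing.isAlgebraic_iff ℤ ℚ Qb).2
      (Algebra.IsAlgebraic.isAlgebraic (b i : Qb))).exists_integral_multiple
    obtain ⟨S, hS⟩ := exists_inertia_fix_integral hint
    refine ⟨S, fun q hq hqS A hA σ hσ => ?_⟩
    have h := hS q hq hqS A hA σ hσ
    rw [map_zsmul, zsmul_eq_mul, zsmul_eq_mul] at h
    exact mul_left_cancel₀ (Int.cast_ne_zero.2 hm) h
  choose S hS using hex
  refine ⟨Finset.univ.biUnion S, fun q hq hqS A hA σ hσ => ?_⟩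
  refine (IntermediateField.mem_fixingSubgroup_iff _ σ).2 fun x hx => ?_
  have h : σ.toAlgHom.comp K.val = K.val := by
    refine AlgHom.toLinearMap_injective (b.ext fun i => ?_)
    exact hS i q hq (fun h => hqS (Finset.mem_biUnion.2 ⟨i, Finset.mem_univ _, h⟩)) A hA σ hσ
  exact DFunLike.congr_fun h ⟨x, hx⟩

end

end Fermat.Agent.CFT
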