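/-
The Herbrand quotient of a finitely generated abelian group with an automorphism of order
dividing a prime `p`: it depends only on the rank and on the rank of the fixed points.
-/
import Mathlib.GroupTheory.Index
import Mathlib.GroupTheory.FiniteAbelian.Basic
import Mathlib.LinearAlgebra.Dimension.Torsion.Basic
import Mathlib.LinearAlgebra.Dimension.RankNullity
import Mathlib.LinearAlgebra.Dimension.Localization
import Mathlib.LinearAlgebra.FreeModule.PID
import Mathlib.RingTheory.RootsOfUnity.CyclotomicUnits
import Mathlib.RingTheory.RootsOfUnity.Lemmas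
import Mathlib.RingTheory.Polynomial.Cyclotomic.Roots
import Mathlib.RingTheory.AdjoinRoot
import Mathlib.Data.ZMod.QuotientGroup

set_option autoImplicit false

namespace Fermat.Agent.CFT

open Polynomial

section Index

variable {M : Type*} [AddCommGroup M]

/-- Multiplicativity of `|coker| / |ker|`. -/
theorem index_range_comp (f g : M →+ M) :
    (f.comp g).range.index * Nat.card f.ker * Nat.card g.ker =
      f.range.index * g.range.index * Nat.card (f.comp g).ker := by
  have h1 : (f.comp g).range.index = (g.range ⊔ f.ker).index * f.range.index := by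
    rw [AddMonoidHom.range_comp, AddSubgroup.index_map]
  have h2 : g.range.index = g.range.relIndex f.ker * (g.range ⊔ f.ker).index := by
    rw [← AddSubgroup.relIndex_sup_left f.ker g.range,
      AddSubgroup.relIndex_mul_index le_sup_left]
  have h3 : Nat.card f.ker = Nat.card (g.range ⊓ f.ker : AddSubgroup M) *
      g.range.relIndex f.ker := by
    rw [← AddSubgroup.relIndex_bot_left, ← AddSubgroup.relIndex_bot_left,
      ← AddSubgroup.inf_relIndex_right g.range,
      AddSubgroup.relIndex_mul_relIndex _ _ _ bot_le inf_le_right]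
  have h4 : Nat.card (f.comp g).ker = Nat.card g.ker *
      Nat.card (g.range ⊓ f.ker : AddSubgroup M) := by
    let g' : (f.comp g).ker →+ M := g.comp (f.comp g).ker.subtype
    have hr : g'.range = g.range ⊓ f.ker := by
      ext y
      constructor
      · rintro ⟨x, rfl⟩
        exact ⟨⟨x.1, rfl⟩, x.2⟩
      · rintro ⟨⟨x, rfl⟩, hy⟩
        exact ⟨⟨x, hy⟩, rfl⟩
    have hk : Nat.card g'.ker = Nat.card g.ker :=
      Nat.card_congr
        { toFun := fun x => ⟨x.1.1, x.2⟩
          invFun := fun x => ⟨⟨x.1, by
            simp [AddMonoidHom.mem_ker, (AddMonoidHom.mem_ker.1 x.2)]⟩, x.2⟩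
          left_inv := fun x => rfl
          right_inv := fun x => rfl }
    rw [← hk, ← hr, ← AddSubgroup.index_ker, AddSubgroup.card_mul_index]
  rw [h1, h2, h3, h4]
  ring

/-- The relative index of the image of a stable subgroup is the index of the range of the
restriction. -/
theorem relIndex_map_eq (F : M →+ M) (A : AddSubgroup M) (h : ∀ a ∈ A, F a ∈ A) :
    (A.map F).relIndex A =
      ((F.comp A.subtype).codRestrict A (fun a => h a a.2)).range.index := by
  unfold AddSubgroup.relIndex
  congr 1
  ext x
  simp [AddSubgroup.mem_addSubgroupOf, Subtype.ext_iff]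

theorem index_range_nsmul_of_free [Module.Free ℤ M] [Module.Finite ℤ M] (n : ℕ) [NeZero n] :
    (nsmulAddMonoidHom n : M →+ M).range.index = n ^ Module.finrank ℤ M := by
  let b := Module.finBasis ℤ M
  let π : M →+ (Fin (Module.finrank ℤ M) → ZMod n) :=
    { toFun := fun x i => ((b.equivFun x i : ℤ) : ZMod n)
      map_zero' := by ext i; simp
      map_add' := fun x y => by ext i; simp }
  have hsurj : Function.Surjective π := by
    intro y
    choose z hz using fun i => ZMod.intCast_surjective (y i)
    exact ⟨b.equivFun.symm z, by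
      ext i
      show ((b.equivFun (b.equivFun.symm z) i : ℤ) : ZMod n) = y i
      rw [LinearEquiv.apply_symm_apply]
      exact hz i⟩
  have hker : π.ker = (nsmulAddMonoidHom n : M →+ M).range := by
    ext x
    constructor
    · intro hx
      have hd : ∀ i, (n : ℤ) ∣ b.equivFun x i := fun i =>
        (ZMod.intCast_zmod_eq_zero_iff_dvd _ _).1 (congrFun hx i)
      choose q hq using hd
      refine ⟨b.equivFun.symm q, b.equivFun.injective ?_⟩
      rw [nsmulAddMonoidHom_apply, map_nsmul, LinearEquiv.apply_symm_apply]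
      ext i
      simp [hq i]
    · rintro ⟨y, rfl⟩
      ext i
      simp [π]
  rw [← hker, AddSubgroup.index_ker, AddMonoidHom.range_eq_top.2 hsurj,
    AddSubgroup.card_top, Nat.card_fun, Nat.card_zmod, Nat.card_fin]

/-- `[M : nM] = n ^ rank M * |M[n]|`. -/
theorem index_range_nsmul [Module.Finite ℤ M] (n : ℕ) [NeZero n] :
    (nsmulAddMonoidHom n : M →+ M).range.index =
        n ^ Module.finrank ℤ M * Nat.card (nsmulAddMonoidHom n : M →+ M).ker ∧
      0 < Nat.card (nsmulAddMonoidHom n : M →+ M).ker := by
  set f : M →+ M := nsmulAddMonoidHom n with hf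
  let T : Submodule ℤ M := Submodule.torsion ℤ M
  have hfin : Finite T.toAddSubgroup :=
    Module.finite_of_fg_torsion T (Submodule.torsion_isTorsion)
  have hsmul : ∀ x : M, n • x ∈ T.toAddSubgroup → x ∈ T.toAddSubgroup := by
    intro x hx
    obtain ⟨a, ha⟩ := hx
    refine ⟨⟨(a : ℤ) * n, ?_⟩, ?_⟩
    · exact mul_mem a.2 (mem_nonZeroDivisors_iff_ne_zero.2 (by exact_mod_cast NeZero.ne n))
    · rw [Submonoid.smul_def] at ha
      rw [Submonoid.smul_def, mul_smul, natCast_zsmul]
      exact ha
  have hker : f.ker ≤ T.toAddSubgroup := fun x hx => hsmul x (by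
    rw [show n • x = 0 from hx]; exact zero_mem _)
  have : Finite f.ker := Finite.of_injective _ (AddSubgroup.inclusion_injective hker)
  refine ⟨?_, Nat.card_pos⟩
  -- the quotient by torsion
  let π : M →+ M ⧸ T := T.mkQ.toAddMonoidHom
  have hπk : π.ker = T.toAddSubgroup := by
    ext x
    simp [π]
  have hπs : Function.Surjective π := T.mkQ_surjective
  have hmap : f.range.map π = (nsmulAddMonoidHom n : (M ⧸ T) →+ _).range := by
    ext y
    constructor
    · rintro ⟨-, ⟨x, rfl⟩, rfl⟩
      exact ⟨π x, by simp [hf]⟩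
    · rintro ⟨z, rfl⟩
      obtain ⟨x, rfl⟩ := hπs z
      exact ⟨f x, ⟨x, rfl⟩, by simp [hf]⟩
  have : Module.Free ℤ (M ⧸ T) := Module.free_of_finite_type_torsion_free'
  have e1 : (f.range ⊔ T.toAddSubgroup).index = n ^ Module.finrank ℤ M := by
    have := AddSubgroup.index_map (H := f.range) π
    rw [hmap, hπk, AddMonoidHom.range_eq_top.2 hπs, AddSubgroup.index_top, mul_one,
      index_range_nsmul_of_free,
      finrank_quotient_eq_of_le_torsion (le_refl T)] at this
    exact this.symm
  -- the torsion part
  let fT : T.toAddSubgroup →+ T.toAddSubgroup := nsmulAddMonoidHom n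
  have e2 : f.range.relIndex T.toAddSubgroup = fT.range.index := by
    unfold AddSubgroup.relIndex
    congr 1
    ext x
    constructor
    · rintro ⟨y, hy⟩
      refine ⟨⟨y, hsmul y ?_⟩, Subtype.ext hy⟩
      rw [show n • y = (x : M) from hy]; exact x.2
    · rintro ⟨y, rfl⟩
      exact ⟨y.1, rfl⟩
  have e3 : fT.range.index = Nat.card f.ker := by
    have hcard : Nat.card fT.ker = Nat.card f.ker :=
      Nat.card_congr
        { toFun := fun x => ⟨x.1.1, congrArg Subtype.val x.2⟩
          invFun := fun x => ⟨⟨x.1, hker x.2⟩, Subtype.ext x.2⟩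
          left_inv := fun x => rfl
          right_inv := fun x => rfl }
    have h1 := AddSubgroup.card_mul_index fT.range
    have h2 := AddSubgroup.card_mul_index fT.ker
    rw [AddSubgroup.index_ker, ← h1, mul_comm (Nat.card fT.ker), hcard] at h2
    exact (mul_left_cancel₀ Nat.card_pos.ne' h2).symm
  have e4 : f.range.index = f.range.relIndex T.toAddSubgroup *
      (f.range ⊔ T.toAddSubgroup).index := by
    rw [← AddSubgroup.relIndex_sup_left T.toAddSubgroup f.range,
      AddSubgroup.relIndex_mul_index le_sup_left]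
  rw [e4, e2, e3, e1, mul_comm]

end Index

/-- In `ℤ[X]`, modulo the `p`-th cyclotomic polynomial, `(X - 1) ^ (p - 1)` is `p` times a unit. -/
theorem exists_sub_one_pow_eq (p : ℕ) (hp : p.Prime) :
    ∃ v v' q q' : ℤ[X], (X - 1) ^ (p - 1) = (p : ℤ[X]) * v + cyclotomic p ℤ * q ∧
      v * v' = 1 + cyclotomic p ℤ * q' := by
  have : Fact p.Prime := ⟨hp⟩
  let Φ : ℤ[X] := cyclotomic p ℤ
  have hΦ : Prime Φ := (cyclotomic.irreducible hp.pos).prime
  have : IsDomain (AdjoinRoot Φ) := AdjoinRoot.isDomain_of_prime hΦ
  let ζ : AdjoinRoot Φ := AdjoinRoot.root Φ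
  have hinj : Function.Injective (AdjoinRoot.of Φ) :=
    AdjoinRoot.of.injective_of_degree_ne_zero (degree_cyclotomic_pos p ℤ hp.pos).ne'
  have : NeZero ((p : AdjoinRoot Φ)) := ⟨fun h => hp.ne_zero (by
    have : AdjoinRoot.of Φ (p : ℤ) = AdjoinRoot.of Φ 0 := by
      rw [map_natCast, map_zero]; exact h
    exact_mod_cast hinj this)⟩
  have hζ : IsPrimitiveRoot ζ p := by
    have := AdjoinRoot.isRoot_root Φ
    rw [map_cyclotomic] at this
    exact isRoot_cyclotomic_iff.1 this
  obtain ⟨n, rfl⟩ : ∃ n, p = n + 1 := ⟨p - 1, (Nat.succ_pred_eq_of_pos hp.pos).symm⟩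
  have hprod := hζ.prod_one_sub_pow_eq_order
  have hass : Associated ((ζ - 1) ^ n) (((n + 1 : ℕ)) : AdjoinRoot Φ) := by
    rw [Nat.cast_add, Nat.cast_one, ← hprod]
    have hconst : (ζ - 1) ^ n = ∏ _k ∈ Finset.range n, (ζ - 1) := by
      rw [Finset.prod_const, Finset.card_range]
    rw [hconst]
    refine Associated.prod _ _ _ fun k hk => ?_
    have hcop : (k + 1).Coprime (n + 1) :=
      (Nat.coprime_of_lt_prime (n := k + 1) (Nat.succ_ne_zero k)
        (by rw [Finset.mem_range] at hk; omega) hp).symm
    have := hζ.associated_sub_one_pow_sub_one_of_coprime hcop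
    rw [← neg_sub (ζ ^ (k + 1)) 1]
    exact this.neg_right
  obtain ⟨u, hu⟩ := hass.symm
  obtain ⟨v, hv⟩ := AdjoinRoot.mk_surjective (u : AdjoinRoot Φ)
  obtain ⟨v', hv'⟩ := AdjoinRoot.mk_surjective ((u⁻¹ : (AdjoinRoot Φ)ˣ) : AdjoinRoot Φ)
  have h1 : AdjoinRoot.mk Φ ((X - 1) ^ n) = AdjoinRoot.mk Φ (((n + 1 : ℕ) : ℤ[X]) * v) := by
    rw [map_pow, map_sub, map_one, AdjoinRoot.mk_X, map_mul, map_natCast, hv]
    exact hu.symm
  have h2 : AdjoinRoot.mk Φ (v * v') = AdjoinRoot.mk Φ 1 := by
    rw [map_mul, hv, hv', map_one, Units.mul_inv]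
  obtain ⟨q, hq⟩ := AdjoinRoot.mk_eq_mk.1 h1
  obtain ⟨q', hq'⟩ := AdjoinRoot.mk_eq_mk.1 h2
  refine ⟨v, v', q, q', ?_, ?_⟩
  · rw [Nat.add_sub_cancel]; linear_combination hq
  · linear_combination hq'

section Herbrand

variable {M : Type*} [AddCommGroup M]

/-- For an endomorphism with `1 + s + ⋯ + s ^ (p - 1) = 0` of a finitely generated abelian group
of rank `b * (p - 1)`, `[M : (s - 1) M] = p ^ b * |ker (s - 1)|`. -/
theorem index_range_sub_one [Module.Finite ℤ M] {p b : ℕ} (hp : p.Prime) (s : Module.End ℤ M)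
    (hs : ∑ i ∈ Finset.range p, s ^ i = 0) (hb : Module.finrank ℤ M = b * (p - 1)) :
    (s - 1).toAddMonoidHom.range.index = p ^ b * Nat.card (s - 1).toAddMonoidHom.ker ∧
      0 < Nat.card (s - 1).toAddMonoidHom.ker := by
  have : NeZero p := ⟨hp.ne_zero⟩
  have : Fact p.Prime := ⟨hp⟩
  obtain ⟨v, v', q, q', hv, hv'⟩ := exists_sub_one_pow_eq p hp
  have hΦ : aeval s (cyclotomic p ℤ) = 0 := by
    rw [cyclotomic_prime, map_sum]
    simpa using hs
  set u := aeval s v with hu_def
  set u' := aeval s v' with hu'_def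
  have huu : u * u' = 1 := by
    rw [hu_def, hu'_def, ← map_mul, hv', map_add, map_one, map_mul, hΦ, zero_mul, add_zero]
  have huu' : u' * u = 1 := by
    rw [hu_def, hu'_def, ← map_mul, mul_comm v' v, hv', map_add, map_one, map_mul, hΦ, zero_mul,
      add_zero]
  set D := s - 1 with hD
  have hpow : D ^ (p - 1) = (p : Module.End ℤ M) * u := by
    have := congrArg (aeval s) hv
    rw [map_pow, map_sub, map_one, aeval_X, map_add, map_mul, map_mul, hΦ, zero_mul, add_zero,
      map_natCast] at this
    exact this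
  set P : M →+ M := nsmulAddMonoidHom p with hP
  obtain ⟨hPi, hPk⟩ := index_range_nsmul (M := M) p
  have hrange : (D ^ (p - 1)).toAddMonoidHom.range = P.range := by
    rw [hpow]
    ext y
    constructor
    · rintro ⟨x, rfl⟩
      exact ⟨u x, by simp [hP]⟩
    · rintro ⟨x, rfl⟩
      refine ⟨u' x, ?_⟩
      have : u (u' x) = x := by rw [← Module.End.mul_apply, huu, Module.End.one_apply]
      simp [hP, this]
  have hker : Nat.card (D ^ (p - 1)).toAddMonoidHom.ker = Nat.card P.ker := by
    rw [hpow]
    exact Nat.card_congr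
      { toFun := fun x => ⟨u x.1, by
          show p • u x.1 = 0
          exact (Module.End.natCast_apply (R := ℤ) p (u x.1)).symm.trans x.2⟩
        invFun := fun x => ⟨u' x.1, by
          have : u (u' x.1) = x.1 := by rw [← Module.End.mul_apply, huu, Module.End.one_apply]
          show (p : Module.End ℤ M) (u (u' x.1)) = 0
          rw [this, Module.End.natCast_apply]
          exact x.2⟩
        left_inv := fun x => Subtype.ext (by
          show u' (u x.1) = x.1
          rw [← Module.End.mul_apply, huu', Module.End.one_apply])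
        right_inv := fun x => Subtype.ext (by
          show u (u' x.1) = x.1
          rw [← Module.End.mul_apply, huu, Module.End.one_apply]) }
  have hpos : ∀ m, m ≤ p - 1 → 0 < Nat.card (D ^ m).toAddMonoidHom.ker := by
    intro m hm
    have hle : (D ^ m).toAddMonoidHom.ker ≤ (D ^ (p - 1)).toAddMonoidHom.ker := by
      intro x hx
      have hx' : (D ^ m) x = 0 := hx
      show (D ^ (p - 1)) x = 0
      rw [← Nat.sub_add_cancel hm, pow_add, Module.End.mul_apply, hx', map_zero]
    have : Finite (D ^ (p - 1)).toAddMonoidHom.ker :=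
      Nat.finite_of_card_ne_zero (hker ▸ hPk.ne')
    have : Finite (D ^ m).toAddMonoidHom.ker :=
      Finite.of_injective _ (AddSubgroup.inclusion_injective hle)
    exact Nat.card_pos
  have hk1 : 0 < Nat.card D.toAddMonoidHom.ker := by
    have := hpos 1 (by have := hp.two_le; omega)
    rwa [pow_one] at this
  have hind : ∀ m, m ≤ p - 1 →
      (D ^ m).toAddMonoidHom.range.index * Nat.card D.toAddMonoidHom.ker ^ m =
        D.toAddMonoidHom.range.index ^ m * Nat.card (D ^ m).toAddMonoidHom.ker := by
    intro m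
    induction m with
    | zero =>
      intro _
      have hr : (D ^ 0).toAddMonoidHom.range = ⊤ :=
        AddMonoidHom.range_eq_top.2 fun x => ⟨x, by simp⟩
      have hk : (D ^ 0).toAddMonoidHom.ker = ⊥ := by ext x; simp
      rw [hr, hk, AddSubgroup.index_top, AddSubgroup.card_bot, pow_zero, pow_zero]
    | succ m ih =>
      intro hm
      have hc := index_range_comp (D ^ m).toAddMonoidHom D.toAddMonoidHom
      have he : (D ^ m).toAddMonoidHom.comp D.toAddMonoidHom = (D ^ (m + 1)).toAddMonoidHom := by
        ext x; simp [pow_succ]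
      rw [he] at hc
      refine Nat.eq_of_mul_eq_mul_right (hpos m (Nat.le_of_succ_le hm)) ?_
      calc (D ^ (m + 1)).toAddMonoidHom.range.index * Nat.card D.toAddMonoidHom.ker ^ (m + 1) *
            Nat.card (D ^ m).toAddMonoidHom.ker
          = ((D ^ (m + 1)).toAddMonoidHom.range.index * Nat.card (D ^ m).toAddMonoidHom.ker *
              Nat.card D.toAddMonoidHom.ker) * Nat.card D.toAddMonoidHom.ker ^ m := by ring
        _ = ((D ^ m).toAddMonoidHom.range.index * D.toAddMonoidHom.range.index *
              Nat.card (D ^ (m + 1)).toAddMonoidHom.ker) * Nat.card D.toAddMonoidHom.ker ^ m := by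
            rw [hc]
        _ = ((D ^ m).toAddMonoidHom.range.index * Nat.card D.toAddMonoidHom.ker ^ m) *
              D.toAddMonoidHom.range.index * Nat.card (D ^ (m + 1)).toAddMonoidHom.ker := by ring
        _ = _ := by rw [ih (Nat.le_of_succ_le hm)]; ring
  refine ⟨?_, hk1⟩
  have h := hind (p - 1) le_rfl
  rw [hrange, hPi, hker, hb] at h
  have h' : D.toAddMonoidHom.range.index ^ (p - 1) =
      (p ^ b * Nat.card D.toAddMonoidHom.ker) ^ (p - 1) := by
    apply Nat.eq_of_mul_eq_mul_right hPk
    rw [← h, mul_pow, ← pow_mul]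
    ring
  exact Nat.pow_left_injective (by have := hp.two_le; omega) h'

/-- **Herbrand quotient.** If `σ ^ p = 1` on a finitely generated abelian group `M` of rank
`r + b * (p - 1)` whose fixed part has rank `r`, then `Q(M) = p ^ (r - b)`. -/
theorem herbrand_index [Module.Finite ℤ M] {p r b : ℕ} (hp : p.Prime) (σ : Module.End ℤ M)
    (hσ : σ ^ p = 1) (hA : Module.finrank ℤ (LinearMap.ker (σ - 1)) = r)
    (hM : Module.finrank ℤ M = r + b * (p - 1)) :
    (∑ i ∈ Finset.range p, σ ^ i).toAddMonoidHom.range.relIndex (σ - 1).toAddMonoidHom.ker ≠ 0 ∧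
    (σ - 1).toAddMonoidHom.range.relIndex (∑ i ∈ Finset.range p, σ ^ i).toAddMonoidHom.ker * p ^ r =
      (∑ i ∈ Finset.range p, σ ^ i).toAddMonoidHom.range.relIndex (σ - 1).toAddMonoidHom.ker *
        p ^ b := by
  have : NeZero p := ⟨hp.ne_zero⟩
  set N := ∑ i ∈ Finset.range p, σ ^ i with hN
  set D := σ - 1 with hD
  have hND : N * D = 0 := by rw [hN, hD, geom_sum_mul, hσ, sub_self]
  have hDN : D * N = 0 := by rw [hN, hD, mul_geom_sum, hσ, sub_self]
  let A := LinearMap.ker D
  let W := LinearMap.ker N
  -- `N = p` on the fixed part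
  have hNA : ∀ a : M, D a = 0 → N a = p • a := by
    intro a ha
    have h1 : σ a = a := by
      have : σ a - a = 0 := by simpa [hD] using ha
      exact sub_eq_zero.1 this
    have hi : ∀ i, (σ ^ i) a = a := by
      intro i
      induction i with
      | zero => simp
      | succ i ih => rw [pow_succ', Module.End.mul_apply, ih, h1]
    simp [hN, hi]
  have hσW : ∀ x ∈ W, σ x ∈ W := by
    intro x hx
    have hx' : N x = 0 := hx
    show N (σ x) = 0
    have : N * σ = σ * N := by
      rw [hN, Finset.sum_mul, Finset.mul_sum]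
      simp [← pow_succ, ← pow_succ']
    rw [← Module.End.mul_apply, this, Module.End.mul_apply, hx', map_zero]
  let s : Module.End ℤ W := σ.restrict hσW
  have hs_pow : ∀ i (x : W), (((s ^ i) x : W) : M) = (σ ^ i) (x : M) := by
    intro i
    induction i with
    | zero => simp
    | succ i ih =>
      intro x
      rw [pow_succ', pow_succ', Module.End.mul_apply, Module.End.mul_apply, ← ih x]
      rfl
  have hsN : ∑ i ∈ Finset.range p, s ^ i = 0 := by
    ext x
    have hx : N x.1 = 0 := x.2
    rw [hN] at hx
    simp only [LinearMap.sum_apply] at hx ⊢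
    simp [hs_pow, hx]
  -- ranks
  have hrA : Module.finrank ℤ (LinearMap.range N) = r := by
    refine le_antisymm ?_ ?_
    · rw [← hA]
      refine Submodule.finrank_mono ?_
      rintro _ ⟨x, rfl⟩
      show D (N x) = 0
      rw [← Module.End.mul_apply, hDN, LinearMap.zero_apply]
    · rw [← hA]
      have h := Submodule.finrank_quotient_add_finrank
        (LinearMap.ker ((p : Module.End ℤ M).comp A.subtype))
      rw [LinearEquiv.finrank_eq ((p : Module.End ℤ M).comp A.subtype).quotKerEquivRange] at h
      have h0 : Module.finrank ℤ (LinearMap.ker ((p : Module.End ℤ M).comp A.subtype)) = 0 := by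
        rw [Module.finrank_eq_zero_iff]
        intro x
        refine ⟨p, by exact_mod_cast hp.ne_zero, ?_⟩
        have hx := x.2
        simp only [LinearMap.mem_ker, LinearMap.comp_apply] at hx
        apply Subtype.ext
        apply Subtype.ext
        simpa using hx
      rw [h0, add_zero] at h
      rw [← h]
      refine Submodule.finrank_mono ?_
      rintro _ ⟨a, rfl⟩
      exact ⟨a.1, by rw [hNA a.1 a.2]; simp⟩
  have hrW : Module.finrank ℤ W = b * (p - 1) := by
    have h := Submodule.finrank_quotient_add_finrank W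
    rw [LinearEquiv.finrank_eq N.quotKerEquivRange, hrA, hM] at h
    omega
  obtain ⟨hWi, hWk⟩ := index_range_sub_one (M := W) hp s hsN hrW
  obtain ⟨hAi, hAk⟩ := index_range_nsmul (M := A) p
  -- the two indices on `W` and on `A`
  set S := A.toAddSubgroup ⊔ W.toAddSubgroup with hS
  have hmapA : A.toAddSubgroup.map N.toAddMonoidHom =
      A.toAddSubgroup.map (nsmulAddMonoidHom p) := by
    ext y
    constructor
    · rintro ⟨a, ha, rfl⟩
      exact ⟨a, ha, (hNA a ha).symm⟩
    · rintro ⟨a, ha, rfl⟩
      exact ⟨a, ha, hNA a ha⟩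
  have hrelA : (A.toAddSubgroup.map (nsmulAddMonoidHom p)).relIndex A.toAddSubgroup =
      (nsmulAddMonoidHom p : A →+ A).range.index := by
    rw [relIndex_map_eq _ _ (fun a ha => nsmul_mem ha p)]
    congr 1
  have hrelW : (W.toAddSubgroup.map D.toAddMonoidHom).relIndex W.toAddSubgroup =
      (s - 1).toAddMonoidHom.range.index := by
    have hDW : ∀ x ∈ W.toAddSubgroup, D.toAddMonoidHom x ∈ W.toAddSubgroup := fun x hx => by
      show N (D x) = 0
      rw [← Module.End.mul_apply, hND, LinearMap.zero_apply]
    rw [relIndex_map_eq _ _ hDW]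
    rfl
  have hA' : (A.toAddSubgroup.map N.toAddMonoidHom).relIndex A.toAddSubgroup =
      S.index * N.toAddMonoidHom.range.relIndex A.toAddSubgroup := by
    have hle : N.toAddMonoidHom.range ≤ A.toAddSubgroup := by
      rintro _ ⟨x, rfl⟩
      show D (N x) = 0
      rw [← Module.End.mul_apply, hDN, LinearMap.zero_apply]
    have hle' : A.toAddSubgroup.map N.toAddMonoidHom ≤ N.toAddMonoidHom.range :=
      AddSubgroup.map_le_range _ _
    rw [← AddSubgroup.relIndex_mul_relIndex _ _ _ hle' hle, AddMonoidHom.range_eq_map,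
      AddSubgroup.relIndex_map_map, top_sup_eq, AddSubgroup.relIndex_top_right]
    rfl
  have hW' : (W.toAddSubgroup.map D.toAddMonoidHom).relIndex W.toAddSubgroup =
      S.index * D.toAddMonoidHom.range.relIndex W.toAddSubgroup := by
    have hle : D.toAddMonoidHom.range ≤ W.toAddSubgroup := by
      rintro _ ⟨x, rfl⟩
      show N (D x) = 0
      rw [← Module.End.mul_apply, hND, LinearMap.zero_apply]
    have hle' : W.toAddSubgroup.map D.toAddMonoidHom ≤ D.toAddMonoidHom.range :=
      AddSubgroup.map_le_range _ _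
    rw [← AddSubgroup.relIndex_mul_relIndex _ _ _ hle' hle, AddMonoidHom.range_eq_map,
      AddSubgroup.relIndex_map_map, top_sup_eq, AddSubgroup.relIndex_top_right, hS,
      sup_comm A.toAddSubgroup]
    rfl
  have hsD : ∀ y : W, (((s - 1) y : W) : M) = D (y : M) := fun y => rfl
  have hk : Nat.card (nsmulAddMonoidHom p : A →+ A).ker =
      Nat.card (s - 1).toAddMonoidHom.ker :=
    Nat.card_congr
      { toFun := fun x => ⟨⟨x.1.1, by
            show N x.1.1 = 0
            rw [hNA x.1.1 x.1.2]; exact congrArg Subtype.val x.2⟩, by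
            apply Subtype.ext
            show (((s - 1) _ : W) : M) = 0
            rw [hsD]
            exact x.1.2⟩
        invFun := fun x => ⟨⟨x.1.1, by
            show D x.1.1 = 0
            rw [← hsD x.1]
            exact congrArg Subtype.val x.2⟩, by
            apply Subtype.ext
            have h1 : D x.1.1 = 0 := by
              rw [← hsD x.1]
              exact congrArg Subtype.val x.2
            show p • x.1.1 = 0
            rw [← hNA x.1.1 h1]; exact x.1.2⟩
        left_inv := fun x => rfl
        right_inv := fun x => rfl }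
  have eA : S.index * N.toAddMonoidHom.range.relIndex A.toAddSubgroup =
      p ^ r * Nat.card (s - 1).toAddMonoidHom.ker := by
    rw [← hA', hmapA, hrelA, hAi, hk]
    congr 2
  have eW : S.index * D.toAddMonoidHom.range.relIndex W.toAddSubgroup =
      p ^ b * Nat.card (s - 1).toAddMonoidHom.ker := by
    rw [← hW', hrelW, hWi]
  have hpos : 0 < S.index * N.toAddMonoidHom.range.relIndex A.toAddSubgroup := by
    rw [eA]; exact Nat.mul_pos (pow_pos hp.pos r) hWk
  refine ⟨(Nat.pos_of_mul_pos_left hpos).ne', ?_⟩
  apply Nat.eq_of_mul_eq_mul_left (Nat.pos_of_mul_pos_right hpos)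
  show S.index * (D.toAddMonoidHom.range.relIndex W.toAddSubgroup * p ^ r) =
    S.index * (N.toAddMonoidHom.range.relIndex A.toAddSubgroup * p ^ b)
  rw [← mul_assoc, ← mul_assoc, eA, eW]
  ring

end Herbrand

end Fermat.Agent.CFT
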