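/-
The Herbrand quotient of the unit group in a cyclic extension of prime degree `p`, unramified at
the infinite places:
`|ker N / (σ - 1)| = p * [E_K : N E_L]`.
-/
import Fermat.Agent.CFT.HerbrandAbelian
import Fermat.Agent.CFT.GaloisNorm
import Mathlib.NumberTheory.NumberField.Units.DirichletTheorem
import Mathlib.NumberTheory.NumberField.InfinitePlace.Ramification

set_option autoImplicit false

namespace Fermat.Agent.CFT

open scoped NumberField

variable {K L : Type*} [Field K] [NumberField K] [Field L] [NumberField L] [Algebra K L]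

/-- The action of `σ` on the units. -/
noncomputable def unitsGal (σ : Gal(L/K)) : (𝓞 L)ˣ →* (𝓞 L)ˣ :=
  Units.map (MulSemiringAction.toRingHom Gal(L/K) (𝓞 L) σ).toMonoidHom

/-- `u ↦ σ u / u` on the units. -/
noncomputable def unitsDiff (σ : Gal(L/K)) : (𝓞 L)ˣ →* (𝓞 L)ˣ :=
  unitsGal σ / MonoidHom.id _

@[simp] theorem coe_unitsGal (σ : Gal(L/K)) (u : (𝓞 L)ˣ) :
    (unitsGal σ u : 𝓞 L) = σ • (u : 𝓞 L) := rfl

theorem unitsDiff_apply (σ : Gal(L/K)) (u : (𝓞 L)ˣ) : unitsDiff σ u = unitsGal σ u / u := rfl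

variable (K L) in
/-- The norm on the units. -/
noncomputable def unitsNorm : (𝓞 L)ˣ →* (𝓞 K)ˣ := Units.map (Algebra.intNorm (𝓞 K) (𝓞 L))

@[simp] theorem coe_unitsNorm (u : (𝓞 L)ˣ) :
    (unitsNorm K L u : 𝓞 K) = Algebra.intNorm (𝓞 K) (𝓞 L) u := rfl

variable [IsGalois K L] {p : ℕ}

/-- **Herbrand quotient of the units.** -/
theorem units_index [IsUnramifiedAtInfinitePlaces K L] (hp : p.Prime)
    (hdeg : Module.finrank K L = p)
    {σ : Gal(L/K)} (hord : orderOf σ = p) (hpow : ∀ τ : Gal(L/K), ∃ i < p, σ ^ i = τ) :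
    (unitsNorm K L).range.index ≠ 0 ∧
      (unitsDiff σ).range.relIndex (unitsNorm K L).ker = (unitsNorm K L).range.index * p := by
  classical
  -- number of infinite places
  set R := Fintype.card (NumberField.InfinitePlace K) with hR
  have hRL : Fintype.card (NumberField.InfinitePlace L) = R * p := by
    rw [IsUnramifiedAtInfinitePlaces.card_infinitePlace K L, hdeg]
  have hR1 : 1 ≤ R := Fintype.card_pos
  -- the unit group as an additive group with an endomorphism
  let ι : (𝓞 K)ˣ →* (𝓞 L)ˣ := Units.map (algebraMap (𝓞 K) (𝓞 L)).toMonoidHom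
  have hι : Function.Injective ι := fun a b h => Units.ext
    (FaithfulSMul.algebraMap_injective (𝓞 K) (𝓞 L) (congrArg Units.val h))
  let ιA : Additive (𝓞 K)ˣ →+ Additive (𝓞 L)ˣ := MonoidHom.toAdditive ι
  have hιA : Function.Injective ιA := hι
  let nA : Additive (𝓞 L)ˣ →+ Additive (𝓞 K)ˣ := MonoidHom.toAdditive (unitsNorm K L)
  let dA : Additive (𝓞 L)ˣ →+ Additive (𝓞 L)ˣ := MonoidHom.toAdditive (unitsDiff σ)
  let s : Module.End ℤ (Additive (𝓞 L)ˣ) := (MonoidHom.toAdditive (unitsGal σ)).toIntLinearMap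
  have hspow : ∀ (i : ℕ) (x : Additive (𝓞 L)ˣ),
      (((s ^ i) x).toMul : 𝓞 L) = (σ ^ i) • (x.toMul : 𝓞 L) := by
    intro i
    induction i with
    | zero => intro x; simp
    | succ i ih =>
      intro x
      rw [pow_succ', pow_succ', Module.End.mul_apply, mul_smul, ← ih x]
      rfl
  have hs : s ^ p = 1 := by
    apply LinearMap.ext
    intro x
    apply Additive.toMul.injective
    apply Units.ext
    rw [hspow, ← hord, pow_orderOf_eq_one, one_smul]
    rfl
  have hD : (s - 1).toAddMonoidHom = dA := by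
    ext x
    rfl
  have hN : (∑ i ∈ Finset.range p, s ^ i).toAddMonoidHom = ιA.comp nA := by
    refine AddMonoidHom.ext fun x => ?_
    apply Additive.toMul.injective
    apply Units.ext
    show ((((∑ i ∈ Finset.range p, s ^ i) x).toMul : (𝓞 L)ˣ) : 𝓞 L) =
      algebraMap (𝓞 K) (𝓞 L) (Algebra.intNorm (𝓞 K) (𝓞 L) (x.toMul : 𝓞 L))
    rw [algebraMap_intNorm_eq_prod hord hpow, LinearMap.sum_apply, toMul_sum, Units.coe_prod]
    exact Finset.prod_congr rfl fun i _ => hspow i x
  have hfix : dA.ker = ιA.range := by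
    ext x
    constructor
    · intro hx
      have h1 : unitsGal σ x.toMul = x.toMul := div_eq_one.1 (congrArg Additive.toMul hx)
      have h2 : unitsGal σ (x.toMul)⁻¹ = (x.toMul)⁻¹ := by rw [map_inv, h1]
      obtain ⟨k, hk⟩ := exists_algebraMap_of_fixed hpow (congrArg Units.val h1)
      obtain ⟨k', hk'⟩ := exists_algebraMap_of_fixed hpow (congrArg Units.val h2)
      have hkk : k * k' = 1 := FaithfulSMul.algebraMap_injective (𝓞 K) (𝓞 L) (by
        rw [map_mul, hk, hk', map_one]; exact Units.mul_inv _)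
      exact ⟨Additive.ofMul (Units.mkOfMulEqOne k k' hkk),
        Additive.toMul.injective (Units.ext hk)⟩
    · rintro ⟨k, rfl⟩
      apply Additive.toMul.injective
      show unitsGal σ (ι k.toMul) / ι k.toMul = 1
      rw [div_eq_one]
      exact Units.ext (gal_smul_algebraMap σ _)
  have hsub : LinearMap.ker (s - 1) = LinearMap.range ιA.toIntLinearMap := by
    ext x
    exact SetLike.ext_iff.1 ((congrArg AddMonoidHom.ker hD).trans hfix) x
  have hrA : Module.finrank ℤ (LinearMap.ker (s - 1)) = R - 1 := by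
    rw [hsub, LinearMap.finrank_range_of_inj (f := ιA.toIntLinearMap) hι,
      NumberField.Units.finrank_eq]
    rfl
  have hrM : Module.finrank ℤ (Additive (𝓞 L)ˣ) = (R - 1) + R * (p - 1) := by
    rw [NumberField.Units.finrank_eq, NumberField.Units.rank, hRL]
    have h1 : R * p = R * (p - 1) + R := by
      rw [← Nat.mul_succ, Nat.succ_eq_add_one, Nat.sub_add_cancel hp.one_lt.le]
    omega
  obtain ⟨h0, h1⟩ := herbrand_index hp s hs hrA hrM
  rw [hD, hN] at h1
  rw [hD, hN] at h0
  have e0 : (ιA.comp nA).range.relIndex dA.ker = (unitsNorm K L).range.index := by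
    rw [hfix, AddMonoidHom.range_comp, AddMonoidHom.range_eq_map ιA,
      AddSubgroup.relIndex_map_map_of_injective _ _ hι, AddSubgroup.relIndex_top_right,
      ← Subgroup.index_toAddSubgroup]
    rfl
  have e1 : dA.range.relIndex (ιA.comp nA).ker =
      (unitsDiff σ).range.relIndex (unitsNorm K L).ker := by
    have hk : (ιA.comp nA).ker = nA.ker := by
      ext x
      exact map_eq_zero_iff ιA hιA
    rw [hk, ← Subgroup.relIndex_toAddSubgroup]
    rfl
  rw [e0, e1] at h1
  rw [e0] at h0
  refine ⟨h0, ?_⟩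
  have hpR : p ^ R = p * p ^ (R - 1) := by
    rw [← pow_succ', Nat.sub_add_cancel hR1]
  rw [hpR, ← mul_assoc] at h1
  exact Nat.eq_of_mul_eq_mul_right (pow_pos hp.pos _) h1

end Fermat.Agent.CFT
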