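/-
Ambiguous classes and capitulation in an unramified cyclic extension of prime degree.
-/
import Fermat.Agent.CFT.ClassMaps
import Fermat.Agent.CFT.UnitsIndex
import Mathlib.NumberTheory.NumberField.ClassNumber

set_option autoImplicit false

namespace Fermat.Agent.CFT

open scoped NumberField nonZeroDivisors Pointwise

variable {K L : Type*} [Field K] [NumberField K] [Field L] [NumberField L] [Algebra K L]
variable [IsGalois K L] {p : ℕ}

/-- The class of a principal ideal is trivial, so associated data give equal classes. -/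
theorem mk0_eq_of_span_mul {R : Type*} [CommRing R] [IsDedekindDomain R] {I J : (Ideal R)⁰}
    {x y : R} (hx : x ≠ 0) (hy : y ≠ 0)
    (h : Ideal.span {x} * (I : Ideal R) = Ideal.span {y} * (J : Ideal R)) :
    ClassGroup.mk0 I = ClassGroup.mk0 J :=
  ClassGroup.mk0_eq_mk0_iff.2 ⟨x, y, hx, hy, h⟩

/-- The ambiguous classes inject, up to extended classes, into `E_K / N E_L`. -/
theorem card_ambiguous_le {σ : Gal(L/K)} (hord : orderOf σ = p)
    (hpow : ∀ τ : Gal(L/K), ∃ i < p, σ ^ i = τ)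
    (hur : ∀ P : Ideal (𝓞 L), P.IsMaximal → P.ramificationIdx (𝓞 K) = 1)
    (he : (unitsNorm K L).range.index ≠ 0)
    (gal : ClassGroup (𝓞 L) →* ClassGroup (𝓞 L))
    (hgal : ∀ J, gal (ClassGroup.mk0 J) = ClassGroup.mk0 (galNZ σ J)) :
    Nat.card (gal / MonoidHom.id _).ker ≤
      Nat.card (ClassGroup.extendedHom (𝓞 K) (𝓞 L)).range * (unitsNorm K L).range.index := by
  classical
  let φ : ClassGroup (𝓞 L) →* ClassGroup (𝓞 L) := gal / MonoidHom.id _
  let Q := (𝓞 K)ˣ ⧸ (unitsNorm K L).range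
  let R : φ.ker → Q → Prop := fun C h =>
    ∃ (u : (𝓞 K)ˣ) (J : (Ideal (𝓞 L))⁰) (x y : 𝓞 L), QuotientGroup.mk u = h ∧
      ClassGroup.mk0 J = C.1 ∧ x ≠ 0 ∧ y ≠ 0 ∧
      Ideal.span {x} * σ • (J : Ideal (𝓞 L)) = Ideal.span {y} * (J : Ideal (𝓞 L)) ∧
      Algebra.intNorm (𝓞 K) (𝓞 L) y = u * Algebra.intNorm (𝓞 K) (𝓞 L) x
  have hex : ∀ C, ∃ h, R C h := by
    intro C
    obtain ⟨J, hJ⟩ := ClassGroup.mk0_surjective C.1
    have hC : gal C.1 = C.1 := div_eq_one.1 C.2
    rw [← hJ, hgal] at hC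
    obtain ⟨x, y, hx, hy, hxy⟩ := ClassGroup.mk0_eq_mk0_iff.1 hC
    rw [coe_galNZ] at hxy
    have hn := congrArg (Ideal.relNorm (𝓞 K)) hxy
    rw [map_mul, map_mul, Ideal.relNorm_singleton, Ideal.relNorm_singleton, Ideal.relNorm_smul]
      at hn
    have hJ0 : Ideal.relNorm (𝓞 K) (J : Ideal (𝓞 L)) ≠ 0 := fun h0 =>
      mem_nonZeroDivisors_iff_ne_zero.1 J.2 (Ideal.relNorm_eq_bot_iff.1 h0)
    obtain ⟨u, hu⟩ := Ideal.span_singleton_eq_span_singleton.1 (mul_right_cancel₀ hJ0 hn)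
    exact ⟨_, u, J, x, y, rfl, hJ, hx, hy, hxy, by rw [← hu, mul_comm]⟩
  have hmul : ∀ C C' h h', R C h → R C' h' → R (C * C') (h * h') := by
    rintro C C' _ _ ⟨u, J, x, y, rfl, hJ, hx, hy, e, n⟩ ⟨u', J', x', y', rfl, hJ', hx', hy', e', n'⟩
    refine ⟨u * u', J * J', x * x', y * y', rfl, ?_, mul_ne_zero hx hx', mul_ne_zero hy hy', ?_, ?_⟩
    · rw [map_mul, hJ, hJ']; rfl
    · rw [Submonoid.coe_mul, gal_smul_mul, ← Ideal.span_singleton_mul_span_singleton,
        ← Ideal.span_singleton_mul_span_singleton, mul_mul_mul_comm, e, e', mul_mul_mul_comm]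
    · rw [map_mul, map_mul, n, n', Units.val_mul]; ring
  have huniq : ∀ C h h', R C h → R C h' → h = h' := by
    rintro C _ _ ⟨u, J, x, y, rfl, hJ, hx, hy, e, n⟩ ⟨u', J', x', y', rfl, hJ', hx', hy', e', n'⟩
    obtain ⟨a, b, ha, hb, hab⟩ := ClassGroup.mk0_eq_mk0_iff.1 (hJ.trans hJ'.symm)
    have hab' := congrArg (σ • ·) hab
    simp only [gal_smul_mul, gal_smul_span] at hab'
    have key : Ideal.span {x * σ • b * y' * a} * (J : Ideal (𝓞 L)) =
        Ideal.span {x' * b * σ • a * y} * (J : Ideal (𝓞 L)) := by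
      simp only [← Ideal.span_singleton_mul_span_singleton]
      calc Ideal.span {x} * Ideal.span {σ • b} * Ideal.span {y'} * Ideal.span {a} * (J : Ideal (𝓞 L))
          = Ideal.span {x} * Ideal.span {σ • b} * Ideal.span {y'} *
              (Ideal.span {a} * (J : Ideal (𝓞 L))) := by ring
        _ = Ideal.span {x} * Ideal.span {σ • b} * Ideal.span {b} *
              (Ideal.span {y'} * (J' : Ideal (𝓞 L))) := by rw [hab]; ring
        _ = Ideal.span {x} * Ideal.span {x'} * Ideal.span {b} *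
              (Ideal.span {σ • b} * σ • (J' : Ideal (𝓞 L))) := by rw [← e']; ring
        _ = Ideal.span {x'} * Ideal.span {b} * Ideal.span {σ • a} *
              (Ideal.span {x} * σ • (J : Ideal (𝓞 L))) := by rw [← hab']; ring
        _ = _ := by rw [e]; ring
    have hJ0 : (J : Ideal (𝓞 L)) ≠ 0 := mem_nonZeroDivisors_iff_ne_zero.1 J.2
    obtain ⟨ε, hε⟩ := Ideal.span_singleton_eq_span_singleton.1 (mul_right_cancel₀ hJ0 key)
    have hN := congrArg (Algebra.intNorm (𝓞 K) (𝓞 L)) hε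
    simp only [map_mul, intNorm_gal_smul, n, n', ← coe_unitsNorm] at hN
    have hne : ∀ {z : 𝓞 L}, z ≠ 0 → Algebra.intNorm (𝓞 K) (𝓞 L) z ≠ 0 := fun hz =>
      Algebra.intNorm_ne_zero.2 hz
    have hval : ((u' * unitsNorm K L ε : (𝓞 K)ˣ) : 𝓞 K) = u := by
      rw [Units.val_mul]
      refine mul_right_cancel₀
        (mul_ne_zero (mul_ne_zero (mul_ne_zero (hne hx) (hne hb)) (hne hx')) (hne ha)) ?_
      linear_combination hN
    rw [← Units.ext hval]
    refine QuotientGroup.eq.2 ?_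
    rw [show (u' * unitsNorm K L ε)⁻¹ * u' = (unitsNorm K L ε)⁻¹ by
      rw [mul_inv_rev, inv_mul_cancel_right]]
    exact inv_mem ⟨ε, rfl⟩
  obtain ⟨g, hg⟩ := exists_hom_of_rel R hex hmul huniq
  have hker : g.ker ≤ (ClassGroup.extendedHom (𝓞 K) (𝓞 L)).range.comap φ.ker.subtype := by
    intro C hC
    obtain ⟨u, J, x, y, hu, hJ, hx, hy, e, n⟩ := hg C
    rw [show g C = 1 from hC, QuotientGroup.eq_one_iff] at hu
    obtain ⟨ε, rfl⟩ := hu
    have hxε : x * (ε : 𝓞 L) ≠ 0 := mul_ne_zero hx ε.ne_zero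
    obtain ⟨γ, hγ, hγe⟩ := exists_smul_eq_of_intNorm_eq hord hpow hxε
      (show Algebra.intNorm (𝓞 K) (𝓞 L) y = Algebra.intNorm (𝓞 K) (𝓞 L) (x * ε) by
        rw [map_mul, n, coe_unitsNorm, mul_comm])
    have hJ0 : (J : Ideal (𝓞 L)) ≠ 0 := mem_nonZeroDivisors_iff_ne_zero.1 J.2
    have hfix : σ • (Ideal.span {γ} * (J : Ideal (𝓞 L))) = Ideal.span {γ} * (J : Ideal (𝓞 L)) := by
      have hxi : Ideal.span {x} ≠ (0 : Ideal (𝓞 L)) := by simpa using hx
      refine mul_left_cancel₀ hxi ?_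
      rw [gal_smul_mul, gal_smul_span, mul_left_comm, e, ← mul_assoc,
        Ideal.span_singleton_mul_span_singleton, mul_comm (σ • γ) y, hγe,
        mul_assoc x, ← Ideal.span_singleton_mul_span_singleton x,
        Ideal.span_singleton_mul_left_unit ε.isUnit, mul_assoc]
    obtain ⟨c, hc⟩ := exists_map_eq_of_fixed hpow hur _
      (mul_ne_zero (by simpa using hγ) hJ0) hfix
    have hc0 : c ∈ (Ideal (𝓞 K))⁰ := mem_nonZeroDivisors_iff_ne_zero.2 fun h0 => by
      rw [h0, Ideal.zero_eq_bot, Ideal.map_bot] at hc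
      exact mul_ne_zero (by simpa using hγ) hJ0 hc.symm
    refine ⟨ClassGroup.mk0 ⟨c, hc0⟩, ?_⟩
    rw [Subgroup.coe_subtype, ← hJ, ClassGroup.extendedHom_mk0]
    exact mk0_eq_of_span_mul (x := 1) (y := γ) one_ne_zero hγ (by
      rw [show Ideal.span {(1 : 𝓞 L)} = ⊤ from Ideal.span_singleton_one, Ideal.top_mul]
      exact hc)
  haveI : Finite Q := Nat.finite_of_card_ne_zero he
  have h1 : Nat.card g.ker ≤ Nat.card (ClassGroup.extendedHom (𝓞 K) (𝓞 L)).range :=
    Nat.card_le_card_of_injective (fun C => ⟨C.1.1, hker C.2⟩)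
      (fun C C' h => by
        have := congrArg Subtype.val h
        exact Subtype.ext (Subtype.ext this))
  have h2 : Nat.card g.range ≤ (unitsNorm K L).range.index :=
    Nat.card_le_card_of_injective _ Subtype.val_injective
  calc Nat.card φ.ker = Nat.card g.ker * g.ker.index := (Subgroup.card_mul_index _).symm
    _ = Nat.card g.ker * Nat.card g.range := by rw [Subgroup.index_ker]
    _ ≤ _ := Nat.mul_le_mul h1 h2

/-- `H¹` of the units embeds into the capitulation kernel. -/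
theorem relIndex_le_card_capitulation {σ : Gal(L/K)} (hord : orderOf σ = p)
    (hpow : ∀ τ : Gal(L/K), ∃ i < p, σ ^ i = τ)
    (hur : ∀ P : Ideal (𝓞 L), P.IsMaximal → P.ramificationIdx (𝓞 K) = 1) :
    (unitsDiff σ).range.relIndex (unitsNorm K L).ker ≤
      Nat.card (ClassGroup.extendedHom (𝓞 K) (𝓞 L)).ker := by
  classical
  let j := ClassGroup.extendedHom (𝓞 K) (𝓞 L)
  let R : (unitsNorm K L).ker → j.ker → Prop := fun η C =>
    ∃ (γ : 𝓞 L) (c : (Ideal (𝓞 K))⁰), γ ≠ 0 ∧ (η.1 : 𝓞 L) * σ • γ = γ ∧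
      (c : Ideal (𝓞 K)).map (algebraMap (𝓞 K) (𝓞 L)) = Ideal.span {γ} ∧ ClassGroup.mk0 c = C.1
  have hex : ∀ η, ∃ C, R η C := by
    intro η
    have hη : Algebra.intNorm (𝓞 K) (𝓞 L) (η.1 : 𝓞 L) = Algebra.intNorm (𝓞 K) (𝓞 L) 1 := by
      rw [map_one, ← coe_unitsNorm, η.2, Units.val_one]
    obtain ⟨γ, hγ, hγe⟩ := exists_smul_eq_of_intNorm_eq hord hpow one_ne_zero hη
    rw [one_mul] at hγe
    have hfix : σ • (Ideal.span {γ} : Ideal (𝓞 L)) = Ideal.span {γ} := by
      conv_rhs => rw [← hγe, Ideal.span_singleton_mul_left_unit η.1.isUnit]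
      rw [gal_smul_span]
    obtain ⟨c, hc⟩ := exists_map_eq_of_fixed hpow hur _ (by simpa using hγ) hfix
    have hc0 : c ∈ (Ideal (𝓞 K))⁰ := mem_nonZeroDivisors_iff_ne_zero.2 fun h0 => by
      rw [h0, Ideal.zero_eq_bot, Ideal.map_bot, eq_comm, Ideal.span_singleton_eq_bot] at hc
      exact hγ hc
    refine ⟨⟨ClassGroup.mk0 ⟨c, hc0⟩, ?_⟩, γ, ⟨c, hc0⟩, hγ, hγe, hc, rfl⟩
    rw [MonoidHom.mem_ker, ClassGroup.extendedHom_mk0]
    exact (ClassGroup.mk0_eq_one_iff (ClassGroup.extendedIdeal (𝓞 K) (𝓞 L) ⟨c, hc0⟩).2).2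
      ⟨⟨γ, hc⟩⟩
  have hmul : ∀ η η' C C', R η C → R η' C' → R (η * η') (C * C') := by
    rintro η η' C C' ⟨γ, c, hγ, e, hc, hC⟩ ⟨γ', c', hγ', e', hc', hC'⟩
    refine ⟨γ * γ', c * c', mul_ne_zero hγ hγ', ?_, ?_, ?_⟩
    · rw [Subgroup.coe_mul, Units.val_mul, smul_mul', mul_mul_mul_comm, e, e']
    · rw [Submonoid.coe_mul, Ideal.map_mul, hc, hc', Ideal.span_singleton_mul_span_singleton]
    · rw [map_mul, hC, hC']; rfl
  have huniq : ∀ η C C', R η C → R η C' → C = C' := by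
    rintro η C C' ⟨γ, c, hγ, e, hc, hC⟩ ⟨γ', c', hγ', e', hc', hC'⟩
    set N := Algebra.intNorm (𝓞 K) (𝓞 L) γ with hNdef
    obtain ⟨γc, hγc⟩ := Algebra.dvd_algebraMap_intNorm_self (𝓞 K) (𝓞 L) γ
    have hN0 : N ≠ 0 := Algebra.intNorm_ne_zero.2 hγ
    have hσN : σ • γ * σ • γc = γ * γc := by
      rw [← smul_mul', ← hγc, gal_smul_algebraMap]
    have ht : σ • (γ' * γc) = γ' * γc := by
      have h2 : σ • γc = (η.1 : 𝓞 L) * γc := by
        refine mul_left_cancel₀ (gal_smul_ne_zero σ hγ) ?_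
        rw [hσN]
        conv_lhs => rw [← e]
        ring
      rw [smul_mul', h2]
      conv_rhs => rw [← e']
      ring
    obtain ⟨k, hk⟩ := exists_algebraMap_of_fixed hpow ht
    have hk0 : k ≠ 0 := by
      rintro rfl
      rw [map_zero] at hk
      have hγc0 : γc ≠ 0 := fun h0 => by
        rw [h0, mul_zero] at hγc
        exact hN0 (FaithfulSMul.algebraMap_injective (𝓞 K) (𝓞 L) (by rw [hγc, map_zero]))
      exact mul_ne_zero hγ' hγc0 hk.symm
    have hid : Ideal.span {k} * (c : Ideal (𝓞 K)) = Ideal.span {N} * (c' : Ideal (𝓞 K)) := by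
      apply map_algebraMap_injective (L := L)
      rw [Ideal.map_mul, Ideal.map_mul, Ideal.map_span, Ideal.map_span, Set.image_singleton,
        Set.image_singleton, hc, hc', Ideal.span_singleton_mul_span_singleton,
        Ideal.span_singleton_mul_span_singleton, hk, hγc]
      congr 2
      ring
    apply Subtype.ext
    rw [← hC, ← hC']
    exact mk0_eq_of_span_mul hk0 hN0 hid
  obtain ⟨f, hf⟩ := exists_hom_of_rel R hex hmul huniq
  have hker : f.ker ≤ (unitsDiff σ).range.subgroupOf (unitsNorm K L).ker := by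
    intro η hη
    obtain ⟨γ, c, hγ, e, hc, hC⟩ := hf η
    rw [show f η = 1 from hη, Subgroup.coe_one] at hC
    obtain ⟨⟨k, hk⟩⟩ := (ClassGroup.mk0_eq_one_iff c.2).1 hC
    rw [hk, Ideal.map_span, Set.image_singleton, Ideal.span_singleton_eq_span_singleton] at hc
    obtain ⟨ε, hε⟩ := hc
    have hk0 : algebraMap (𝓞 K) (𝓞 L) k ≠ 0 := fun h0 => hγ (by rw [← hε, h0, zero_mul])
    refine ⟨ε⁻¹, ?_⟩
    have h1 : η.1 * unitsGal σ ε = ε := by
      apply Units.ext
      refine mul_left_cancel₀ hk0 ?_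
      rw [Units.val_mul, coe_unitsGal, hε]
      conv_rhs => rw [← e, ← hε, smul_mul', gal_smul_algebraMap]
      ring
    rw [Subgroup.coe_subtype, unitsDiff_apply, map_inv, inv_div_inv]
    rw [div_eq_iff_eq_mul]
    exact h1.symm
  calc (unitsDiff σ).range.relIndex (unitsNorm K L).ker
      ≤ f.ker.index := Nat.le_of_dvd (by rw [Subgroup.index_ker]; exact Nat.card_pos)
          (Subgroup.index_dvd_of_le hker)
    _ = Nat.card f.range := Subgroup.index_ker f
    _ ≤ _ := Nat.card_le_card_of_injective _ Subtype.val_injective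

end Fermat.Agent.CFT
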