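/-
The first inequality of class field theory for a cyclic extension of prime degree `p` which is
unramified at every place: `p ≤ [Cl_K : N Cl_L]`; with equality the classes of norm one are the
`C^(σ-1)`.
-/
import Fermat.Agent.CFT.AmbiguousClasses
import Mathlib.NumberTheory.RamificationInertia.Unramified

set_option autoImplicit false

namespace Fermat.Agent.CFT

open scoped NumberField nonZeroDivisors Pointwise

variable (K L : Type*) [Field K] [NumberField K] [Field L] [NumberField L] [Algebra K L]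

/-- `J ↦ [N_{L/K} J]`, from nonzero ideals of `L` to the class group of `K`. -/
noncomputable def normClass : (Ideal (𝓞 L))⁰ →* ClassGroup (𝓞 K) :=
  ClassGroup.mk0.comp (relNormNZ K L)

/-- The subgroup `N_{L/K} Cl_L` of the class group of `K`. -/
noncomputable def normClassSubgroup : Subgroup (ClassGroup (𝓞 K)) :=
  Subgroup.closure (Set.range (normClass K L))

variable {K L}

theorem normClass_mem (J : (Ideal (𝓞 L))⁰) : normClass K L J ∈ normClassSubgroup K L :=
  Subgroup.subset_closure ⟨J, rfl⟩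

/-- A subgroup contains the norm subgroup as soon as it contains the norm classes of all nonzero
primes of `L`. -/
theorem normClassSubgroup_le_of_prime {H : Subgroup (ClassGroup (𝓞 K))}
    (h : ∀ P : (Ideal (𝓞 L))⁰, (P : Ideal (𝓞 L)).IsMaximal → normClass K L P ∈ H) :
    normClassSubgroup K L ≤ H := by
  rw [normClassSubgroup, Subgroup.closure_le]
  rintro _ ⟨⟨J, hJ⟩, rfl⟩
  have hJ0 : J ≠ 0 := mem_nonZeroDivisors_iff_ne_zero.1 hJ
  induction J using UniqueFactorizationMonoid.induction_on_prime with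
  | h₁ => exact absurd rfl hJ0
  | h₂ I hI =>
    have : (⟨I, hJ⟩ : (Ideal (𝓞 L))⁰) = 1 := Subtype.ext ((Ideal.isUnit_iff.1 hI).trans Ideal.one_eq_top.symm)
    rw [this, map_one]
    exact one_mem H
  | h₃ I P hI hP ih =>
    have hI' : I ∈ (Ideal (𝓞 L))⁰ := mem_nonZeroDivisors_iff_ne_zero.2 hI
    have hP' : P ∈ (Ideal (𝓞 L))⁰ := mem_nonZeroDivisors_iff_ne_zero.2 hP.ne_zero
    rw [show (⟨P * I, hJ⟩ : (Ideal (𝓞 L))⁰) = ⟨P, hP'⟩ * ⟨I, hI'⟩ from rfl, map_mul]
    exact mul_mem (h ⟨P, hP'⟩ ((Ideal.isPrime_of_prime hP).isMaximal hP.ne_zero)) (ih hI' hI)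

/-- A generator, the maps it induces on the class group of `L`, and the ambiguous class bound. -/
theorem exists_normMap_bound [IsGalois K L] [IsUnramifiedAtInfinitePlaces K L] {p : ℕ}
    (hp : p.Prime) (hdeg : Module.finrank K L = p)
    (hur : ∀ P : Ideal (𝓞 L), P.IsMaximal → P.ramificationIdx (𝓞 K) = 1) :
    ∃ (σ : Gal(L/K)) (gal : ClassGroup (𝓞 L) →* ClassGroup (𝓞 L))
      (nm : ClassGroup (𝓞 L) →* ClassGroup (𝓞 K)),
      (∀ J, gal (ClassGroup.mk0 J) = ClassGroup.mk0 (galNZ σ J)) ∧
      (∀ J, nm (ClassGroup.mk0 J) = normClass K L J) ∧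
      normClassSubgroup K L = nm.range ∧
      (gal / MonoidHom.id _).range ≤ nm.ker ∧
      Nat.card (gal / MonoidHom.id _).ker * p ≤ Nat.card (ClassGroup (𝓞 K)) := by
  classical
  obtain ⟨σ, hord, -, hpow⟩ := exists_generator (K := K) (L := L) hp hdeg
  obtain ⟨he, hH⟩ := units_index hp hdeg hord hpow
  obtain ⟨gal, hgal⟩ := exists_galMap (K := K) (L := L) σ
  obtain ⟨nm, hnm⟩ := exists_normMap (K := K) (L := L)
  have hA := card_ambiguous_le hord hpow hur he gal hgal
  have hk := relIndex_le_card_capitulation (K := K) (L := L) hord hpow hur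
  rw [hH] at hk
  set j := ClassGroup.extendedHom (𝓞 K) (𝓞 L)
  set φ := gal / MonoidHom.id (ClassGroup (𝓞 L))
  -- the norm kills `(σ - 1) Cl_L`
  have hle : φ.range ≤ nm.ker := by
    rintro _ ⟨C, rfl⟩
    obtain ⟨J, rfl⟩ := ClassGroup.mk0_surjective C
    show nm (gal (ClassGroup.mk0 J) / ClassGroup.mk0 J) = 1
    rw [map_div, hgal, hnm, hnm, div_eq_one]
    exact congrArg _ (Subtype.ext (Ideal.relNorm_smul (𝓞 K) σ (J : Ideal (𝓞 L))))
  have hrange : normClassSubgroup K L = nm.range := by
    refine le_antisymm ((Subgroup.closure_le _).2 ?_) ?_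
    · rintro _ ⟨J, rfl⟩
      exact ⟨ClassGroup.mk0 J, hnm J⟩
    · rintro _ ⟨C, rfl⟩
      obtain ⟨J, rfl⟩ := ClassGroup.mk0_surjective C
      rw [hnm]
      exact normClass_mem J
  have hh : Nat.card j.ker * Nat.card j.range = Nat.card (ClassGroup (𝓞 K)) := by
    rw [← Subgroup.index_ker, Subgroup.card_mul_index]
  refine ⟨σ, gal, nm, hgal, hnm, hrange, hle, ?_⟩
  calc Nat.card φ.ker * p ≤ Nat.card j.range * (unitsNorm K L).range.index * p :=
        Nat.mul_le_mul_right p hA
    _ = Nat.card j.range * ((unitsNorm K L).range.index * p) := mul_assoc _ _ _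
    _ ≤ Nat.card j.range * Nat.card j.ker := Nat.mul_le_mul_left _ hk
    _ = Nat.card (ClassGroup (𝓞 K)) := by rw [← hh, mul_comm]

/-- A finite group endomorphism has kernel and range of complementary orders. -/
theorem index_range_eq_card_ker {G : Type*} [Group G] [Finite G] (φ : G →* G) :
    φ.range.index = Nat.card φ.ker := by
  have h1 := φ.range.card_mul_index
  have h2 := φ.ker.card_mul_index
  rw [Subgroup.index_ker, ← h1, mul_comm (Nat.card φ.ker)] at h2
  exact (mul_left_cancel₀ Nat.card_pos.ne' h2).symm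

/-- **First inequality**: for a cyclic extension of prime degree `p`, unramified at all
places, the norm subgroup of the class group has index at least `p`. -/
theorem le_index_normClassSubgroup [IsGalois K L] [IsUnramifiedAtInfinitePlaces K L] {p : ℕ}
    (hp : p.Prime) (hdeg : Module.finrank K L = p)
    (hur : ∀ P : Ideal (𝓞 L), P.IsMaximal → P.ramificationIdx (𝓞 K) = 1) :
    p ≤ (normClassSubgroup K L).index := by
  classical
  obtain ⟨σ, gal, nm, -, -, hrange, hle, hb⟩ := exists_normMap_bound hp hdeg hur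
  set φ := gal / MonoidHom.id (ClassGroup (𝓞 L))
  have hNA : Nat.card (normClassSubgroup K L) ≤ Nat.card φ.ker := by
    rw [hrange, ← Subgroup.index_ker, ← index_range_eq_card_ker]
    exact Nat.le_of_dvd (by rw [index_range_eq_card_ker]; exact Nat.card_pos)
      (Subgroup.index_dvd_of_le hle)
  refine Nat.le_of_mul_le_mul_left ?_ (Nat.card_pos (α := normClassSubgroup K L))
  rw [Subgroup.card_mul_index]
  exact (Nat.mul_le_mul_right p hNA).trans hb

/-- If the norm subgroup has index at most `p`, the classes of norm one are the `C^(σ-1)`. -/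
theorem exists_normMap_ker_eq [IsGalois K L] [IsUnramifiedAtInfinitePlaces K L] {p : ℕ}
    (hp : p.Prime) (hdeg : Module.finrank K L = p)
    (hur : ∀ P : Ideal (𝓞 L), P.IsMaximal → P.ramificationIdx (𝓞 K) = 1)
    (hidx : (normClassSubgroup K L).index ≤ p) :
    ∃ (σ : Gal(L/K)) (gal : ClassGroup (𝓞 L) →* ClassGroup (𝓞 L))
      (nm : ClassGroup (𝓞 L) →* ClassGroup (𝓞 K)),
      (∀ J, gal (ClassGroup.mk0 J) = ClassGroup.mk0 (galNZ σ J)) ∧
      (∀ J, nm (ClassGroup.mk0 J) = normClass K L J) ∧
      nm.ker = (gal / MonoidHom.id _).range := by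
  classical
  obtain ⟨σ, gal, nm, hgal, hnm, hrange, hle, hb⟩ := exists_normMap_bound hp hdeg hur
  refine ⟨σ, gal, nm, hgal, hnm, (Subgroup.eq_of_le_of_card_ge hle ?_).symm⟩
  set φ := gal / MonoidHom.id (ClassGroup (𝓞 L))
  rw [hrange] at hidx
  have h1 : Nat.card φ.ker ≤ Nat.card nm.range := by
    refine Nat.le_of_mul_le_mul_right (hb.trans ?_) hp.pos
    rw [← Subgroup.card_mul_index nm.range]
    exact Nat.mul_le_mul_left _ hidx
  have h2 := nm.ker.card_mul_index
  have h3 := φ.ker.card_mul_index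
  rw [Subgroup.index_ker] at h2 h3
  refine Nat.le_of_mul_le_mul_right ?_ (Nat.card_pos (α := nm.range))
  calc Nat.card nm.ker * Nat.card nm.range = Nat.card φ.ker * Nat.card φ.range := h2.trans h3.symm
    _ ≤ Nat.card nm.range * Nat.card φ.range := Nat.mul_le_mul_right _ h1
    _ = Nat.card φ.range * Nat.card nm.range := mul_comm _ _

/-- The first inequality, with `Algebra.IsUnramifiedAt` as hypothesis. -/
theorem le_index_normClassSubgroup_of_isUnramifiedAt [IsGalois K L]
    [IsUnramifiedAtInfinitePlaces K L] {p : ℕ} (hp : p.Prime) (hdeg : Module.finrank K L = p)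
    (hur : ∀ (P : Ideal (𝓞 L)) (_ : P.IsMaximal), Algebra.IsUnramifiedAt (𝓞 K) P) :
    p ≤ (normClassSubgroup K L).index :=
  le_index_normClassSubgroup hp hdeg fun P hP =>
    haveI := hP
    haveI := hur P hP
    Ideal.ramificationIdx_eq_one_of_isUnramifiedAt

end Fermat.Agent.CFT
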