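/-
The field cut out by an everywhere unramified character of order `p` of `Gal(ℚ̄/K)`, and the
character of the class group of `K` which the first inequality attaches to it.
-/
import Mathlib.FieldTheory.Galois.Infinite
import Mathlib.LinearAlgebra.Dual.Lemmas
import Mathlib.Algebra.Module.ZMod
import Mathlib.NumberTheory.RamificationInertia.Galois
import Mathlib.FieldTheory.Galois.IsGaloisGroup
import Mathlib.RingTheory.IsGaloisGroup.Basic
import Mathlib.FieldTheory.Finite.Basic
import Fermat.Agent.CFT.CrossField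
import Fermat.Agent.CFT.FirstInequality

set_option autoImplicit false

open scoped NumberField nonZeroDivisors Pointwise

namespace Fermat.Agent.CFT

noncomputable section

local notation "Qb" => AlgebraicClosure ℚ
local notation "GQ" => (AlgebraicClosure ℚ ≃ₐ[ℚ] AlgebraicClosure ℚ)

/-- Every prime of a number field inside `ℚ̄` lies below a place of `ℚ̄`. -/
theorem exists_place_over (E : IntermediateField ℚ Qb) [NumberField E] (P : Ideal (𝓞 E))
    (hP : P.IsMaximal) :
    ∃ (ℓ : ℕ) (A : ValuationSubring Qb), ℓ.Prime ∧ A.LiesOverPrime ℓ ∧ placeIdeal E A = P := by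
  obtain ⟨ℓ, n, -, hℓP, hℓ, -⟩ := Ideal.exists_prime_and_absNorm_eq_pow P
  let φ : 𝓞 E →+* Qb := E.val.toRingHom.comp (algebraMap (𝓞 E) E)
  have hφ : Function.Injective φ := fun a b h =>
    FaithfulSMul.algebraMap_injective (𝓞 E) E (Subtype.ext h)
  let e : 𝓞 E ≃+* φ.range := RingEquiv.ofBijective φ.rangeRestrict
    ⟨fun a b (h : φ.rangeRestrict a = φ.rangeRestrict b) =>
      hφ (congrArg (fun u : φ.range => (u : Qb)) h), φ.rangeRestrict_surjective⟩
  let I : Ideal φ.range := Ideal.comap (e.symm : φ.range →+* 𝓞 E) P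
  have hI : I ≠ ⊤ := fun h => hP.ne_top (Ideal.comap_eq_top_iff.mp h)
  obtain ⟨A, -, hA⟩ := Ideal.image_subset_nonunits_valuationSubring I hI
  have hPA : ∀ c ∈ P, φ c ∈ A.nonunits := fun c hc =>
    hA ⟨e c, by
      show e.symm (e c) ∈ P
      rwa [RingEquiv.symm_apply_apply], rfl⟩
  refine ⟨ℓ, A, hℓ, ?_, (hP.eq_of_le (placeIdeal_isPrime E A).ne_top fun c hc =>
    (mem_placeIdeal E).2 (hPA c hc)).symm⟩
  have := hPA _ hℓP
  rwa [map_natCast] at this

variable {p : ℕ} [hp : Fact p.Prime] {K : IntermediateField ℚ (AlgebraicClosure ℚ)}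
  {a : (AlgebraicClosure ℚ ≃ₐ[ℚ] AlgebraicClosure ℚ) → ZMod p}

/-- The kernel of the character. -/
def charKer (ha : UnramifiedChar p K a) : Subgroup GQ where
  carrier := {h | h ∈ K.fixingSubgroup ∧ a h = 0}
  one_mem' := ⟨one_mem _, ha.map_one⟩
  mul_mem' := fun {x y} hx hy =>
    ⟨mul_mem hx.1 hy.1, by rw [ha.map_mul _ _ hx.1 hy.1, hx.2, hy.2, add_zero]⟩
  inv_mem' := fun {x} hx => ⟨inv_mem hx.1, by rw [ha.map_inv hx.1, hx.2, neg_zero]⟩

theorem mem_charKer {ha : UnramifiedChar p K a} {h : GQ} :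
    h ∈ charKer ha ↔ h ∈ K.fixingSubgroup ∧ a h = 0 := Iff.rfl

theorem isOpen_charKer [FiniteDimensional ℚ K] (ha : UnramifiedChar p K a) :
    IsOpen (charKer ha : Set GQ) := by
  obtain ⟨L₀, hL₀f, hL₀⟩ := ha.exists_level
  refine Subgroup.isOpen_mono (fun σ hσ => ?_)
    (K ⊔ L₀ : IntermediateField ℚ Qb).fixingSubgroup_isOpen
  have hfix := (IntermediateField.mem_fixingSubgroup_iff _ σ).1 hσ
  have hK : σ ∈ K.fixingSubgroup :=
    (IntermediateField.mem_fixingSubgroup_iff _ σ).2 fun x hx =>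
      hfix x ((le_sup_left : K ≤ K ⊔ L₀) hx)
  exact mem_charKer.2 ⟨hK, hL₀ σ hK fun x hx => hfix x ((le_sup_right : L₀ ≤ K ⊔ L₀) hx)⟩

/-- An element of `Gal(L/K)` for the kernel field `L`, lifted to `ℚ̄`. -/
theorem exists_lift_aut {L : IntermediateField ℚ Qb} [Algebra K L]
    (htower : ∀ x : K, ((algebraMap K L x : L) : Qb) = (x : Qb)) (γ : L ≃ₐ[K] L) :
    ∃ g : GQ, g ∈ K.fixingSubgroup ∧ ∀ y : L, g (y : Qb) = ((γ y : L) : Qb) := by
  have hKL : IsScalarTower K L Qb := IsScalarTower.of_algebraMap_eq fun x => (htower x).symm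
  exact exists_embedding_ext htower ((IsScalarTower.toAlgHom K L Qb).comp γ.toAlgHom)

/-- The kernel field is a Galois extension of degree `p`, unramified at all finite primes. -/
theorem charField_props [FiniteDimensional ℚ K] [NumberField K] (ha : UnramifiedChar p K a)
    (hne : ∃ σ ∈ K.fixingSubgroup, a σ ≠ 0)
    (L : IntermediateField ℚ Qb) [NumberField L] [Algebra K L]
    (hL : ∀ g : GQ, g ∈ charKer ha ↔ ∀ x ∈ L, g x = x)
    (htower : ∀ x : K, ((algebraMap K L x : L) : Qb) = (x : Qb)) :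
    IsGalois K L ∧ Module.finrank K L = p ∧
      ∀ P : Ideal (𝓞 L), P.IsMaximal → P.ramificationIdx (𝓞 K) = 1 := by
  classical
  have hKL : IsScalarTower K L Qb := IsScalarTower.of_algebraMap_eq fun x => (htower x).symm
  have hQKL : IsScalarTower ℚ K L := IsScalarTower.of_algebraMap_eq' (Subsingleton.elim _ _)
  have : FiniteDimensional K L := Module.Finite.of_restrictScalars_finite ℚ K L
  obtain ⟨g₀, hg₀K, hg₀⟩ := hne
  choose ext hextK hext using fun ν : L →ₐ[K] Qb => exists_embedding_ext htower ν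
  have hrank : Module.finrank K L = p := by
    rw [← AlgHom.card K L Qb]
    refine (Fintype.card_congr (Equiv.ofBijective (fun ν => a (ext ν))
      ⟨fun ν ν' h => ?_, fun i => ?_⟩)).trans (ZMod.card p)
    · refine AlgHom.ext fun y => ?_
      have hk : (ext ν')⁻¹ * ext ν ∈ charKer ha :=
        mem_charKer.2 ⟨mul_mem (inv_mem (hextK ν')) (hextK ν), by
          rw [ha.map_mul _ _ (inv_mem (hextK ν')) (hextK ν), ha.map_inv (hextK ν')]
          simp only at h
          rw [h, neg_add_cancel]⟩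
      have h2 := (hL _).1 hk _ y.2
      rw [← hext ν y, ← hext ν' y]
      calc ext ν (y : Qb) = (ext ν' * ((ext ν')⁻¹ * ext ν)) (y : Qb) := by rw [mul_inv_cancel_left]
        _ = ext ν' (y : Qb) := by rw [AlgEquiv.mul_apply, h2]
    · set g := g₀ ^ (i * (a g₀)⁻¹).val with hg
      have hgK : g ∈ K.fixingSubgroup := pow_mem hg₀K _
      have hag : a g = i := by
        rw [hg, ha.map_pow hg₀K, ZMod.natCast_zmod_val, inv_mul_cancel_right₀ hg₀]
      let ν : L →ₐ[K] Qb :=
        { toRingHom := (g : Qb →+* Qb).comp (algebraMap L Qb)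
          commutes' := fun x => by
            show g ((algebraMap K L x : L) : Qb) = (x : Qb)
            rw [htower]
            exact (IntermediateField.mem_fixingSubgroup_iff _ _).1 hgK _ x.2 }
      refine ⟨ν, ?_⟩
      have hk : g⁻¹ * ext ν ∈ charKer ha := (hL _).2 fun y hy => by
        rw [AlgEquiv.mul_apply, hext ν ⟨y, hy⟩]
        exact g.symm_apply_apply y
      obtain ⟨-, hk2⟩ := mem_charKer.1 hk
      rw [ha.map_mul _ _ (inv_mem hgK) (hextK ν), ha.map_inv hgK, hag, neg_add_eq_zero] at hk2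
      exact hk2.symm
  -- the image of every embedding is `L`
  have himage : ∀ (ν : L →ₐ[K] Qb) (y : L), ν y ∈ L := by
    intro ν y
    have hfix : ∀ g ∈ charKer ha, g (ν y) = ν y := by
      intro g hg
      obtain ⟨hgK, hga⟩ := mem_charKer.1 hg
      rw [← hext ν y]
      have hk : (ext ν)⁻¹ * g * ext ν ∈ charKer ha :=
        mem_charKer.2 ⟨mul_mem (mul_mem (inv_mem (hextK ν)) hgK) (hextK ν), by
          rw [ha.map_mul _ _ (mul_mem (inv_mem (hextK ν)) hgK) (hextK ν),
            ha.map_mul _ _ (inv_mem (hextK ν)) hgK, ha.map_inv (hextK ν), hga, add_zero,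
            neg_add_cancel]⟩
      have h2 := (hL _).1 hk _ y.2
      calc g (ext ν (y : Qb)) = (ext ν * ((ext ν)⁻¹ * g * ext ν)) (y : Qb) := by
            rw [mul_assoc, mul_inv_cancel_left, AlgEquiv.mul_apply]
        _ = ext ν (y : Qb) := by rw [AlgEquiv.mul_apply, h2]
    have hmem : ν y ∈ IntermediateField.fixedField L.fixingSubgroup := by
      rw [IntermediateField.mem_fixedField_iff]
      exact fun g hg => hfix g ((hL g).2 ((IntermediateField.mem_fixingSubgroup_iff _ _).1 hg))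
    rwa [InfiniteGalois.fixedField_fixingSubgroup] at hmem
  have hgal : IsGalois K L := by
    refine IsGalois.of_card_aut_eq_finrank K L ?_
    let aut : (L →ₐ[K] Qb) → (L ≃ₐ[K] L) := fun ν =>
      AlgEquiv.ofBijective
        ({ toFun := fun y => ⟨ν y, himage ν y⟩
           map_one' := Subtype.ext (_root_.map_one ν)
           map_mul' := fun _ _ => Subtype.ext (_root_.map_mul ν _ _)
           map_zero' := Subtype.ext (_root_.map_zero ν)
           map_add' := fun _ _ => Subtype.ext (_root_.map_add ν _ _)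
           commutes' := fun x => Subtype.ext ((ν.commutes x).trans (htower x).symm) } : L →ₐ[K] L)
        (Algebra.IsAlgebraic.algHom_bijective _)
    have hautinj : Function.Injective aut := fun ν ν' h => AlgHom.ext fun y =>
      congrArg (fun z : L => (z : Qb)) (DFunLike.congr_fun h y)
    rw [Nat.card_eq_fintype_card]
    refine le_antisymm AlgEquiv.card_le ?_
    rw [← AlgHom.card K L Qb]
    exact Fintype.card_le_of_injective aut hautinj
  refine ⟨hgal, hrank, fun P hP => ?_⟩
  have := hgal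
  obtain ⟨ℓ, A, hℓ, hA, hAP⟩ := exists_place_over L P hP
  have hbot : P.inertia Gal(L/K) = ⊥ := by
    rw [eq_bot_iff]
    intro γ hγ
    rw [Subgroup.mem_bot]
    obtain ⟨g, hgK, hg⟩ := exists_lift_aut htower γ
    obtain ⟨τ, hτ, hτg⟩ := MW.exists_mem_inertia_eqOn A L g fun x hx hxi => by
      have hint : IsIntegral ℤ (⟨x, hx⟩ : L) :=
        (isIntegral_algHom_iff (L.val.restrictScalars ℤ) L.val.injective).1 hxi
      have h1 := hγ (⟨⟨x, hx⟩, hint⟩ : 𝓞 L)
      rw [Submodule.mem_toAddSubgroup, ← hAP, mem_placeIdeal] at h1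
      rw [hg ⟨x, hx⟩]
      exact h1
    have hτK : τ ∈ K.fixingSubgroup := (IntermediateField.mem_fixingSubgroup_iff _ _).2 fun x hx => by
      have h1 := hτg _ (algebraMap K L ⟨x, hx⟩).2
      rw [htower] at h1
      exact h1.trans ((IntermediateField.mem_fixingSubgroup_iff _ _).1 hgK x hx)
    have hk : τ ∈ charKer ha := mem_charKer.2 ⟨hτK, ha.unramified ℓ hℓ A hA τ hτ hτK⟩
    refine AlgEquiv.ext fun y => Subtype.ext ?_
    rw [AlgEquiv.one_apply, ← hg y, ← hτg y y.2]
    exact (hL τ).1 hk y y.2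
  let _ := hP.isPrime
  have hP0 : P ≠ ⊥ := fun h => by
    have h1 := natCast_mem_placeIdeal L hA
    rw [hAP, h, Ideal.mem_bot, Nat.cast_eq_zero] at h1
    exact hℓ.ne_zero h1
  set Q := P.under (𝓞 K) with hQ
  have : P.LiesOver Q := ⟨rfl⟩
  have hQ0 : Q ≠ ⊥ := fun h => hP0 (Ideal.eq_bot_of_comap_eq_bot h)
  have : Q.IsMaximal := (Ideal.IsPrime.under (𝓞 K) P).isMaximal hQ0
  have : Finite (𝓞 K ⧸ Q) := Ideal.finiteQuotientOfFreeOfNeBot _ hQ0
  have : Finite Q.ResidueField :=
    Finite.of_surjective _ (Ideal.bijective_algebraMap_quotient_residueField Q).2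
  have : IsGaloisGroup Gal(L/K) (𝓞 K) (𝓞 L) := IsGaloisGroup.of_isFractionRing _ _ _ K L
  have hcard := Ideal.card_inertia_eq_ramificationIdxIn (G := Gal(L/K)) Q P
  rw [hbot, Subgroup.card_bot, Ideal.ramificationIdxIn_eq_ramificationIdx Q P Gal(L/K)] at hcard
  exact hcard.symm

/-- A nonzero vector is detected by a coordinate. -/
theorem exists_coord_ne_zero {V : Type*} [AddCommGroup V] {p : ℕ} [Fact p.Prime]
    [Module (ZMod p) V] {v : V} (hv : v ≠ 0) : ∃ d : V →+ ZMod p, d v ≠ 0 := by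
  let b := Module.Basis.ofVectorSpace (ZMod p) V
  obtain ⟨i, hi⟩ : ∃ i, b.coord i v ≠ 0 := by
    by_contra hall
    push Not at hall
    exact hv (b.forall_coord_eq_zero_iff.1 hall)
  exact ⟨(b.coord i).toAddMonoidHom, hi⟩

/-- In a group killed by `p`, a nonzero element is detected by a map to `ZMod p`. -/
theorem exists_addHom_ne_zero {V : Type*} [AddCommGroup V] {p : ℕ} [Fact p.Prime]
    (h : ∀ x : V, p • x = 0) {v : V} (hv : v ≠ 0) : ∃ d : V →+ ZMod p, d v ≠ 0 := by
  let _ : Module (ZMod p) V := AddCommGroup.zmodModule h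
  exact exists_coord_ne_zero hv

/-- A subgroup containing all `p`-th powers is separated from any outside element by a character
of order `p`. -/
theorem exists_hom_to_zmod {G : Type*} [CommGroup G] {p : ℕ} [Fact p.Prime] (H : Subgroup G)
    (hpow : ∀ x : G, x ^ p ∈ H) {c : G} (hc : c ∉ H) :
    ∃ f : G →* Multiplicative (ZMod p), (∀ x ∈ H, addVal f x = 0) ∧ addVal f c ≠ 0 := by
  classical
  obtain ⟨d, hd⟩ := exists_addHom_ne_zero (V := Additive (G ⧸ H)) (p := p) (fun x => by
    obtain ⟨y, hy⟩ := QuotientGroup.mk_surjective x.toMul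
    apply Additive.toMul.injective
    rw [toMul_nsmul, toMul_zero, ← hy, ← QuotientGroup.mk_pow, QuotientGroup.eq_one_iff]
    exact hpow y) (v := Additive.ofMul (QuotientGroup.mk c : G ⧸ H)) (by
    rw [Ne, ofMul_eq_zero, QuotientGroup.eq_one_iff]
    exact hc)
  refine ⟨(AddMonoidHom.toMultiplicativeRight d).comp (QuotientGroup.mk' H),
    fun x hx => ?_, hd⟩
  show d (Additive.ofMul (QuotientGroup.mk x : G ⧸ H)) = 0
  rw [(QuotientGroup.eq_one_iff x).2 hx, ofMul_one, map_zero]

/-- The first inequality gives a nonzero character of the class group which kills the primes of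
degree one on whose Frobenius elements `a` vanishes. -/
theorem exists_classChar_vanishing [FiniteDimensional ℚ K] [NumberField K]
    (hinf : p ≠ 2 ∨ NumberField.IsTotallyComplex K)
    (ha : UnramifiedChar p K a) (hne : ∃ σ ∈ K.fixingSubgroup, a σ ≠ 0) :
    ∃ f : ClassGroup (𝓞 K) →* Multiplicative (ZMod p), (∃ C, addVal f C ≠ 0) ∧
      ∀ (ℓ : ℕ) (hℓ : ℓ.Prime) (A : ValuationSubring Qb) (hA : A.LiesOverPrime ℓ) (τ : GQ),
        A.IsFrobeniusAt τ ℓ → τ ∈ K.fixingSubgroup → a τ = 0 →
          addVal f (ClassGroup.mk0 (placeNZ K hℓ hA)) = 0 := by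
  classical
  have hopen := isOpen_charKer ha
  set L := IntermediateField.fixedField (charKer ha) with hLdef
  have : NumberField L := numberField_fixedField hopen
  have hKL : K ≤ L := fun x hx =>
    (IntermediateField.mem_fixedField_iff _ _).2 fun g hg =>
      (IntermediateField.mem_fixingSubgroup_iff _ g).1 (mem_charKer.1 hg).1 x hx
  let _ : Algebra K L := (IntermediateField.inclusion hKL).toRingHom.toAlgebra
  have hL : ∀ g : GQ, g ∈ charKer ha ↔ ∀ x ∈ L, g x = x :=
    fun g => ⟨fix_of_mem_fixedField, mem_of_fix_fixedField hopen⟩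
  have htower : ∀ x : K, ((algebraMap K L x : L) : Qb) = (x : Qb) := fun _ => rfl
  obtain ⟨hgal, hrank, hur⟩ := charField_props ha hne L hL htower
  have := hgal
  have : IsUnramifiedAtInfinitePlaces K L := isUnramifiedAtInfinitePlaces_of_or
    (hinf.imp_left fun h => hrank.symm ▸ hp.out.odd_of_ne_two h)
  have hidx := le_index_normClassSubgroup (K := K) (L := L) hp.out hrank hur
  set H := normClassSubgroup K L with hH
  have hpow : ∀ C : ClassGroup (𝓞 K), C ^ p ∈ H := by
    intro C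
    obtain ⟨J, rfl⟩ := ClassGroup.mk0_surjective C
    have hJ : Ideal.map (algebraMap (𝓞 K) (𝓞 L)) (J : Ideal (𝓞 K)) ∈ (Ideal (𝓞 L))⁰ :=
      mem_nonZeroDivisors_iff_ne_zero.2 fun h => nonZeroDivisors.ne_zero J.2
        ((Ideal.map_eq_bot_iff_of_injective (FaithfulSMul.algebraMap_injective _ _)).1 h)
    have h := normClass_mem (K := K) (⟨_, hJ⟩ : (Ideal (𝓞 L))⁰)
    have e : relNormNZ K L ⟨_, hJ⟩ = J ^ p := Subtype.ext (by
      rw [coe_relNormNZ, SubmonoidClass.coe_pow, Ideal.relNorm_algebraMap,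
        ← IsFractionRing.finrank_eq (𝓞 K) K (𝓞 L) L, hrank])
    rw [normClass, MonoidHom.comp_apply, e, map_pow] at h
    exact h
  obtain ⟨C₀, hC₀⟩ : ∃ C₀, C₀ ∉ H := by
    by_contra hall
    push Not at hall
    rw [Subgroup.index_eq_one.2 ((Subgroup.eq_top_iff' H).2 hall)] at hidx
    exact absurd hidx (not_le.2 hp.out.one_lt)
  obtain ⟨f, hfH, hfC⟩ := exists_hom_to_zmod H hpow hC₀
  refine ⟨f, ⟨C₀, hfC⟩, fun ℓ hℓ A hA τ hτ hτK hτa => ?_⟩
  have hfix : ∀ x ∈ L, τ x = x := (hL τ).1 (mem_charKer.2 ⟨hτK, hτa⟩)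
  have e : relNormNZ K L (placeNZ L hℓ hA) = placeNZ K hℓ hA :=
    Subtype.ext (relNorm_placeIdeal K L htower hℓ hA hτ hfix)
  refine hfH _ ?_
  rw [← e]
  exact normClass_mem (K := K) (placeNZ L hℓ hA)

end

end Fermat.Agent.CFT
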