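/-
Artin reciprocity for everywhere unramified characters of prime power order `n`, the crossing
step: a character of the class group which kills the primes of degree one killed by `a` is, at
primes of degree one, a multiple of `a` at the Frobenius elements.
-/
import Fermat.Agent.CFT.UnramifiedField
import Fermat.Agent.CFT.AuxChar
import Fermat.Agent.CFT.RamifiedPrimes

set_option autoImplicit false

open scoped NumberField nonZeroDivisors Pointwise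
open IsDedekindDomain

namespace Fermat.Agent.CFT

noncomputable section

local notation "Qb" => AlgebraicClosure ℚ
local notation "GQ" => (AlgebraicClosure ℚ ≃ₐ[ℚ] AlgebraicClosure ℚ)

variable {p k n : ℕ} [hp : Fact p.Prime] [NeZero n]
  {K : IntermediateField ℚ (AlgebraicClosure ℚ)}
  {a : (AlgebraicClosure ℚ ≃ₐ[ℚ] AlgebraicClosure ℚ) → ZMod n}

omit hp in
theorem UnramifiedChar.eq_of_agree (ha : UnramifiedChar n K a) {L₀ : IntermediateField ℚ Qb}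
    (hL₀ : ∀ σ, σ ∈ K.fixingSubgroup → (∀ x ∈ L₀, σ x = x) → a σ = 0)
    {σ σ' : GQ} (hσ : σ ∈ K.fixingSubgroup) (hσ' : σ' ∈ K.fixingSubgroup)
    (h : ∀ x ∈ L₀, σ x = σ' x) : a σ = a σ' := by
  have h1 := hL₀ (σ'⁻¹ * σ) (mul_mem (inv_mem hσ') hσ) fun x hx => by
    rw [AlgEquiv.mul_apply, h x hx]
    exact σ'.symm_apply_apply x
  rw [ha.map_mul _ _ (inv_mem hσ') hσ, ha.map_inv hσ', neg_add_eq_zero] at h1
  exact h1.symm

omit hp [NeZero n] in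
/-- An additive image of an unramified character is one. -/
theorem UnramifiedChar.map_addHom (ha : UnramifiedChar n K a) {m : ℕ} (r : ZMod n →+ ZMod m) :
    UnramifiedChar m K (fun g => r (a g)) := by
  refine ⟨fun σ τ hσ hτ => by simp only [ha.map_mul σ τ hσ hτ, map_add], ?_,
    fun ℓ hℓ A hA σ hσ hσK => by simp only [ha.unramified ℓ hℓ A hA σ hσ hσK, map_zero]⟩
  obtain ⟨L₀, hf, hL⟩ := ha.exists_level
  exact ⟨L₀, hf, fun σ hσ h => by simp only [hL σ hσ h, map_zero]⟩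

omit hp [NeZero n] in
theorem IsModChar.chi_eq_of_agree {q : ℕ} [Fact q.Prime] {ψ : ZMod q → ZMod n}
    {L : IntermediateField ℚ Qb} (hL : ∀ σ : GQ, (∀ x ∈ L, σ x = x) → Datum.chiMod q σ = 1)
    {σ σ' : GQ} (h : ∀ x ∈ L, σ x = σ' x) :
    ψ (Datum.chiMod q σ) = ψ (Datum.chiMod q σ') := by
  congr 1
  have h1 := hL (σ'⁻¹ * σ) fun x hx => by
    rw [AlgEquiv.mul_apply, h x hx]
    exact σ'.symm_apply_apply x
  calc Datum.chiMod q σ = Datum.chiMod q (σ' * (σ'⁻¹ * σ)) := by rw [mul_inv_cancel_left]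
    _ = Datum.chiMod q σ' := by rw [map_mul, h1, mul_one]

theorem isUnit_or_exists_mul (hn : n = p ^ (k + 1)) (x : ZMod n) :
    IsUnit x ∨ ∃ y : ZMod n, x = (p : ZMod n) * y := by
  by_cases h : p ∣ x.val
  · obtain ⟨r, hr⟩ := h
    exact Or.inr ⟨r, by rw [← Nat.cast_mul, ← hr, ZMod.natCast_zmod_val]⟩
  · left
    rw [← ZMod.natCast_zmod_val x, ZMod.isUnit_iff_coprime]
    exact hn.symm ▸ (((Nat.Prime.coprime_iff_not_dvd hp.out).2 h).symm.pow_right (k + 1))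

/-- A Frobenius element common to the crossing groups at two auxiliary primes, on which `a` does
not vanish. -/
theorem exists_common_frobenius [FiniteDimensional ℚ K] (ha : UnramifiedChar n K a)
    (hn : n = p ^ (k + 1)) (hsurj : ∃ σ ∈ K.fixingSubgroup, IsUnit (a σ)) {q : ℕ} [Fact q.Prime] {ψ : ZMod q → ZMod n}
    (hψ : IsModChar n q ψ) {t : ZMod q} (ht : t ≠ 0) (hψt : IsUnit (ψ t))
    {q₀ : ℕ} [Fact q₀.Prime] {ψ₀ : ZMod q₀ → ZMod n}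
    (hψ₀ : IsModChar n q₀ ψ₀) {t₀ : ZMod q₀} (ht₀ : t₀ ≠ 0) (hψ₀t : IsUnit (ψ₀ t₀)) (hqq : q ≠ q₀)
    (hqK : ∀ A : ValuationSubring Qb, A.LiesOverPrime q →
      A.inertiaSubgroupIn ℚ ≤ K.fixingSubgroup)
    (hq₀K : ∀ A : ValuationSubring Qb, A.LiesOverPrime q₀ →
      A.inertiaSubgroupIn ℚ ≤ K.fixingSubgroup) :
    ∃ ℓ : ℕ, ℓ.Prime ∧ ℓ ≠ q ∧ ℓ ≠ q₀ ∧ ∃ A : ValuationSubring Qb, A.LiesOverPrime ℓ ∧
      ∃ τ : GQ, A.IsFrobeniusAt τ ℓ ∧ τ ∈ K.fixingSubgroup ∧ IsUnit (a τ) ∧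
        a τ = ψ (ℓ : ZMod q) ∧ a τ = ψ₀ (ℓ : ZMod q₀) := by
  classical
  have hq : q.Prime := Fact.out
  have hq₀ : q₀.Prime := Fact.out
  obtain ⟨A, hA⟩ := Galois.exists_liesOverPrime hq
  obtain ⟨σ, hσ, hσψ⟩ := exists_inertia_modChar_pow hn hψ ht hψt hA
  obtain ⟨A₀, hA₀⟩ := Galois.exists_liesOverPrime hq₀
  obtain ⟨σ₀, hσ₀, hσ₀ψ⟩ := exists_inertia_modChar_pow hn hψ₀ ht₀ hψ₀t hA₀
  have hσK := hqK A hA hσ
  have hσ₀K := hq₀K A₀ hA₀ hσ₀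
  have hσ0 : ψ₀ (Datum.chiMod q₀ σ) = 0 := by
    rw [Datum.chiMod_inertia q₀ hA hσ ((Nat.coprime_primes hq hq₀).2 hqq), hψ₀.map_one]
  have hσ₀0 : ψ (Datum.chiMod q σ₀) = 0 := by
    rw [Datum.chiMod_inertia q hA₀ hσ₀ ((Nat.coprime_primes hq₀ hq).2 hqq.symm), hψ.map_one]
  obtain ⟨g₀, hg₀K, hg₀⟩ := hsurj
  obtain ⟨u, hu⟩ := hg₀
  set g₁ := g₀ ^ ((u⁻¹ : (ZMod n)ˣ) : ZMod n).val with hg₁
  have hg₁K : g₁ ∈ K.fixingSubgroup := pow_mem hg₀K _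
  have hg₁a : a g₁ = 1 := by
    rw [hg₁, ha.map_pow hg₀K, ZMod.natCast_zmod_val, ← hu, Units.inv_mul]
  set g := g₁ * σ ^ (1 - ψ (Datum.chiMod q g₁)).val * σ₀ ^ (1 - ψ₀ (Datum.chiMod q₀ g₁)).val
    with hg
  have hgK : g ∈ K.fixingSubgroup := mul_mem (mul_mem hg₁K (pow_mem hσK _)) (pow_mem hσ₀K _)
  have hga : a g = 1 := by
    rw [hg, ha.map_mul _ _ (mul_mem hg₁K (pow_mem hσK _)) (pow_mem hσ₀K _),
      ha.map_mul _ _ hg₁K (pow_mem hσK _), ha.map_pow hσK, ha.map_pow hσ₀K, hg₁a,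
      ha.unramified q hq A hA σ hσ hσK, ha.unramified q₀ hq₀ A₀ hA₀ σ₀ hσ₀ hσ₀K]
    ring
  have hgψ : ψ (Datum.chiMod q g) = 1 := by
    rw [hg, hψ.chi_mul, hψ.chi_mul, hψ.chi_pow σ, hψ.chi_pow σ₀, hσψ, hσ₀0, ZMod.natCast_zmod_val]
    ring
  have hgψ₀ : ψ₀ (Datum.chiMod q₀ g) = 1 := by
    rw [hg, hψ₀.chi_mul, hψ₀.chi_mul, hψ₀.chi_pow σ, hψ₀.chi_pow σ₀, hσ₀ψ, hσ0,
      ZMod.natCast_zmod_val, ZMod.natCast_zmod_val]
    simp
  obtain ⟨L₀, hL₀f, hL₀⟩ := ha.exists_level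
  obtain ⟨Lq, hLqf, hLq⟩ := Datum.exists_level_chiMod q
  obtain ⟨Lq₀, hLq₀f, hLq₀⟩ := Datum.exists_level_chiMod q₀
  obtain ⟨ℓ, hℓ, hℓS, B, hB, τ, hτ, hτK, -, ⟨j, hj⟩, ⟨j', hj'⟩⟩ :=
    Density.exists_frobenius_pow_over K (L₀ ⊔ (Lq ⊔ Lq₀)) g
      ((IntermediateField.mem_fixingSubgroup_iff _ g).1 hgK) {q, q₀}
  simp only [Finset.mem_insert, Finset.mem_singleton, not_or] at hℓS
  have hτK' : τ ∈ K.fixingSubgroup := (IntermediateField.mem_fixingSubgroup_iff _ τ).2 hτK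
  have e0 : L₀ ≤ L₀ ⊔ (Lq ⊔ Lq₀) := le_sup_left
  have e1 : Lq ≤ L₀ ⊔ (Lq ⊔ Lq₀) := le_trans le_sup_left le_sup_right
  have e2 : Lq₀ ≤ L₀ ⊔ (Lq ⊔ Lq₀) := le_trans le_sup_right le_sup_right
  have haτ : a τ = j' := by
    rw [ha.eq_of_agree hL₀ hτK' (pow_mem hgK j') fun x hx => hj' x (e0 hx), ha.map_pow hgK, hga,
      mul_one]
  have hψτ : ψ (ℓ : ZMod q) = j' := by
    rw [← Datum.chiMod_frobenius q hB hτ ((Nat.coprime_primes hℓ hq).2 hℓS.1),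
      IsModChar.chi_eq_of_agree (ψ := ψ) hLq (fun x hx => hj' x (e1 hx)), hψ.chi_pow, hgψ, mul_one]
  have hψ₀τ : ψ₀ (ℓ : ZMod q₀) = j' := by
    rw [← Datum.chiMod_frobenius q₀ hB hτ ((Nat.coprime_primes hℓ hq₀).2 hℓS.2),
      IsModChar.chi_eq_of_agree (ψ := ψ₀) hLq₀ (fun x hx => hj' x (e2 hx)), hψ₀.chi_pow, hgψ₀,
      mul_one]
  refine ⟨ℓ, hℓ, hℓS.1, hℓS.2, B, hB, τ, hτ, hτK', ?_, by rw [haτ, hψτ], by rw [haτ, hψ₀τ]⟩
  have h1 := ha.eq_of_agree hL₀ hgK (pow_mem hτK' j) fun x hx => hj x (e0 hx)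
  rw [hga, ha.map_pow hτK'] at h1
  exact IsUnit.of_mul_eq_one _ (by rw [mul_comm]; exact h1.symm)

omit hp in
/-- A character of the class group cannot vanish at all primes of degree one without being
trivial. -/
theorem exists_degreeOne_ne_zero {F : Type*} [Field F] [NumberField F] (S : Finset ℕ)
    (f : ClassGroup (𝓞 F) →* Multiplicative (ZMod n)) (hf : ∃ C, addVal f C ≠ 0) :
    ∃ v ∈ degreeOneSet F S, addVal f (ClassGroup.mk0 (primeIdeal v)) ≠ 0 := by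
  classical
  by_contra hcon
  push Not at hcon
  set χ := pairChar f (1 : ClassGroup (𝓞 F) →* Multiplicative (ZMod n)) (1, 0) with hχ
  have hχne : ∃ c, χ c ≠ 1 := by
    obtain ⟨C, hC⟩ := hf
    refine ⟨C, fun h => hC ?_⟩
    refine ZMod.injective_stdAddChar ?_
    rw [AddChar.map_zero_eq_one]
    simpa [hχ, pairChar] using h
  obtain ⟨C₁, hC₁⟩ := exists_tsum_re_char_le hχne
  obtain ⟨C₂, hC₂⟩ := exists_tsum_compl_degreeOne_le F S
  obtain ⟨C₃, δ, hδ, hδ1, hC₃⟩ := exists_log_le_tsum_degreeOne F S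
  set K₀ := C₁ + C₂ + C₃
  set ε : ℝ := min (δ / 2) (Real.exp (-(K₀ + 1))) with hε
  have hε0 : 0 < ε := lt_min (by linarith) (Real.exp_pos _)
  set s : ℝ := 1 + ε with hs
  have hεδ := min_le_left (δ / 2) (Real.exp (-(K₀ + 1)))
  have hs1 : 1 < s := by linarith
  have hlog : K₀ + 1 ≤ -Real.log (s - 1) := by
    have h := Real.log_le_log hε0 (min_le_right (δ / 2) (Real.exp (-(K₀ + 1))))
    rw [Real.log_exp] at h
    rw [hs, add_sub_cancel_left]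
    linarith
  set g : HeightOneSpectrum (𝓞 F) → ℝ :=
    fun v => (χ (ClassGroup.mk0 (primeIdeal v))).re * primeTerm s v with hg
  have hgs : Summable g :=
    (summable_re_primeCharTerm χ hs1).congr fun v => by simp [hg, primeCharTerm]
  have h1 := hC₁ s hs1 (by linarith)
  rw [← hgs.tsum_subtype_add_tsum_subtype_compl (degreeOneSet F S)] at h1
  have h2 : ∑' v : degreeOneSet F S, g v = ∑' v : degreeOneSet F S, primeTerm s v.1 := by
    refine tsum_congr fun v => ?_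
    have h0 := hcon v.1 v.2
    simp only [addVal] at h0
    simp [hg, hχ, pairChar, addVal, h0]
  have h3 : -C₂ ≤ ∑' v : ↑(degreeOneSet F S)ᶜ, g v := by
    refine le_trans (neg_le_neg (hC₂ s hs1)) ?_
    rw [← tsum_neg]
    refine Summable.tsum_le_tsum (fun v => ?_) ((summable_primeTerm hs1).subtype _).neg
      (hgs.subtype _)
    have hre : -1 ≤ (χ (ClassGroup.mk0 (primeIdeal v.1))).re := by
      have := (abs_le.1 (Complex.abs_re_le_norm (χ (ClassGroup.mk0 (primeIdeal v.1))))).1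
      rwa [norm_char_eq_one] at this
    have := mul_le_mul_of_nonneg_right hre (primeTerm_nonneg s v.1)
    simp only [hg]
    linarith
  have h4 := hC₃ s hs1 (by linarith)
  linarith

omit hp in
/-- Characters of the class group are determined at the primes of degree one. -/
theorem classChar_ext [FiniteDimensional ℚ K] [NumberField K] (S : Finset ℕ)
    {f g : ClassGroup (𝓞 K) →* Multiplicative (ZMod n)}
    (h : ∀ (ℓ : ℕ) (hℓ : ℓ.Prime), ℓ ∉ S → ∀ (A : ValuationSubring Qb) (hA : A.LiesOverPrime ℓ)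
      (τ : GQ), A.IsFrobeniusAt τ ℓ → τ ∈ K.fixingSubgroup →
        addVal f (ClassGroup.mk0 (placeNZ K hℓ hA)) = addVal g (ClassGroup.mk0 (placeNZ K hℓ hA))) :
    f = g := by
  classical
  by_contra hne
  obtain ⟨S₁, hS₁⟩ := exists_place_fixing K
  have hex : ∃ C, addVal (f / g) C ≠ 0 := by
    by_contra hall
    push Not at hall
    refine hne (MonoidHom.ext fun C => Multiplicative.toAdd.injective ?_)
    have hC := hall C
    rwa [addVal, MonoidHom.div_apply, toAdd_div, sub_eq_zero] at hC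
  obtain ⟨v, ⟨hvp, hvS⟩, hv⟩ := exists_degreeOne_ne_zero (S ∪ S₁) (f / g) hex
  rw [Finset.mem_union, not_or] at hvS
  obtain ⟨B, hB, hBv, hfix⟩ := hS₁ v ⟨hvp, hvS.2⟩
  obtain ⟨σ, hσ⟩ := Galois.exists_isFrobeniusAt hvp hB
  have hσK : σ ∈ K.fixingSubgroup :=
    (IntermediateField.mem_fixingSubgroup_iff _ σ).2 (hfix σ hσ.mem_decompositionSubgroup)
  refine hv ?_
  have e : primeIdeal v = placeNZ K hvp hB := Subtype.ext hBv.symm
  rw [e, addVal, MonoidHom.div_apply, toAdd_div, sub_eq_zero]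
  exact h _ hvp hvS.1 B hB σ hσ hσK

/-- **The crossing**: a class group character killing the primes killed by `a` is a multiple of
`a` at the primes of degree one. -/
theorem classChar_proportional [FiniteDimensional ℚ K] [NumberField K] (hn : n = p ^ (k + 1))
    (hinf : p ≠ 2 ∨ NumberField.IsTotallyComplex K) (ha : UnramifiedChar n K a)
    (hsurj : ∃ σ ∈ K.fixingSubgroup, IsUnit (a σ))
    (f : ClassGroup (𝓞 K) →* Multiplicative (ZMod n)) (Sf : Finset ℕ)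
    (hf : ∀ (ℓ : ℕ) (hℓ : ℓ.Prime), ℓ ∉ Sf → ∀ (A : ValuationSubring Qb) (hA : A.LiesOverPrime ℓ)
      (τ : GQ), A.IsFrobeniusAt τ ℓ → τ ∈ K.fixingSubgroup → a τ = 0 →
        addVal f (ClassGroup.mk0 (placeNZ K hℓ hA)) = 0) :
    ∃ c : ZMod n, ∀ (ℓ : ℕ) (hℓ : ℓ.Prime), KummerMoved p n ℓ →
      ∀ (A : ValuationSubring Qb) (hA : A.LiesOverPrime ℓ) (τ : GQ), A.IsFrobeniusAt τ ℓ →
        τ ∈ K.fixingSubgroup → addVal f (ClassGroup.mk0 (placeNZ K hℓ hA)) = c * a τ := by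
  classical
  obtain ⟨S₀, hK⟩ := exists_inertia_le_fixingSubgroup K
  have hn1 := one_lt_of_eq_pow hn
  have hsign : ∀ {q : ℕ} [Fact q.Prime] {ψ : ZMod q → ZMod n}, IsModChar n q ψ →
      ψ (-1) = 0 ∨ NumberField.IsTotallyComplex K := fun {q} _ {ψ} hψ => hinf.imp_left fun h2 =>
    hψ.map_neg_one (by
      rw [show (2 : ZMod n) = ((2 : ℕ) : ZMod n) by norm_num, ZMod.isUnit_iff_coprime]
      exact coprime_of_ne hn Nat.prime_two (Ne.symm h2))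
  obtain ⟨r, hrgt, hr⟩ := Nat.exists_infinite_primes (p + 1)
  obtain ⟨q₀, hq₀, hq₀S, -, hnq₀, ψ₀, hψ₀, ⟨t₀, ht₀, hψ₀t⟩, -⟩ :=
    exists_aux_char hn hr (kummerMoved_of_ne hn hr (by omega)) 1 S₀
  have := Fact.mk hq₀
  obtain ⟨q₁, hq₁, hq₁S, -, hnq₁, ψ₁, hψ₁, ⟨t₁, ht₁, hψ₁t⟩, -⟩ :=
    exists_aux_char hn hr (kummerMoved_of_ne hn hr (by omega)) 1 (S₀ ∪ {q₀})
  simp only [Finset.mem_union, Finset.mem_singleton, not_or] at hq₁S
  have := Fact.mk hq₁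
  obtain ⟨ℓ₀, hℓ₀, -, hℓ₀q, A₀, hA₀, τ₀, hτ₀, hτ₀K, hτ₀a, -, hτ₀ψ⟩ :=
    exists_common_frobenius ha hn hsurj hψ₁ ht₁ hψ₁t hψ₀ ht₀ hψ₀t hq₁S.2
      (hK q₁ hq₁ hq₁S.1) (hK q₀ hq₀ hq₀S)
  obtain ⟨u₀, hu₀⟩ := hτ₀a
  refine ⟨addVal f (ClassGroup.mk0 (placeNZ K hℓ₀ hA₀)) * ((u₀⁻¹ : (ZMod n)ˣ) : ZMod n),
    fun ℓ hℓ hℓK A hA τ hτ hτK => ?_⟩
  obtain ⟨q, hq, hqS, hqℓ, hnq, ψ, hψ, ⟨t, ht, hψt⟩, hψℓ⟩ :=
    exists_aux_char hn hℓ hℓK (a τ) (S₀ ∪ {q₀})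
  simp only [Finset.mem_union, Finset.mem_singleton, not_or] at hqS
  have := Fact.mk hq
  obtain ⟨ℓ', hℓ', hℓ'q, hℓ'q₀, A', hA', τ', hτ', hτ'K, hτ'a, hτ'ψ, hτ'ψ₀⟩ :=
    exists_common_frobenius ha hn hsurj hψ ht hψt hψ₀ ht₀ hψ₀t hqS.2
      (hK q hq hqS.1) (hK q₀ hq₀ hq₀S)
  have h1 := crossing ha hψ (hsign hψ) hnq (hK q hq hqS.1)
    (fun B hB => exists_inertia_modChar_pow hn hψ ht hψt hB) f Sf hf
    hℓ' hℓ'q hA' hτ' hτ'K hτ'ψ hℓ hqℓ.symm hA hτ hτK hψℓ.symm hτ'a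
  have h2 := crossing ha hψ₀ (hsign hψ₀) hnq₀ (hK q₀ hq₀ hq₀S)
    (fun B hB => exists_inertia_modChar_pow hn hψ₀ ht₀ hψ₀t hB) f Sf hf
    hℓ₀ hℓ₀q hA₀ hτ₀ hτ₀K hτ₀ψ hℓ' hℓ'q₀ hA' hτ' hτ'K hτ'ψ₀ (hu₀ ▸ u₀.isUnit)
  rw [← hu₀] at h2
  refine hτ'a.mul_left_cancel ?_
  rw [h1]
  linear_combination ((u₀⁻¹ : (ZMod n)ˣ) : ZMod n) * a τ * h2 -
    a τ * addVal f (ClassGroup.mk0 (placeNZ K hℓ' hA')) * Units.inv_mul u₀

/-- A surjective class group character killing the primes killed by `a` gives the Artin map. -/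
theorem exists_exact_of_surjective [FiniteDimensional ℚ K] [NumberField K] (hn : n = p ^ (k + 1))
    (hinf : p ≠ 2 ∨ NumberField.IsTotallyComplex K) (ha : UnramifiedChar n K a)
    (hsurj : ∃ σ ∈ K.fixingSubgroup, IsUnit (a σ))
    (f : ClassGroup (𝓞 K) →* Multiplicative (ZMod n)) (hfs : ∃ C, IsUnit (addVal f C))
    (Sf : Finset ℕ)
    (hf : ∀ (ℓ : ℕ) (hℓ : ℓ.Prime), ℓ ∉ Sf → ∀ (A : ValuationSubring Qb) (hA : A.LiesOverPrime ℓ)
      (τ : GQ), A.IsFrobeniusAt τ ℓ → τ ∈ K.fixingSubgroup → a τ = 0 →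
        addVal f (ClassGroup.mk0 (placeNZ K hℓ hA)) = 0) :
    ∃ g : ClassGroup (𝓞 K) →* Multiplicative (ZMod n), ∀ (ℓ : ℕ) (hℓ : ℓ.Prime),
      KummerMoved p n ℓ → ∀ (A : ValuationSubring Qb) (hA : A.LiesOverPrime ℓ) (τ : GQ),
        A.IsFrobeniusAt τ ℓ → τ ∈ K.fixingSubgroup →
          addVal g (ClassGroup.mk0 (placeNZ K hℓ hA)) = a τ := by
  classical
  obtain ⟨c, hc⟩ := classChar_proportional hn hinf ha hsurj f Sf hf
  rcases isUnit_or_exists_mul hn c with hu | ⟨y, rfl⟩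
  · obtain ⟨u, rfl⟩ := hu
    refine ⟨(powMonoidHom ((u⁻¹ : (ZMod n)ˣ) : ZMod n).val).comp f,
      fun ℓ hℓ hℓK A hA τ hτ hτK => ?_⟩
    show Multiplicative.toAdd ((f _) ^ ((u⁻¹ : (ZMod n)ˣ) : ZMod n).val) = a τ
    rw [toAdd_pow, nsmul_eq_mul, ZMod.natCast_zmod_val, show Multiplicative.toAdd (f _) =
      addVal f (ClassGroup.mk0 (placeNZ K hℓ hA)) from rfl, hc ℓ hℓ hℓK A hA τ hτ hτK,
      ← mul_assoc, Units.inv_mul, one_mul]
  · exfalso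
    have hpn : ((p ^ k : ℕ) : ZMod n) * (p : ZMod n) = 0 := by
      rw [← Nat.cast_mul, ← pow_succ, ← hn, ZMod.natCast_self]
    have e : (powMonoidHom (p ^ k)).comp f = 1 :=
      classChar_ext {p} fun ℓ hℓ hℓS A hA τ hτ hτK => by
        show Multiplicative.toAdd ((f _) ^ (p ^ k)) = Multiplicative.toAdd (1 : Multiplicative (ZMod n))
        rw [toAdd_pow, toAdd_one, nsmul_eq_mul, show Multiplicative.toAdd (f _) =
          addVal f (ClassGroup.mk0 (placeNZ K hℓ hA)) from rfl, hc ℓ hℓ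
            (kummerMoved_of_ne hn hℓ (Finset.notMem_singleton.1 hℓS)) A hA τ hτ hτK,
          ← mul_assoc, ← mul_assoc, hpn, zero_mul, zero_mul]
    obtain ⟨C, hC⟩ := hfs
    have h1 := congrArg Multiplicative.toAdd (DFunLike.congr_fun e C)
    rw [MonoidHom.comp_apply, powMonoidHom_apply, toAdd_pow, MonoidHom.one_apply, toAdd_one,
      nsmul_eq_mul] at h1
    have h2 : ((p ^ k : ℕ) : ZMod n) = 0 := hC.mul_left_eq_zero.1 h1
    rw [ZMod.natCast_eq_zero_iff, hn] at h2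
    exact absurd (Nat.le_of_dvd (pow_pos hp.out.pos k) h2)
      (not_le.2 (Nat.pow_lt_pow_succ hp.out.one_lt))

end

end Fermat.Agent.CFT
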