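/-
Multiplication by `p` from `ZMod m` to `ZMod (p * m)`, and unramified characters divisible by `p`.
-/
import Fermat.Agent.CFT.ArtinCharacter

set_option autoImplicit false

open scoped NumberField

namespace Fermat.Agent.CFT

noncomputable section

local notation "Qb" => AlgebraicClosure ℚ
local notation "GQ" => (AlgebraicClosure ℚ ≃ₐ[ℚ] AlgebraicClosure ℚ)

/-- Multiplication by `p`, from `ZMod m` into `ZMod n`, for `n = p * m`. -/
def mulP {p m n : ℕ} (h : n = p * m) : ZMod m →+ ZMod n :=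
  ZMod.lift m ⟨(AddMonoidHom.mulLeft (p : ZMod n)).comp (Int.castAddHom (ZMod n)), by
    show (p : ZMod n) * (((m : ℕ) : ℤ) : ZMod n) = 0
    rw [Int.cast_natCast, ← Nat.cast_mul, ← h, ZMod.natCast_self]⟩

variable {p m n : ℕ}

theorem mulP_natCast (h : n = p * m) (r : ℕ) : mulP h (r : ZMod m) = (p : ZMod n) * r := by
  rw [← Int.cast_natCast (R := ZMod m) r, mulP, ZMod.lift_coe]
  show (p : ZMod n) * (((r : ℕ) : ℤ) : ZMod n) = _
  rw [Int.cast_natCast]

theorem mulP_injective [NeZero m] (hp : 0 < p) (h : n = p * m) : Function.Injective (mulP h) := by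
  refine (injective_iff_map_eq_zero _).2 fun x hx => ?_
  rw [← ZMod.natCast_zmod_val x, mulP_natCast, ← Nat.cast_mul, ZMod.natCast_eq_zero_iff] at hx
  rw [← ZMod.natCast_zmod_val x, ZMod.natCast_eq_zero_iff]
  exact Nat.dvd_of_mul_dvd_mul_left hp (by rwa [← h])

theorem exists_mulP_eq [NeZero n] (h : n = p * m) (y : ZMod n) :
    ∃ z : ZMod m, mulP h z = (p : ZMod n) * y :=
  ⟨(y.val : ZMod m), by rw [mulP_natCast, ZMod.natCast_zmod_val]⟩

/-- Restriction of an unramified character to a larger field. -/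
theorem UnramifiedChar.mono {K K' : IntermediateField ℚ (AlgebraicClosure ℚ)}
    {a : (AlgebraicClosure ℚ ≃ₐ[ℚ] AlgebraicClosure ℚ) → ZMod n} (ha : UnramifiedChar n K a)
    (hle : K'.fixingSubgroup ≤ K.fixingSubgroup) : UnramifiedChar n K' a := by
  refine ⟨fun σ τ hσ hτ => ha.map_mul σ τ (hle hσ) (hle hτ), ?_,
    fun ℓ hℓ A hA σ hσ hσK => ha.unramified ℓ hℓ A hA σ hσ (hle hσK)⟩
  obtain ⟨L₀, hf, hL⟩ := ha.exists_level
  exact ⟨L₀, hf, fun σ hσ h => hL σ (hle hσ) h⟩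

/-- An unramified character with values divisible by `p` is `p` times one of smaller order. -/
theorem exists_divided [NeZero n] [NeZero m] (hp : 0 < p) (h : n = p * m)
    {K : IntermediateField ℚ (AlgebraicClosure ℚ)}
    {a : (AlgebraicClosure ℚ ≃ₐ[ℚ] AlgebraicClosure ℚ) → ZMod n} (ha : UnramifiedChar n K a)
    (hdiv : ∀ g ∈ K.fixingSubgroup, ∃ y : ZMod n, a g = (p : ZMod n) * y) :
    ∃ b : GQ → ZMod m, UnramifiedChar m K b ∧ ∀ g ∈ K.fixingSubgroup, mulP h (b g) = a g := by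
  classical
  have hex : ∀ g : GQ, ∃ z : ZMod m, g ∈ K.fixingSubgroup → mulP h z = a g := by
    intro g
    by_cases hg : g ∈ K.fixingSubgroup
    · obtain ⟨y, hy⟩ := hdiv g hg
      obtain ⟨z, hz⟩ := exists_mulP_eq h y
      exact ⟨z, fun _ => hz.trans hy.symm⟩
    · exact ⟨0, fun h' => absurd h' hg⟩
  choose b hb using hex
  have hinj := mulP_injective hp h
  refine ⟨b, ⟨fun σ τ hσ hτ => hinj ?_, ?_, fun ℓ hℓ A hA σ hσ hσK => hinj ?_⟩, hb⟩
  · rw [hb _ (mul_mem hσ hτ), map_add, hb σ hσ, hb τ hτ, ha.map_mul σ τ hσ hτ]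
  · obtain ⟨L₀, hf, hL⟩ := ha.exists_level
    exact ⟨L₀, hf, fun σ hσ hfix => hinj (by rw [hb σ hσ, hL σ hσ hfix, map_zero])⟩
  · rw [hb σ hσK, ha.unramified ℓ hℓ A hA σ hσ hσK, map_zero]

/-- Fixing the `n`-th roots of unity is fixing those of order dividing `n`. -/
theorem KummerMoved.of_dvd {ℓ : ℕ} [NeZero n] [NeZero m] (hmn : m ∣ n) (h : KummerMoved p n ℓ) :
    KummerMoved p m ℓ := by
  obtain ⟨g, θ, hg, hθ, hgθ⟩ := h
  refine ⟨g, θ, ?_, hθ, hgθ⟩
  have h1 := Datum.chiMod_eq_natCast m g (a := 1) fun μ hμ => by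
    obtain ⟨r, hr⟩ := hmn
    have hμn : μ ^ n = 1 := by rw [hr, pow_mul, hμ, one_pow]
    rcases eq_or_ne n 1 with hn1 | hn1
    · rw [hn1, pow_one] at hμn
      rw [hμn, map_one, one_pow]
    · have : Fact (1 < n) := ⟨by have := NeZero.ne n; omega⟩
      rw [Datum.chiMod_spec n g hμn, hg, ZMod.val_one]
  simpa using h1

end

end Fermat.Agent.CFT
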