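/-
The Artin map of an everywhere unramified character of prime power order, at primes of degree
one: the induction on the exponent, through the subfield cut out by the character mod `p`.
-/
import Mathlib.GroupTheory.FiniteAbelian.Duality
import Mathlib.RingTheory.RootsOfUnity.Complex
import Mathlib.RingTheory.RootsOfUnity.AlgebraicallyClosed
import Fermat.Agent.CFT.Divided

set_option autoImplicit false

open scoped NumberField nonZeroDivisors Pointwise
open IsDedekindDomain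

namespace Fermat.Agent.CFT

noncomputable section

local notation "Qb" => AlgebraicClosure ℚ
local notation "GQ" => (AlgebraicClosure ℚ ≃ₐ[ℚ] AlgebraicClosure ℚ)

variable {p : ℕ} [hp : Fact p.Prime]

omit hp in
/-- In a finite commutative group, a subgroup containing all `n`-th powers is separated from an
outside element by a character with values in `ZMod n`. -/
theorem exists_hom_zmod_separating {G : Type*} [CommGroup G] [Finite G] (n : ℕ) [NeZero n]
    (H : Subgroup G) (hpow : ∀ x : G, x ^ n ∈ H) {c : G} (hc : c ∉ H) :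
    ∃ f : G →* Multiplicative (ZMod n), (∀ x ∈ H, addVal f x = 0) ∧ addVal f c ≠ 0 := by
  classical
  have : NeZero (Monoid.exponent (G ⧸ H)) := ⟨Monoid.exponent_ne_zero_of_finite⟩
  obtain ⟨χ, hχ⟩ := CommGroup.exists_apply_ne_one_of_hasEnoughRootsOfUnity (G ⧸ H) ℂ
    (a := (QuotientGroup.mk c : G ⧸ H)) (by rwa [Ne, QuotientGroup.eq_one_iff])
  let φ : G →* rootsOfUnity n ℂ := (χ.comp (QuotientGroup.mk' H)).codRestrict _ fun x => by
    rw [mem_rootsOfUnity, ← map_pow]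
    show χ (QuotientGroup.mk (x ^ n) : G ⧸ H) = 1
    rw [(QuotientGroup.eq_one_iff _).2 (hpow x), map_one]
  let e : rootsOfUnity n ℂ ≃* Multiplicative (ZMod n) := mulEquivOfCyclicCardEq (by
    rw [Complex.card_rootsOfUnity, Nat.card_eq_fintype_card, Fintype.card_multiplicative,
      ZMod.card])
  refine ⟨e.toMonoidHom.comp φ, fun x hx => ?_, fun h => hχ ?_⟩
  · have h1 : φ x = 1 := Subtype.ext (show χ (QuotientGroup.mk x : G ⧸ H) = 1 by
      rw [(QuotientGroup.eq_one_iff _).2 hx, map_one])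
    show Multiplicative.toAdd (e (φ x)) = 0
    rw [h1, map_one, toAdd_one]
  · change Multiplicative.toAdd (e (φ c)) = 0 at h
    have h1 : φ c = 1 := e.injective (by rw [map_one]; exact Multiplicative.toAdd.injective h)
    exact congrArg Subtype.val h1

omit hp in
/-- A Frobenius element of degree one on which a surjective character is a unit. -/
theorem exists_frobenius_unit {n : ℕ} [NeZero n] {K : IntermediateField ℚ Qb}
    [FiniteDimensional ℚ K] {a : GQ → ZMod n} (ha : UnramifiedChar n K a)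
    (hsurj : ∃ σ ∈ K.fixingSubgroup, IsUnit (a σ)) (S : Finset ℕ) :
    ∃ ℓ : ℕ, ℓ.Prime ∧ ℓ ∉ S ∧ ∃ A : ValuationSubring Qb, A.LiesOverPrime ℓ ∧
      ∃ τ : GQ, A.IsFrobeniusAt τ ℓ ∧ τ ∈ K.fixingSubgroup ∧ IsUnit (a τ) := by
  obtain ⟨σ, hσ, hu⟩ := hsurj
  obtain ⟨L₀, hL₀f, hL₀⟩ := ha.exists_level
  obtain ⟨ℓ, hℓ, hℓS, A, hA, τ, hτ, hτK, -, ⟨j, hj⟩, -⟩ :=
    Density.exists_frobenius_pow_over K L₀ σ
      ((IntermediateField.mem_fixingSubgroup_iff _ σ).1 hσ) S
  have hτK' : τ ∈ K.fixingSubgroup := (IntermediateField.mem_fixingSubgroup_iff _ τ).2 hτK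
  rw [ha.eq_of_agree hL₀ hσ (pow_mem hτK' j) hj, ha.map_pow hτK'] at hu
  exact ⟨ℓ, hℓ, hℓS, A, hA, τ, hτ, hτK', isUnit_of_mul_isUnit_right hu⟩

omit hp in
/-- A `K`-automorphism of `L` moves places as any lift of it to `ℚ̄` does. -/
theorem galNZ_placeNZ {K L : IntermediateField ℚ Qb} [NumberField L] [Algebra K L]
    [NumberField K] (γ : L ≃ₐ[K] L) {g : GQ} (hg : ∀ y : L, g (y : Qb) = ((γ y : L) : Qb))
    {ℓ : ℕ} (hℓ : ℓ.Prime) {A : ValuationSubring Qb} (hA : A.LiesOverPrime ℓ)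
    (hgA : (g • A).LiesOverPrime ℓ) : galNZ γ (placeNZ L hℓ hA) = placeNZ L hℓ hgA := by
  refine Subtype.ext ?_
  show γ • placeIdeal L A = placeIdeal L (g • A)
  ext x
  rw [Ideal.mem_pointwise_smul_iff_inv_smul_mem, mem_placeIdeal, mem_placeIdeal,
    Galois.mem_smul_nonunits]
  have e : g (((γ⁻¹ • x : 𝓞 L) : L) : Qb) = ((x : L) : Qb) := by
    rw [hg]
    show ((γ (γ⁻¹ (x : L)) : L) : Qb) = _
    congr 1
    exact γ.apply_symm_apply _
  rw [← e, AlgEquiv.smul_def]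
  simp only [← AlgEquiv.mul_apply, inv_mul_cancel, AlgEquiv.one_apply]

/-- The kernel of the reduction mod `p` consists of the multiples of `p`. -/
theorem castHom_eq_zero_iff {k n : ℕ} [NeZero n] (hn : n = p ^ (k + 1)) (hd : p ∣ n) (x : ZMod n) :
    ZMod.castHom hd (ZMod p) x = 0 ↔ ∃ y : ZMod n, x = (p : ZMod n) * y := by
  constructor
  · intro h
    rcases isUnit_or_exists_mul hn x with hu | hy
    · exact absurd h (hu.map _).ne_zero
    · exact hy
  · rintro ⟨y, rfl⟩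
    rw [map_mul, map_natCast, ZMod.natCast_self, zero_mul]

/-- Artin reciprocity for a character with values in `ZMod p`. -/
theorem exists_artin_prime {K : IntermediateField ℚ Qb} [FiniteDimensional ℚ K] [NumberField K]
    (hinf : p ≠ 2 ∨ NumberField.IsTotallyComplex K) {a : GQ → ZMod p} (ha : UnramifiedChar p K a)
    (hne : ∃ σ ∈ K.fixingSubgroup, a σ ≠ 0) :
    ∃ f : ClassGroup (𝓞 K) →* Multiplicative (ZMod p), ∀ (ℓ : ℕ) (hℓ : ℓ.Prime),
      KummerMoved p p ℓ → ∀ (A : ValuationSubring Qb) (hA : A.LiesOverPrime ℓ) (τ : GQ),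
        A.IsFrobeniusAt τ ℓ → τ ∈ K.fixingSubgroup →
          addVal f (ClassGroup.mk0 (placeNZ K hℓ hA)) = a τ := by
  obtain ⟨f, ⟨C, hC⟩, hfker⟩ := exists_classChar_vanishing hinf ha hne
  obtain ⟨σ, hσ, hσa⟩ := hne
  exact exists_exact_of_surjective (k := 0) (pow_one p).symm hinf ha
    ⟨σ, hσ, isUnit_iff_ne_zero.2 hσa⟩ f ⟨C, isUnit_iff_ne_zero.2 hC⟩ ∅
    fun ℓ hℓ _ => hfker ℓ hℓ

/-- In the field `L` cut out by a character mod `p`, classes of norm one are killed by every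
character invariant under `Gal(L/K)`. -/
theorem exists_normMap_invariant {K : IntermediateField ℚ Qb} [FiniteDimensional ℚ K]
    [NumberField K] (hinf : p ≠ 2 ∨ NumberField.IsTotallyComplex K) {a₀ : GQ → ZMod p}
    (ha₀ : UnramifiedChar p K a₀) (hne : ∃ σ ∈ K.fixingSubgroup, a₀ σ ≠ 0)
    (L : IntermediateField ℚ Qb) [NumberField L] [Algebra K L]
    (hL : ∀ g : GQ, g ∈ charKer ha₀ ↔ ∀ x ∈ L, g x = x)
    (htower : ∀ x : K, ((algebraMap K L x : L) : Qb) = (x : Qb))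
    {m : ℕ} [NeZero m] (f' : ClassGroup (𝓞 L) →* Multiplicative (ZMod m))
    (hinv : ∀ (ℓ : ℕ) (hℓ : ℓ.Prime), ℓ ≠ p → ∀ (A : ValuationSubring Qb)
      (hA : A.LiesOverPrime ℓ) (τ : GQ), A.IsFrobeniusAt τ ℓ → τ ∈ L.fixingSubgroup →
        ∀ g ∈ K.fixingSubgroup, ∀ hgA : (g • A).LiesOverPrime ℓ,
          addVal f' (ClassGroup.mk0 (placeNZ L hℓ hgA)) =
            addVal f' (ClassGroup.mk0 (placeNZ L hℓ hA))) :
    ∃ nm : ClassGroup (𝓞 L) →* ClassGroup (𝓞 K),
      (∀ J, nm (ClassGroup.mk0 J) = normClass K L J) ∧ Module.finrank K L = p ∧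
        nm.ker ≤ f'.ker := by
  classical
  obtain ⟨hgal, hrank, hur⟩ := charField_props ha₀ hne L hL htower
  have := hgal
  have : IsUnramifiedAtInfinitePlaces K L := isUnramifiedAtInfinitePlaces_of_or
    (hinf.imp_left fun h => hrank.symm ▸ hp.out.odd_of_ne_two h)
  obtain ⟨f₀, hf₀⟩ := exists_artin_prime hinf ha₀ hne
  set R := normClassSubgroup K L with hR
  have hidx : R.index ≤ p := by
    have hpow : ∀ C : ClassGroup (𝓞 K), C ^ p ∈ R := by
      intro C
      obtain ⟨J, rfl⟩ := ClassGroup.mk0_surjective C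
      have hJ : Ideal.map (algebraMap (𝓞 K) (𝓞 L)) (J : Ideal (𝓞 K)) ∈ (Ideal (𝓞 L))⁰ :=
        mem_nonZeroDivisors_iff_ne_zero.2 fun h => nonZeroDivisors.ne_zero J.2
          ((Ideal.map_eq_bot_iff_of_injective (FaithfulSMul.algebraMap_injective _ _)).1 h)
      have h := normClass_mem (K := K) (⟨_, hJ⟩ : (Ideal (𝓞 L))⁰)
      have e : relNormNZ K L ⟨_, hJ⟩ = J ^ p := Subtype.ext (by
        rw [coe_relNormNZ, SubmonoidClass.coe_pow, Ideal.relNorm_algebraMap,
          ← IsFractionRing.finrank_eq (𝓞 K) K (𝓞 L) L, hrank])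
      rw [normClass, MonoidHom.comp_apply, e, map_pow] at h
      exact h
    have hker : f₀.ker ≤ R := by
      intro C hC
      by_contra hCR
      obtain ⟨f, hfR, hfC⟩ := exists_hom_to_zmod R hpow hCR
      obtain ⟨σ, hσ, hσa⟩ := hne
      obtain ⟨c, hc⟩ := classChar_proportional (k := 0) (pow_one p).symm hinf ha₀
        ⟨σ, hσ, isUnit_iff_ne_zero.2 hσa⟩ f ∅ fun ℓ hℓ _ A hA τ hτ hτK hτa => by
          have e : relNormNZ K L (placeNZ L hℓ hA) = placeNZ K hℓ hA :=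
            Subtype.ext (relNorm_placeIdeal K L htower hℓ hA hτ
              ((hL τ).1 (mem_charKer.2 ⟨hτK, hτa⟩)))
          refine hfR _ ?_
          rw [← e]
          exact normClass_mem (K := K) (placeNZ L hℓ hA)
      have e : f = (powMonoidHom c.val).comp f₀ :=
        classChar_ext {p} fun ℓ hℓ hℓS A hA τ hτ hτK => by
          have hK' := kummerMoved_of_ne (k := 0) (pow_one p).symm hℓ (Finset.notMem_singleton.1 hℓS)
          rw [hc ℓ hℓ hK' A hA τ hτ hτK, ← hf₀ ℓ hℓ hK' A hA τ hτ hτK]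
          show c * Multiplicative.toAdd _ = Multiplicative.toAdd ((f₀ _) ^ c.val)
          rw [toAdd_pow, nsmul_eq_mul, ZMod.natCast_zmod_val]
      refine hfC ?_
      rw [e]
      show Multiplicative.toAdd ((f₀ C) ^ c.val) = 0
      rw [MonoidHom.mem_ker.1 hC, one_pow, toAdd_one]
    refine (Nat.le_of_dvd (Nat.pos_of_ne_zero ?_) (Subgroup.index_dvd_of_le hker)).trans ?_
    · exact Subgroup.index_ne_zero_of_finite
    · rw [Subgroup.index_ker]
      refine (Subgroup.card_le_card_group _).trans (le_of_eq ?_)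
      rw [Nat.card_eq_fintype_card, Fintype.card_multiplicative, ZMod.card]
  obtain ⟨σ, gal, nm, hgalmap, hnm, hker⟩ := exists_normMap_ker_eq hp.out hrank hur hidx
  refine ⟨nm, hnm, hrank, ?_⟩
  obtain ⟨g, hgK, hg⟩ := exists_lift_aut htower σ
  have hfg : f'.comp gal = f' := classChar_ext {p} fun ℓ hℓ hℓS A hA τ hτ hτL => by
    have hgA : (g • A).LiesOverPrime ℓ := by
      rw [ValuationSubring.LiesOverPrime, Galois.mem_smul_nonunits, AlgEquiv.smul_def, map_natCast]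
      exact hA
    show addVal f' (gal (ClassGroup.mk0 (placeNZ L hℓ hA))) = _
    rw [hgalmap, galNZ_placeNZ σ hg hℓ hA hgA]
    exact hinv ℓ hℓ (Finset.notMem_singleton.1 hℓS) A hA τ hτ hτL g hgK hgA
  rw [hker]
  rintro _ ⟨C, rfl⟩
  rw [MonoidHom.mem_ker, MonoidHom.div_apply, map_div, MonoidHom.id_apply, div_eq_one]
  exact DFunLike.congr_fun hfg C

/-- **Artin reciprocity** for a surjective unramified character of prime power order. -/
theorem exists_artin_surjective (k : ℕ) : ∀ {n : ℕ} [NeZero n] {K : IntermediateField ℚ Qb}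
    [FiniteDimensional ℚ K] [NumberField K] {a : GQ → ZMod n}, n = p ^ (k + 1) →
    (p ≠ 2 ∨ NumberField.IsTotallyComplex K) → UnramifiedChar n K a →
    (∃ σ ∈ K.fixingSubgroup, IsUnit (a σ)) →
    ∃ f : ClassGroup (𝓞 K) →* Multiplicative (ZMod n), ∀ (ℓ : ℕ) (hℓ : ℓ.Prime),
      KummerMoved p n ℓ → ∀ (A : ValuationSubring Qb) (hA : A.LiesOverPrime ℓ) (τ : GQ),
        A.IsFrobeniusAt τ ℓ → τ ∈ K.fixingSubgroup →
          addVal f (ClassGroup.mk0 (placeNZ K hℓ hA)) = a τ := by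
  induction k with
  | zero =>
    intro n _ K _ _ a hn hinf ha hsurj
    rw [zero_add, pow_one] at hn
    subst hn
    obtain ⟨σ, hσ, hu⟩ := hsurj
    exact exists_artin_prime hinf ha ⟨σ, hσ, hu.ne_zero⟩
  | succ k ih =>
    intro n _ K _ _ a hn hinf ha hsurj
    classical
    set m := p ^ (k + 1) with hm
    have : NeZero m := ⟨pow_ne_zero _ hp.out.ne_zero⟩
    have hnm : n = p * m := by rw [hn, hm, pow_succ' p (k + 1)]
    have hd : p ∣ n := ⟨m, hnm⟩
    set red := ZMod.castHom hd (ZMod p) with hred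
    have ha₀ : UnramifiedChar p K (fun g => red (a g)) := ha.map_addHom red.toAddMonoidHom
    obtain ⟨g₁, hg₁, u₁, hu₁⟩ := hsurj
    have hne₀ : ∃ σ ∈ K.fixingSubgroup, (fun g => red (a g)) σ ≠ 0 :=
      ⟨g₁, hg₁, ((hu₁ ▸ u₁.isUnit).map red).ne_zero⟩
    have hopen := isOpen_charKer ha₀
    set L := IntermediateField.fixedField (charKer ha₀) with hLdef
    have : NumberField L := numberField_fixedField hopen
    have : FiniteDimensional ℚ L := NumberField.to_finiteDimensional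
    have hKL : K ≤ L := fun x hx =>
      (IntermediateField.mem_fixedField_iff _ _).2 fun g hg =>
        (IntermediateField.mem_fixingSubgroup_iff _ g).1 (mem_charKer.1 hg).1 x hx
    let _ : Algebra K L := (IntermediateField.inclusion hKL).toRingHom.toAlgebra
    have hL : ∀ g : GQ, g ∈ charKer ha₀ ↔ ∀ x ∈ L, g x = x :=
      fun g => ⟨fix_of_mem_fixedField, mem_of_fix_fixedField hopen⟩
    have htower : ∀ x : K, ((algebraMap K L x : L) : Qb) = (x : Qb) := fun _ => rfl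
    have hLfix : ∀ g : GQ, g ∈ L.fixingSubgroup ↔ g ∈ K.fixingSubgroup ∧ red (a g) = 0 := fun g =>
      ((IntermediateField.mem_fixingSubgroup_iff _ g).trans (hL g).symm).trans mem_charKer
    obtain ⟨a', ha', hιa'⟩ := exists_divided hp.out.pos hnm
      (ha.mono fun g hg => ((hLfix g).1 hg).1)
      (fun g hg => (castHom_eq_zero_iff hn hd _).1 ((hLfix g).1 hg).2)
    set ι := mulP hnm with hι
    have hinj : Function.Injective ι := mulP_injective hp.out.pos hnm
    have hι1 : ι 1 = (p : ZMod n) := by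
      have h := mulP_natCast hnm 1
      rwa [Nat.cast_one, Nat.cast_one, mul_one] at h
    have hsurj' : ∃ σ ∈ L.fixingSubgroup, IsUnit (a' σ) := by
      set g := g₁ ^ (((u₁⁻¹ : (ZMod n)ˣ) : ZMod n).val * p) with hg
      have hgK : g ∈ K.fixingSubgroup := pow_mem hg₁ _
      have hag : a g = (p : ZMod n) := by
        rw [hg, ha.map_pow hg₁, Nat.cast_mul, ZMod.natCast_zmod_val, ← hu₁, mul_right_comm,
          Units.inv_mul, one_mul]
      have hgL : g ∈ L.fixingSubgroup :=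
        (hLfix g).2 ⟨hgK, by rw [hag, map_natCast, ZMod.natCast_self]⟩
      refine ⟨g, hgL, ?_⟩
      have h1 : a' g = 1 := hinj (by rw [hιa' g hgL, hag, hι1])
      rw [h1]; exact isUnit_one
    have hinf' : p ≠ 2 ∨ NumberField.IsTotallyComplex L := hinf.imp_right fun h => by
      have := h
      exact NumberField.isTotallyComplex_of_algebra K L
    obtain ⟨f', hf'⟩ := ih (K := L) hm hinf' ha' hsurj'
    have hf'p : ∀ (ℓ : ℕ) (hℓ : ℓ.Prime), ℓ ≠ p → ∀ (A : ValuationSubring Qb)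
        (hA : A.LiesOverPrime ℓ) (τ : GQ), A.IsFrobeniusAt τ ℓ → τ ∈ L.fixingSubgroup →
          addVal f' (ClassGroup.mk0 (placeNZ L hℓ hA)) = a' τ := fun ℓ hℓ hℓp =>
      hf' ℓ hℓ (kummerMoved_of_ne hm hℓ hℓp)
    obtain ⟨nm, hnmap, hrank, hkerle⟩ := exists_normMap_invariant hinf ha₀ hne₀ L hL htower f'
      (fun ℓ hℓ hℓp A hA τ hτ hτL g hgK hgA => by
        obtain ⟨hτK, hτ0⟩ := (hLfix τ).1 hτL
        have hconj : a (g * τ * g⁻¹) = a τ := by
          rw [ha.map_mul _ _ (mul_mem hgK hτK) (inv_mem hgK), ha.map_mul _ _ hgK hτK,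
            ha.map_inv hgK]
          ring
        have hconjL : g * τ * g⁻¹ ∈ L.fixingSubgroup :=
          (hLfix _).2 ⟨mul_mem (mul_mem hgK hτK) (inv_mem hgK), by rw [hconj, hτ0]⟩
        rw [hf'p ℓ hℓ hℓp _ hgA _ (Density.isFrobeniusAt_conj hτ g) hconjL,
          hf'p ℓ hℓ hℓp A hA τ hτ hτL]
        exact hinj (by rw [hιa' _ hconjL, hιa' τ hτL, hconj]))
    have hnmP : ∀ (ℓ : ℕ) (hℓ : ℓ.Prime) (A : ValuationSubring Qb) (hA : A.LiesOverPrime ℓ)
        (τ : GQ), A.IsFrobeniusAt τ ℓ → τ ∈ L.fixingSubgroup →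
          nm (ClassGroup.mk0 (placeNZ L hℓ hA)) = ClassGroup.mk0 (placeNZ K hℓ hA) := by
      intro ℓ hℓ A hA τ hτ hτL
      have e : relNormNZ K L (placeNZ L hℓ hA) = placeNZ K hℓ hA :=
        Subtype.ext (relNorm_placeIdeal K L htower hℓ hA hτ
          ((IntermediateField.mem_fixingSubgroup_iff _ τ).1 hτL))
      rw [hnmap, normClass, MonoidHom.comp_apply, e]
    set H := f'.ker.map nm with hH
    have hpow : ∀ C : ClassGroup (𝓞 K), C ^ n ∈ H := by
      intro C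
      obtain ⟨J, rfl⟩ := ClassGroup.mk0_surjective C
      have hJ : Ideal.map (algebraMap (𝓞 K) (𝓞 L)) (J : Ideal (𝓞 K)) ∈ (Ideal (𝓞 L))⁰ :=
        mem_nonZeroDivisors_iff_ne_zero.2 fun h => nonZeroDivisors.ne_zero J.2
          ((Ideal.map_eq_bot_iff_of_injective (FaithfulSMul.algebraMap_injective _ _)).1 h)
      have e : relNormNZ K L ⟨_, hJ⟩ = J ^ p := Subtype.ext (by
        rw [coe_relNormNZ, SubmonoidClass.coe_pow, Ideal.relNorm_algebraMap,
          ← IsFractionRing.finrank_eq (𝓞 K) K (𝓞 L) L, hrank])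
      refine ⟨(ClassGroup.mk0 (⟨_, hJ⟩ : (Ideal (𝓞 L))⁰)) ^ m, ?_, ?_⟩
      · rw [SetLike.mem_coe, MonoidHom.mem_ker, map_pow]
        apply Multiplicative.toAdd.injective
        rw [toAdd_pow, toAdd_one, nsmul_eq_mul, ZMod.natCast_self, zero_mul]
      · rw [map_pow, hnmap, normClass, MonoidHom.comp_apply, e, map_pow, ← pow_mul, ← hnm]
    have hsplit : ∀ (ℓ : ℕ) (hℓ : ℓ.Prime), ℓ ∉ ({p} : Finset ℕ) → ∀ (A : ValuationSubring Qb)
        (hA : A.LiesOverPrime ℓ) (τ : GQ), A.IsFrobeniusAt τ ℓ → τ ∈ K.fixingSubgroup → a τ = 0 →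
          ClassGroup.mk0 (placeNZ K hℓ hA) ∈ H := by
      intro ℓ hℓ hℓp A hA τ hτ hτK hτa
      have hτL : τ ∈ L.fixingSubgroup := (hLfix τ).2 ⟨hτK, by rw [hτa, map_zero]⟩
      refine ⟨_, ?_, hnmP ℓ hℓ A hA τ hτ hτL⟩
      rw [SetLike.mem_coe, MonoidHom.mem_ker]
      apply Multiplicative.toAdd.injective
      rw [toAdd_one]
      refine (hf'p ℓ hℓ (Finset.notMem_singleton.1 hℓp) A hA τ hτ hτL).trans ?_
      exact hinj (by rw [hιa' τ hτL, hτa, map_zero])
    by_cases hgood : ∃ f : ClassGroup (𝓞 K) →* Multiplicative (ZMod n),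
        (∀ x ∈ H, addVal f x = 0) ∧ ∃ C, IsUnit (addVal f C)
    · obtain ⟨f, hfH, hfs⟩ := hgood
      exact exists_exact_of_surjective hn hinf ha ⟨g₁, hg₁, hu₁ ▸ u₁.isUnit⟩ f hfs {p}
        fun ℓ hℓ hℓp A hA τ hτ hτK hτa => hfH _ (hsplit ℓ hℓ hℓp A hA τ hτ hτK hτa)
    exfalso
    obtain ⟨ℓ₁, hℓ₁, hℓ₁p, A₁, hA₁, τ₁, hτ₁, hτ₁L, v₁, hv₁⟩ := exists_frobenius_unit ha' hsurj' {p}
    set C' := (ClassGroup.mk0 (placeNZ L hℓ₁ hA₁)) ^
      (((v₁⁻¹ : (ZMod m)ˣ) : ZMod m) * ((p ^ k : ℕ) : ZMod m)).val with hC'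
    have hC'v : addVal f' C' = ((p ^ k : ℕ) : ZMod m) := by
      show Multiplicative.toAdd (f' C') = _
      rw [hC', map_pow, toAdd_pow, nsmul_eq_mul, ZMod.natCast_zmod_val,
        show Multiplicative.toAdd (f' _) = addVal f' (ClassGroup.mk0 (placeNZ L hℓ₁ hA₁)) from rfl,
        hf'p ℓ₁ hℓ₁ (Finset.notMem_singleton.1 hℓ₁p) A₁ hA₁ τ₁ hτ₁ hτ₁L, ← hv₁, mul_right_comm,
        Units.inv_mul, one_mul]
    have hC'H : nm C' ∉ H := by
      rintro ⟨D, hD, hDC⟩
      have h1 : C' / D ∈ f'.ker := hkerle (by rw [MonoidHom.mem_ker, map_div, hDC, div_self'])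
      rw [MonoidHom.mem_ker, map_div, MonoidHom.mem_ker.1 hD, div_one] at h1
      have h2 : addVal f' C' = 0 := by rw [addVal, h1, toAdd_one]
      rw [hC'v, ZMod.natCast_eq_zero_iff] at h2
      exact absurd (Nat.le_of_dvd (pow_pos hp.out.pos k) h2)
        (not_le.2 (Nat.pow_lt_pow_succ hp.out.one_lt))
    obtain ⟨f, hfH, hfC⟩ := exists_hom_zmod_separating n H hpow hC'H
    obtain ⟨c, hc⟩ := classChar_proportional hn hinf ha ⟨g₁, hg₁, hu₁ ▸ u₁.isUnit⟩ f {p}
      fun ℓ hℓ hℓp A hA τ hτ hτK hτa => hfH _ (hsplit ℓ hℓ hℓp A hA τ hτ hτK hτa)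
    obtain ⟨y, rfl⟩ : ∃ y, c = (p : ZMod n) * y := by
      refine (isUnit_or_exists_mul hn c).resolve_left fun hcu => hgood ⟨f, hfH, ?_⟩
      obtain ⟨ℓ₂, hℓ₂, hℓ₂p, A₂, hA₂, τ₂, hτ₂, hτ₂K, hτ₂u⟩ :=
        exists_frobenius_unit ha ⟨g₁, hg₁, hu₁ ▸ u₁.isUnit⟩ {p}
      exact ⟨_, (hc ℓ₂ hℓ₂ (kummerMoved_of_ne hn hℓ₂ (Finset.notMem_singleton.1 hℓ₂p))
        A₂ hA₂ τ₂ hτ₂ hτ₂K).symm ▸ hcu.mul hτ₂u⟩
    have e : f.comp nm =
        (AddMonoidHom.toMultiplicative ((AddMonoidHom.mulLeft ((p : ZMod n) * y)).comp ι)).comp f' :=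
      classChar_ext {p} fun ℓ hℓ hℓp A hA τ hτ hτL => by
        show addVal f (nm (ClassGroup.mk0 (placeNZ L hℓ hA))) =
          (p : ZMod n) * y * ι (addVal f' (ClassGroup.mk0 (placeNZ L hℓ hA)))
        rw [hnmP ℓ hℓ A hA τ hτ hτL, hf'p ℓ hℓ (Finset.notMem_singleton.1 hℓp) A hA τ hτ hτL,
          hιa' τ hτL, hc ℓ hℓ (kummerMoved_of_ne hn hℓ (Finset.notMem_singleton.1 hℓp)) A hA τ hτ
            ((hLfix τ).1 hτL).1]
    refine hfC ?_
    have h1 := congrArg Multiplicative.toAdd (DFunLike.congr_fun e C')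
    change addVal f (nm C') = (p : ZMod n) * y * ι (addVal f' C') at h1
    have hzero : (p : ZMod n) * ((p : ZMod n) * ((p ^ k : ℕ) : ZMod n)) = 0 := by
      rw [← Nat.cast_mul, ← Nat.cast_mul, ← pow_succ', ← pow_succ', ← hn, ZMod.natCast_self]
    rw [h1, hC'v, hι, mulP_natCast]
    linear_combination y * hzero

end

end Fermat.Agent.CFT
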