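/-
The Artin map of an everywhere unramified character with values in `ZMod (p ^ (k + 1))`, for
`p` odd or `K` totally complex: its value at every prime of degree one of residue characteristic
`ℓ` (ramified over `ℚ` or not), where `ℓ ≠ p`, or the exponent is `p`, or `4`.
-/
import Fermat.Agent.CFT.ArtinPrimePower

set_option autoImplicit false

open scoped NumberField nonZeroDivisors Pointwise
open IsDedekindDomain

namespace Fermat.Agent.CFT

noncomputable section

local notation "Qb" => AlgebraicClosure ℚ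
local notation "GQ" => (AlgebraicClosure ℚ ≃ₐ[ℚ] AlgebraicClosure ℚ)

variable {p : ℕ} [hp : Fact p.Prime]

/-- **Artin map**, at all primes of degree one whose characteristic is `KummerMoved`. -/
theorem exists_artinMap (k : ℕ) : ∀ {n : ℕ} [NeZero n] {K : IntermediateField ℚ Qb}
    [FiniteDimensional ℚ K] [NumberField K] {a : GQ → ZMod n}, n = p ^ (k + 1) →
    (p ≠ 2 ∨ NumberField.IsTotallyComplex K) → UnramifiedChar n K a →
    ∃ f : ClassGroup (𝓞 K) →* Multiplicative (ZMod n), ∀ (ℓ : ℕ) (hℓ : ℓ.Prime),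
      KummerMoved p n ℓ → ∀ (A : ValuationSubring Qb) (hA : A.LiesOverPrime ℓ) (τ : GQ),
        A.IsFrobeniusAt τ ℓ → τ ∈ K.fixingSubgroup →
          addVal f (ClassGroup.mk0 (placeNZ K hℓ hA)) = a τ := by
  induction k with
  | zero =>
    intro n _ K _ _ a hn hinf ha
    by_cases hsurj : ∃ σ ∈ K.fixingSubgroup, IsUnit (a σ)
    · exact exists_artin_surjective 0 hn hinf ha hsurj
    · push Not at hsurj
      refine ⟨1, fun ℓ hℓ _ A hA τ _ hτK => ?_⟩
      rcases isUnit_or_exists_mul hn (a τ) with hu | ⟨y, hy⟩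
      · exact absurd hu (hsurj τ hτK)
      · rw [zero_add, pow_one] at hn
        subst hn
        rw [hy, ZMod.natCast_self, zero_mul, addVal, MonoidHom.one_apply, toAdd_one]
  | succ k ih =>
    intro n _ K _ _ a hn hinf ha
    by_cases hsurj : ∃ σ ∈ K.fixingSubgroup, IsUnit (a σ)
    · exact exists_artin_surjective (k + 1) hn hinf ha hsurj
    · push Not at hsurj
      have : NeZero (p ^ (k + 1)) := ⟨pow_ne_zero _ hp.out.ne_zero⟩
      have hnm : n = p * p ^ (k + 1) := by rw [hn, pow_succ' p (k + 1)]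
      obtain ⟨b, hb, hbι⟩ := exists_divided hp.out.pos hnm ha fun g hg =>
        (isUnit_or_exists_mul hn (a g)).resolve_left (hsurj g hg)
      obtain ⟨f, hf⟩ := ih rfl hinf hb
      refine ⟨(AddMonoidHom.toMultiplicative (mulP hnm)).comp f,
        fun ℓ hℓ hℓK A hA τ hτ hτK => ?_⟩
      show mulP hnm (addVal f (ClassGroup.mk0 (placeNZ K hℓ hA))) = a τ
      rw [hf ℓ hℓ (hℓK.of_dvd ⟨p, by rw [hnm, mul_comm]⟩) A hA τ hτ hτK, hbι τ hτK]

variable {K : IntermediateField ℚ (AlgebraicClosure ℚ)} [FiniteDimensional ℚ K] [NumberField K]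

/-- Away from `p`. -/
theorem exists_artinMap_of_ne (hinf : p ≠ 2 ∨ NumberField.IsTotallyComplex K) {k n : ℕ} [NeZero n]
    (hn : n = p ^ (k + 1)) {a : GQ → ZMod n} (ha : UnramifiedChar n K a) :
    ∃ f : ClassGroup (𝓞 K) →* Multiplicative (ZMod n), ∀ (ℓ : ℕ) (hℓ : ℓ.Prime), ℓ ≠ p →
      ∀ (A : ValuationSubring Qb) (hA : A.LiesOverPrime ℓ) (τ : GQ), A.IsFrobeniusAt τ ℓ →
        τ ∈ K.fixingSubgroup → addVal f (ClassGroup.mk0 (placeNZ K hℓ hA)) = a τ := by
  obtain ⟨f, hf⟩ := exists_artinMap k hn hinf ha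
  exact ⟨f, fun ℓ hℓ hℓp => hf ℓ hℓ (kummerMoved_of_ne hn hℓ hℓp)⟩

/-- Exponent `p`: every prime of degree one. -/
theorem exists_artinMap_prime (hinf : p ≠ 2 ∨ NumberField.IsTotallyComplex K) {a : GQ → ZMod p}
    (ha : UnramifiedChar p K a) :
    ∃ f : ClassGroup (𝓞 K) →* Multiplicative (ZMod p), ∀ (ℓ : ℕ) (hℓ : ℓ.Prime),
      ∀ (A : ValuationSubring Qb) (hA : A.LiesOverPrime ℓ) (τ : GQ), A.IsFrobeniusAt τ ℓ →
        τ ∈ K.fixingSubgroup → addVal f (ClassGroup.mk0 (placeNZ K hℓ hA)) = a τ := by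
  obtain ⟨f, hf⟩ := exists_artinMap 0 (pow_one p).symm hinf ha
  refine ⟨f, fun ℓ hℓ => hf ℓ hℓ ?_⟩
  by_cases hℓp : ℓ = p
  · subst hℓp
    exact kummerMoved_self
  · exact kummerMoved_of_ne (k := 0) (pow_one p).symm hℓ hℓp

omit hp in
/-- Exponent `4`, for a totally complex field: every prime of degree one. -/
theorem exists_artinMap_four [NumberField.IsTotallyComplex K] {a : GQ → ZMod 4}
    (ha : UnramifiedChar 4 K a) :
    ∃ f : ClassGroup (𝓞 K) →* Multiplicative (ZMod 4), ∀ (ℓ : ℕ) (hℓ : ℓ.Prime),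
      ∀ (A : ValuationSubring Qb) (hA : A.LiesOverPrime ℓ) (τ : GQ), A.IsFrobeniusAt τ ℓ →
        τ ∈ K.fixingSubgroup → addVal f (ClassGroup.mk0 (placeNZ K hℓ hA)) = a τ := by
  have : Fact (Nat.Prime 2) := ⟨Nat.prime_two⟩
  obtain ⟨f, hf⟩ := exists_artinMap (p := 2) 1 (show (4 : ℕ) = 2 ^ (1 + 1) by norm_num)
    (Or.inr inferInstance) ha
  refine ⟨f, fun ℓ hℓ => hf ℓ hℓ ?_⟩
  by_cases hℓ2 : ℓ = 2
  · subst hℓ2
    exact kummerMoved_two_four
  · exact kummerMoved_of_ne (k := 1) (by norm_num) hℓ hℓ2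

end

end Fermat.Agent.CFT
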