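/-
The class group character attached to an everywhere unramified character of odd prime order, for
an arbitrary number field inside `ℚ̄`.
-/
import Fermat.Agent.CFT.ArtinMap

set_option autoImplicit false

open scoped NumberField nonZeroDivisors Pointwise
open IsDedekindDomain

namespace Fermat.Agent.CFT

noncomputable section

local notation "Qb" => AlgebraicClosure ℚ
local notation "GQ" => (AlgebraicClosure ℚ ≃ₐ[ℚ] AlgebraicClosure ℚ)

variable {p : ℕ} [Fact p.Prime] {K : IntermediateField ℚ (AlgebraicClosure ℚ)} {a : GQ → ZMod p}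

/-- Artin reciprocity for an unramified character of exponent `p`, outside a finite set. -/
theorem exists_artinChar [FiniteDimensional ℚ K] [NumberField K] (hp2 : p ≠ 2) (ha : UnramifiedChar p K a) :
    ∃ (f : ClassGroup (𝓞 K) →* Multiplicative (ZMod p)) (S : Finset ℕ),
      ∀ (ℓ : ℕ) (hℓ : ℓ.Prime), ℓ ∉ S → ∀ (A : ValuationSubring Qb) (hA : A.LiesOverPrime ℓ)
        (τ : GQ), A.IsFrobeniusAt τ ℓ → τ ∈ K.fixingSubgroup →
          addVal f (ClassGroup.mk0 (placeNZ K hℓ hA)) = a τ := by
  obtain ⟨f, hf⟩ := exists_artinMap_prime (Or.inl hp2) ha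
  exact ⟨f, ∅, fun ℓ hℓ _ => hf ℓ hℓ⟩

end

end Fermat.Agent.CFT
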