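/-
An admissible extension of `F_p(1)` by `F_p` splits globally: its class restricted to
`Gal(ℚ̄/ℚ(ζ_p))` is an unramified character, which Artin reciprocity turns into a class group
character in the `ω⁻¹` component, killed by Stickelberger's relation.
-/
import Mathlib.NumberTheory.Cyclotomic.Basic
import Mathlib.LinearAlgebra.Dimension.Finrank
import Fermat.Prelude.Def_ExtCitation_AdmissibleExtension_v2
import Fermat.Agent.CFT.ArtinVariant
import Fermat.Agent.Stick.Jacobi

set_option autoImplicit false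

open scoped NumberField nonZeroDivisors Pointwise
open IsDedekindDomain ExtCitation

namespace Fermat.Agent.CFT

noncomputable section

local notation "Qb" => AlgebraicClosure ℚ
local notation "GQ" => (AlgebraicClosure ℚ ≃ₐ[ℚ] AlgebraicClosure ℚ)

variable {p : ℕ} [hp : Fact p.Prime]

theorem cycloExp_eq_chiMod [NeZero p] (σ : GQ) :
    (cycloExp p σ : ZMod p) = Datum.chiMod p σ := by
  show ((Datum.chiMod p σ).val : ZMod p) = _
  exact ZMod.natCast_zmod_val _

section Extension

variable {V : Type} [AddCommGroup V] [Module (ZMod p) V]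
  [DistribMulAction (AlgebraicClosure ℚ ≃ₐ[ℚ] AlgebraicClosure ℚ) V]
  [SMulCommClass (AlgebraicClosure ℚ ≃ₐ[ℚ] AlgebraicClosure ℚ) (ZMod p) V]
  {C : Submodule (ZMod p) V}

/-- The failure of `v` to be an eigenvector. -/
def defect (p : ℕ) [Fact p.Prime] [Module (ZMod p) V] (v : V) (σ : GQ) : V :=
  σ • v - (cycloExp p σ : ZMod p) • v

theorem defect_mul [NeZero p] (hC : IsAdmissibleExtension p V C) (v : V) (σ τ : GQ) :
    defect p v (σ * τ) = (Datum.chiMod p τ) • defect p v σ + defect p v τ := by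
  have hfix : σ • defect p v τ = defect p v τ := hC.fixed_sub σ _ (hC.cyclo_quot τ v)
  have e : (σ * τ) • v = Datum.chiMod p τ • σ • v + defect p v τ := by
    rw [mul_smul, ← hfix, ← smul_comm σ, ← smul_add]
    congr 1
    rw [defect, cycloExp_eq_chiMod, add_sub_cancel]
  simp only [defect, cycloExp_eq_chiMod] at e ⊢
  rw [e, map_mul, smul_sub, smul_smul, mul_comm (Datum.chiMod p σ)]
  abel

/-- If the defect of `v` vanishes on `Gal(ℚ̄/ℚ(ζ_p))` the extension splits. -/
theorem splitsGlobally_of_defect_zero [NeZero p] (h3 : 3 ≤ p)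
    (hC : IsAdmissibleExtension p V C) {v : V} (hv : v ∉ C)
    (h0 : ∀ σ : GQ, Datum.chiMod p σ = 1 → defect p v σ = 0) : SplitsGlobally C := by
  classical
  have h2 : (2 : ZMod p) ≠ 0 := by
    intro h
    have h' : ((2 : ℕ) : ZMod p) = 0 := by exact_mod_cast h
    rw [ZMod.natCast_eq_zero_iff] at h'
    have := Nat.le_of_dvd two_pos h'
    omega
  obtain ⟨ℓ, hℓp, hℓ, hℓ2⟩ := Nat.forall_exists_prime_gt_and_eq_mod (isUnit_iff_ne_zero.2 h2) p
  obtain ⟨A, σ₀, hA, hσ₀⟩ := Galois.exists_valuationSubring_isFrobeniusAt hℓ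
  have hu : Datum.chiMod p σ₀ = 2 := by
    rw [Datum.chiMod_frobenius p hA hσ₀ ((Nat.coprime_primes hℓ hp.out).2 (by omega)), hℓ2]
  set δ₀ := defect p v σ₀ with hδ₀
  have hδ : ∀ σ : GQ, defect p v σ = (Datum.chiMod p σ - 1) • δ₀ := by
    intro σ
    set X := σ₀ * σ with hX
    have hh : Datum.chiMod p (X⁻¹ * (σ * σ₀)) = 1 := by
      have e : Datum.chiMod p X = Datum.chiMod p (σ * σ₀) := by
        rw [hX, map_mul, map_mul, mul_comm]
      rw [map_mul, ← e, ← map_mul, inv_mul_cancel, map_one]
    have h1 := defect_mul hC v X (X⁻¹ * (σ * σ₀))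
    rw [mul_inv_cancel_left, hh, h0 _ hh, one_smul, add_zero, hX, defect_mul hC, defect_mul hC,
      hu] at h1
    rw [← hδ₀] at h1
    rw [sub_smul, one_smul, eq_sub_iff_add_eq]
    rw [two_smul, add_assoc] at h1
    exact add_left_cancel (h1.trans (add_comm _ _))
  set w := v + δ₀ with hw
  have hwC : w ∉ C := fun h => hv (by
    have := C.sub_mem h (hC.cyclo_quot σ₀ v)
    rwa [hw, hδ₀, defect, add_sub_cancel_right] at this)
  have hwfix : ∀ σ : GQ, σ • w = Datum.chiMod p σ • w := by
    intro σ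
    have hd : σ • v = Datum.chiMod p σ • v + defect p v σ := by
      rw [defect, cycloExp_eq_chiMod, add_sub_cancel]
    rw [hw, smul_add, hC.fixed_sub σ δ₀ (hC.cyclo_quot σ₀ v), hd, hδ σ, sub_smul, one_smul,
      smul_add]
    abel
  refine ⟨Submodule.span (ZMod p) {w}, fun σ x hx => ?_, ?_⟩
  · obtain ⟨k, rfl⟩ := Submodule.mem_span_singleton.1 hx
    rw [smul_comm, hwfix, smul_smul]
    exact Submodule.smul_mem _ _ (Submodule.mem_span_singleton_self w)
  · have hfin : Finite V := Nat.finite_of_card_ne_zero (by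
      rw [hC.card_total]; exact pow_ne_zero _ hp.out.ne_zero)
    have hw0 : w ≠ 0 := fun h => hwC (h ▸ C.zero_mem)
    have hdisj : Disjoint C (Submodule.span (ZMod p) {w}) := by
      rw [Submodule.disjoint_span_singleton' hw0]
      exact hwC
    have hfr : Module.finrank (ZMod p) V = 2 := by
      have h := Module.natCard_eq_pow_finrank (K := ZMod p) (V := V)
      rw [hC.card_total, Nat.card_zmod] at h
      exact (Nat.pow_right_injective hp.out.two_le h).symm
    have hfrC : Module.finrank (ZMod p) C = 1 := by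
      have h := Module.natCard_eq_pow_finrank (K := ZMod p) (V := C)
      rw [hC.card_sub, Nat.card_zmod] at h
      exact (Nat.pow_right_injective hp.out.two_le (show p ^ 1 = _ by rw [pow_one]; exact h)).symm
    exact (Submodule.isCompl_iff_disjoint C _ (by
      rw [hfr, hfrC, finrank_span_singleton hw0])).2 hdisj

end Extension

/-- An `ω⁻¹`-equivariant everywhere unramified character of `Gal(ℚ̄/ℚ(ζ_p))` vanishes. -/
theorem eigen_unramifiedChar_eq_zero [NeZero p] (hp2 : p ≠ 2) {ζ : Qb} (hζ : IsPrimitiveRoot ζ p)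
    {a : GQ → ZMod p} (ha : UnramifiedChar p (IntermediateField.adjoin ℚ {ζ}) a)
    (heq : ∀ g τ : GQ, τ ∈ (IntermediateField.adjoin ℚ {ζ}).fixingSubgroup →
      Datum.chiMod p g * a (g * τ * g⁻¹) = a τ)
    {σ : GQ} (hσ : σ ∈ (IntermediateField.adjoin ℚ {ζ}).fixingSubgroup) : a σ = 0 := by
  classical
  set K := IntermediateField.adjoin ℚ {ζ} with hKdef
  have : Algebra.IsIntegral ℚ Qb := inferInstance
  have : FiniteDimensional ℚ K :=
    IntermediateField.adjoin.finiteDimensional (Algebra.IsIntegral.isIntegral ζ)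
  have : NumberField K := @NumberField.mk _ _ inferInstance inferInstance
  have hcyc : IsCyclotomicExtension {p} ℚ K := hζ.intermediateField_adjoin_isCyclotomicExtension ℚ
  have hζK : ζ ∈ K := IntermediateField.mem_adjoin_simple_self ℚ ζ
  have hmemK : ∀ g : GQ, g ∈ K.fixingSubgroup ↔ Datum.chiMod p g = 1 := by
    intro g
    constructor
    · intro hg
      have h := Datum.chiMod_eq_natCast p g (a := 1) fun μ hμ => by
        obtain ⟨i, -, rfl⟩ := hζ.eq_pow_of_pow_eq_one hμ
        rw [pow_one, map_pow, (IntermediateField.mem_fixingSubgroup_iff _ g).1 hg ζ hζK]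
      simpa using h
    · intro hg
      have h : g ζ = ζ := by
        rw [Datum.chiMod_spec p g hζ.pow_eq_one, hg, ZMod.val_one, pow_one]
      refine (IntermediateField.mem_fixingSubgroup_iff _ g).2 fun x hx => ?_
      have hle : K ≤ IntermediateField.fixedField (Subgroup.zpowers g) := by
        rw [hKdef, IntermediateField.adjoin_simple_le_iff, IntermediateField.mem_fixedField_iff]
        intro f hf
        obtain ⟨k, rfl⟩ := Subgroup.mem_zpowers_iff.1 hf
        exact Subgroup.zpow_mem _ (show g ∈ MulAction.stabilizer GQ ζ from h) k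
      exact (IntermediateField.mem_fixedField_iff _ _).1 (hle hx) g (Subgroup.mem_zpowers g)
  by_contra hne
  obtain ⟨f, S, hf⟩ := exists_artinChar hp2 ha
  have hzero : ∀ (ℓ : ℕ), ℓ.Prime → ℓ ∉ insert p S → ∀ A : ValuationSubring Qb,
      A.LiesOverPrime ℓ → ∀ τ : GQ, A.IsFrobeniusAt τ ℓ → τ ∈ K.fixingSubgroup → a τ = 0 := by
    intro ℓ hℓ hℓS A hA τ hτ hτK
    rw [Finset.mem_insert, not_or] at hℓS
    have := Fact.mk hℓ
    set lam : Ideal (𝓞 K) → ZMod p := fun I =>
      if h : I ≠ 0 then addVal f (ClassGroup.mk0 ⟨I, mem_nonZeroDivisors_iff_ne_zero.2 h⟩) else 0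
      with hlam
    have hlamA : ∀ (B : ValuationSubring Qb) (hB : B.LiesOverPrime ℓ),
        lam (placeIdeal K B) = addVal f (ClassGroup.mk0 (placeNZ K hℓ hB)) := fun B hB => by
      rw [hlam]
      exact dif_pos (show placeIdeal K B ≠ 0 from placeIdeal_ne_bot K hℓ hB)
    have hℓ1 : ℓ % p = 1 := by
      have h := (hmemK τ).1 hτK
      rw [Datum.chiMod_frobenius p hA hτ ((Nat.coprime_primes hℓ hp.out).2 hℓS.1)] at h
      have h' := congrArg ZMod.val h
      rwa [ZMod.val_natCast, ZMod.val_one] at h'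
    set P := placeIdeal K A with hP
    have : P.LiesOver (Ideal.span {(ℓ : ℤ)}) := ⟨by
      refine (PrincipalIdealRing.isMaximal_of_irreducible
        (Nat.prime_iff_prime_int.mp hℓ).irreducible).eq_of_le (Ideal.IsPrime.under ℤ P).ne_top ?_
      rw [Ideal.span_singleton_le_iff_mem, Ideal.mem_comap]
      simpa using natCast_mem_placeIdeal K hA⟩
    have key : lam P = 0 := by
      refine Stick.eigenchar_eq_zero (l := ℓ) p P (hp.out.odd_of_ne_two hp2) hℓ1 lam ?_ ?_
      · intro γ
        obtain ⟨g, hg⟩ := exists_extend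
          ((IsScalarTower.toAlgHom ℚ K Qb).comp γ.toAlgHom)
        have hgB : (g • A).LiesOverPrime ℓ := by
          rw [ValuationSubring.LiesOverPrime, Galois.mem_smul_nonunits, AlgEquiv.smul_def,
            map_natCast]
          exact hA
        have hgP : γ • P = placeIdeal K (g • A) := by
          ext x
          rw [Ideal.mem_pointwise_smul_iff_inv_smul_mem, hP, mem_placeIdeal, mem_placeIdeal,
            Galois.mem_smul_nonunits]
          have e : g (((γ⁻¹ • x : 𝓞 K) : K) : Qb) = ((x : K) : Qb) := by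
            rw [hg]
            show ((γ (γ⁻¹ (x : K)) : K) : Qb) = _
            congr 1
            exact γ.apply_symm_apply _
          rw [← e, AlgEquiv.smul_def]
          simp only [← AlgEquiv.mul_apply, inv_mul_cancel, AlgEquiv.one_apply]
        have hc : Datum.chiMod p g =
            ((IsCyclotomicExtension.Rat.galEquivZMod p K γ : (ZMod p)ˣ) : ZMod p) := by
          have h1 := Datum.chiMod_spec p g hζ.pow_eq_one
          have h2 := IsCyclotomicExtension.Rat.galEquivZMod_apply_of_pow_eq p K γ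
            (x := (⟨ζ, hζK⟩ : K)) (Subtype.ext hζ.pow_eq_one)
          have h3 : g ζ = ζ ^ ((IsCyclotomicExtension.Rat.galEquivZMod p K γ : (ZMod p)ˣ) :
              ZMod p).val :=
            (hg ⟨ζ, hζK⟩).trans (congrArg (fun z : K => (z : Qb)) h2)
          rw [h1] at h3
          exact ZMod.val_injective p (hζ.pow_inj (ZMod.val_lt _) (ZMod.val_lt _) h3)
        have hconjK : g * τ * g⁻¹ ∈ K.fixingSubgroup := (hmemK _).2 (by
          rw [map_mul, map_mul, (hmemK τ).1 hτK, mul_one, ← map_mul, mul_inv_cancel, map_one])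
        have e1 := hf ℓ hℓ hℓS.2 (g • A) hgB _ (Density.isFrobeniusAt_conj hτ g) hconjK
        have e2 := hf ℓ hℓ hℓS.2 A hA τ hτ hτK
        rw [hgP, hlamA _ hgB, hP, hlamA _ hA, e1, e2, ← heq g τ hτK, hc, Units.inv_mul_cancel_left]
      · intro x s hx hs hspan
        have hne0 : ∀ Q ∈ s, Q ≠ 0 := fun Q hQ h => by
          have h0 : ∏ Q ∈ s, Q = 0 := Finset.prod_eq_zero hQ h
          rw [← hspan, Ideal.zero_eq_bot, Ideal.span_singleton_eq_bot] at h0
          exact hx h0
        have hsum : ∀ T : Finset (Ideal (𝓞 K)), (∀ Q ∈ T, Q ≠ 0) →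
            ∑ Q ∈ T, lam Q = lam (∏ Q ∈ T, Q) := by
          intro T
          induction T using Finset.induction with
          | empty =>
            intro _
            rw [Finset.sum_empty, Finset.prod_empty, hlam]
            dsimp only
            rw [dif_pos one_ne_zero, show (⟨(1 : Ideal (𝓞 K)), mem_nonZeroDivisors_iff_ne_zero.2
              one_ne_zero⟩ : (Ideal (𝓞 K))⁰) = 1 from rfl, map_one, addVal, map_one, toAdd_one]
          | @insert Q T hQ ih =>
            intro hT
            have hQ0 := hT Q (Finset.mem_insert_self _ _)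
            have hT0 : ∏ R ∈ T, R ≠ 0 :=
              Finset.prod_ne_zero_iff.2 fun R hR => hT R (Finset.mem_insert_of_mem hR)
            rw [Finset.sum_insert hQ, Finset.prod_insert hQ,
              ih fun R hR => hT R (Finset.mem_insert_of_mem hR), hlam]
            dsimp only
            rw [dif_pos hQ0, dif_pos hT0, dif_pos (mul_ne_zero hQ0 hT0), ← addVal_mul, ← map_mul]
            rfl
        rw [hsum s hne0, ← hspan, hlam]
        dsimp only
        have hx0 : Ideal.span {x} ≠ (0 : Ideal (𝓞 K)) := by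
          rwa [Ne, Ideal.zero_eq_bot, Ideal.span_singleton_eq_bot]
        rw [dif_pos hx0, show ClassGroup.mk0 (⟨Ideal.span {x},
          mem_nonZeroDivisors_iff_ne_zero.2 hx0⟩ : (Ideal (𝓞 K))⁰) = 1 from
            (ClassGroup.mk0_eq_one_iff _).2 ⟨⟨x, rfl⟩⟩, addVal, map_one, toAdd_one]
    rw [hlamA A hA, hf ℓ hℓ hℓS.2 A hA τ hτ hτK] at key
    exact key
  obtain ⟨L₀, hL₀f, hL₀⟩ := ha.exists_level
  obtain ⟨ℓ, hℓ, hℓS, A, hA, τ, hτ, hτK, -, ⟨k, hk⟩, -⟩ :=
    Density.exists_frobenius_pow_over K L₀ σ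
      ((IntermediateField.mem_fixingSubgroup_iff _ σ).1 hσ) (insert p S)
  have hτK' : τ ∈ K.fixingSubgroup := (IntermediateField.mem_fixingSubgroup_iff _ τ).2 hτK
  refine hne ?_
  rw [ha.eq_of_agree hL₀ hσ (pow_mem hτK' k) hk, ha.map_pow hτK',
    hzero ℓ hℓ hℓS A hA τ hτ hτK', mul_zero]

section Main

variable {V : Type} [AddCommGroup V] [Module (ZMod p) V]
  [DistribMulAction (AlgebraicClosure ℚ ≃ₐ[ℚ] AlgebraicClosure ℚ) V]
  [SMulCommClass (AlgebraicClosure ℚ ≃ₐ[ℚ] AlgebraicClosure ℚ) (ZMod p) V]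
  {C : Submodule (ZMod p) V}

/-- Admissible extensions split. -/
theorem splitsGlobally_of_admissible (h3 : 3 ≤ p) (hadm : IsAdmissibleExtensionCts p V C) :
    SplitsGlobally C := by
  classical
  have : NeZero p := ⟨hp.out.ne_zero⟩
  have hC := hadm.toIsAdmissibleExtension
  have hfin : Finite V := Nat.finite_of_card_ne_zero (by
    rw [hC.card_total]; exact pow_ne_zero _ hp.out.ne_zero)
  obtain ⟨v, hv⟩ : ∃ v, v ∉ C := by
    by_contra hall
    push Not at hall
    have e : Nat.card C = Nat.card V := Nat.card_congr (Equiv.subtypeUnivEquiv hall)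
    rw [hC.card_sub, hC.card_total] at e
    have := hp.out.two_le
    nlinarith [e]
  refine splitsGlobally_of_defect_zero h3 hC hv fun σ hσ => ?_
  by_contra hne
  have hdC : defect p v σ ∈ C := hC.cyclo_quot σ v
  obtain ⟨d, hd⟩ := exists_coord_ne_zero (V := V) (p := p) hne
  obtain ⟨ζ, hζ⟩ := HasEnoughRootsOfUnity.exists_primitiveRoot Qb p
  set K := IntermediateField.adjoin ℚ {ζ} with hKdef
  have hK1 : ∀ g : GQ, g ∈ K.fixingSubgroup → Datum.chiMod p g = 1 := by
    intro g hg
    have h := Datum.chiMod_eq_natCast p g (a := 1) fun μ hμ => by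
      obtain ⟨i, -, rfl⟩ := hζ.eq_pow_of_pow_eq_one hμ
      rw [pow_one, map_pow, (IntermediateField.mem_fixingSubgroup_iff _ g).1 hg ζ
        (IntermediateField.mem_adjoin_simple_self ℚ ζ)]
    simpa using h
  have hfix0 : ∀ g : GQ, Datum.chiMod p g = 1 → (g • v = v → defect p v g = 0) := by
    intro g hg hgv
    rw [defect, cycloExp_eq_chiMod, hg, one_smul, hgv, sub_self]
  set a : GQ → ZMod p := fun g => d (defect p v g) with hadef
  have hlin : ∀ (c : ZMod p) (x : V), d (c • x) = c * d x := fun c x => by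
    rw [← ZMod.natCast_zmod_val c, Nat.cast_smul_eq_nsmul, map_nsmul, nsmul_eq_mul]
  have hmul : ∀ g h : GQ, a (g * h) = Datum.chiMod p h * a g + a h := fun g h => by
    simp only [hadef]
    rw [defect_mul hC, map_add, hlin]
  have ha : UnramifiedChar p K a := by
    refine ⟨fun g h _ hh => by rw [hmul, hK1 h hh, one_mul], ?_, ?_⟩
    · have h1 : {g : GQ | ∀ x : V, g • x = x} ∈ nhds (1 : GQ) :=
        hadm.open_kernel.mem_nhds fun x => one_smul _ x
      obtain ⟨L₀, hL₀f, hL₀⟩ := (krullTopology_mem_nhds_one_iff ℚ Qb _).1 h1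
      refine ⟨L₀, hL₀f, fun g hg hfix => ?_⟩
      have h2 : g ∈ L₀.fixingSubgroup := (IntermediateField.mem_fixingSubgroup_iff _ g).2 hfix
      simp only [hadef]
      rw [hfix0 g (hK1 g hg) (hL₀ h2 v), map_zero]
    · intro ℓ hℓ A hA g hg hgK
      simp only [hadef]
      refine (congrArg d (hfix0 g (hK1 g hgK) ?_)).trans d.map_zero
      by_cases hℓp : ℓ = p
      · subst hℓp
        obtain ⟨C', hst, hcompl⟩ := hC.locally_split A hA
        have hgD := Mult.mem_decomposition_of_mem_inertia hg
        obtain ⟨c, hc, c', hc', hsum⟩ :=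
          Submodule.mem_sup.1 (hcompl.sup_eq_top ▸ (Submodule.mem_top : v ∈ ⊤))
        have h1 : g • c' - c' ∈ C := by
          have := hC.cyclo_quot g c'
          rwa [cycloExp_eq_chiMod, hK1 g hgK, one_smul] at this
        have h2 : g • c' - c' ∈ C' := C'.sub_mem (hst g hgD c' hc') hc'
        have h3 := Submodule.disjoint_def.1 hcompl.disjoint _ h1 h2
        rw [← hsum, smul_add, hC.fixed_sub g c hc, sub_eq_zero.1 h3]
      · exact hC.unramified_outside ℓ hℓ hℓp A hA g hg v
  have heq : ∀ g τ : GQ, τ ∈ K.fixingSubgroup →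
      Datum.chiMod p g * a (g * τ * g⁻¹) = a τ := by
    intro g τ hτ
    have hi : Datum.chiMod p g⁻¹ * Datum.chiMod p g = 1 := by
      rw [← map_mul, inv_mul_cancel, map_one]
    have h1 := hmul g⁻¹ g
    rw [inv_mul_cancel] at h1
    have ha1 : a 1 = 0 := ha.map_one
    rw [ha1] at h1
    rw [hmul, hmul g τ, hK1 τ hτ, one_mul]
    linear_combination (a g + a τ) * hi - h1
  refine hd ?_
  have := eigen_unramifiedChar_eq_zero (by omega) hζ ha heq
    (σ := σ) ((IntermediateField.mem_fixingSubgroup_iff _ σ).2 fun x hx => by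
      have hle : K ≤ IntermediateField.fixedField (Subgroup.zpowers σ) := by
        rw [hKdef, IntermediateField.adjoin_simple_le_iff, IntermediateField.mem_fixedField_iff]
        intro f hf
        obtain ⟨k, rfl⟩ := Subgroup.mem_zpowers_iff.1 hf
        refine Subgroup.zpow_mem (MulAction.stabilizer GQ ζ) ?_ k
        show σ ζ = ζ
        rw [Datum.chiMod_spec p σ hζ.pow_eq_one, hσ, ZMod.val_one, pow_one]
      exact (IntermediateField.mem_fixedField_iff _ _).1 (hle hx) σ (Subgroup.mem_zpowers σ))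
  exact this

end Main

end

end Fermat.Agent.CFT
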